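import Mathlib
import Fermat.Agent.LT.T7.Level2

/-!
# Row LT, tower T7, node T7.L2.1 `SupplyC` (sub-architect helper893): FIRST CUT -- Spec

OFF-MAIN.  Definitions and frozen Props only (the proved top is `SupplyTop.lean`).  No `sorry`,
nothing assumed.  ADDITIVE (new names only).  Vocabulary: `T7/Level2.lean` (helper797,
sha256 1551664660339642) and its imports, byte-identical copies.

    supplyC_of893 : SetupC K K' → ProjC K' → ProjC K → FamC P K K' → SupplyC P K K'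

## The cut

`SupplyC P K K'` asks for ONE datum `Dt : L2Data K K'` with the 27 fields of `IsL2Data`.  The
datum has a COMMON part (degree, `σ`, frames, base level `𝔑₀`, `S'`, the split place `u` and its
orbit) and a part which depends on the bad element `g` (level `𝔫 g`, scalar `c g`, families
`φ' g`, `f g`, depth `m₀ g`), and every field of `IsL2Data` is either about the common part or
about ONE bad `g`.  So:

* **`SetupC K K'`** (leaf C0; algebraic number theory + T1 adapters): the common part exists,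
  `L2Base` with `IsL2Base`.  `IsL2Base` carries MORE than the common fields of `IsL2Data`: the
  hypotheses of `IsCompData` which do not depend on the level (`cyc`, `base`, the frames, `aut`
  for every level coming from `K`), and the facts which the construction of the families needs
  (`base_level`: `𝔑₀ = 𝔫₀ 𝒪_{K'}` with `u` dividing `𝔫₀` exactly once; `orbit_all`: the orbit is
  the set of ALL places over `u`; `fibre`: `S'` is a union of fibres).
* **`ProjC K`** (leaf C3a; ONE field, no extension; averaging): for a frame, a base level `𝔫₀`, a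
  level `𝔫 ⊆ 𝔫₀` with the same prime divisors, and places `o j ∣ 𝔫₀`: every cusp function of
  level `𝔫` has an orthogonal projection on the invariant cusp functions `IsWFn 𝔫₀ r l o`.
  Used twice: over `K'` (levels `𝔑 g ⊆ 𝔑₀`, the orbit) and over `K` (level `𝔫 g = 𝔫 g`, the place
  `u`).
* **`FamC P K K'`** (NODE C1 + C2 + C3b): for a common part and ONE bad `g` the part depending on
  `g` exists, `L2Fam` with `IsL2Fam` = the fields of `IsL2Data` at `g` except the two projections.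
  Second cut: `SupplyFam*.lean` (same directory).

The top assembles `Dt` with the axiom of choice over the bad `g` (junk at the other `g`).
-/

set_option autoImplicit false

open AutomorphicForm IsDedekindDomain NumberField MeasureTheory
open scoped ComplexConjugate

noncomputable section

namespace Fermat.Agent.LT.T7.H893

open Fermat.Agent.LT.H556 Fermat.Agent.LT.H556.A0 Fermat.Agent.LT.T7

attribute [local instance] Fermat.Agent.LT.T5.instMeasurableSpaceG

/-! ## 1. The common part -/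

section Base

variable (K K' : Type) [Field K] [NumberField K] [Field K'] [NumberField K'] [Algebra K K']

/-- The COMMON part of an `L2Data`. -/
structure L2Base where
  /-- the degree -/
  l : ℕ
  /-- the generator of the Galois group with its extension to the adeles -/
  s : T5.AdelicAut K'
  /-- the image of `K` in `K'` -/
  k : Subfield K'
  /-- the frame downstairs -/
  R : Frame5 K
  /-- the frame upstairs -/
  R' : Frame5 K'
  /-- the base level upstairs -/
  𝔑₀ : Ideal (𝓞 K')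
  /-- the places of `K'` dividing the base level -/
  S' : Finset (HeightOneSpectrum (𝓞 K'))
  /-- the regular place of `K` -/
  u : HeightOneSpectrum (𝓞 K)
  /-- the `σ`-orbit over `u` -/
  o : ℕ → HeightOneSpectrum (𝓞 K')

/-- The part of an `L2Data` which depends on the bad element (for ONE bad element). -/
structure L2Fam where
  /-- the level downstairs -/
  𝔫 : Ideal (𝓞 K)
  /-- the scalar of the Eisenstein-killing base on the eigen-classes -/
  c : EigData K' → ℂ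
  /-- the family upstairs -/
  φ' : List (Gen K') → ℤ → ℕ → G K' → ℂ
  /-- the family downstairs -/
  f : List (Gen K') → ℤ → ℕ → G K → ℂ
  /-- the regular depth -/
  m₀ : List (Gen K') → ℕ

variable {K K'}

/-- The extension of an ideal of `K` to `K'`. -/
def upI (𝔫 : Ideal (𝓞 K)) : Ideal (𝓞 K') := Ideal.map (algebraMap (𝓞 K) (𝓞 K')) 𝔫

/-- `g` is supported at the bad places (`L2Data.IsBad` for the common part). -/
def L2Base.IsBad (B : L2Base K K') (g : G K') : Prop :=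
  (∀ w : InfinitePlace K', TrivAtInf w g) ∧
    ∀ v : HeightOneSpectrum (𝓞 K'), (v ∉ B.S' ∨ ∃ j < B.l, v = B.o j) → TrivAtFin v g

/-- The data of the comparison for the level `𝔫` downstairs (`L2Data.comp`). -/
def L2Base.comp (B : L2Base K K') (𝔫 : Ideal (𝓞 K)) : CompData K K' where
  l := B.l
  s := B.s
  k := B.k
  𝔫 := 𝔫
  𝔑 := upI (K' := K') 𝔫
  R := B.R
  R' := B.R'

/-- The `L2Data` with common part `B` and `g`-part `Fm g`. -/
def L2Base.toData (B : L2Base K K') (Fm : G K' → L2Fam K K') : L2Data K K' where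
  l := B.l
  s := B.s
  k := B.k
  R := B.R
  R' := B.R'
  𝔑₀ := B.𝔑₀
  S' := B.S'
  u := B.u
  o := B.o
  𝔫 := fun g => (Fm g).𝔫
  c := fun g => (Fm g).c
  φ' := fun g => (Fm g).φ'
  f := fun g => (Fm g).f
  m₀ := fun g => (Fm g).m₀

/-- **THE PROPERTIES OF THE COMMON PART.** -/
structure IsL2Base (ℓ : ℕ) (Φ : HeckeEigensystem K' ℂ) (B : L2Base K K') : Prop where
  deg : B.l = ℓ
  /-- `σ` generates a cyclic group of order `ℓ` with fixed field `k` -/
  cyc : T5.IsCyclicOfDegree B.s B.l B.k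
  /-- `k` is the image of `K` -/
  base : ∀ x : K', x ∈ B.k ↔ ∃ y : K, algebraMap K K' y = x
  frame : IsFrame5 B.R
  frame' : IsFrame5 B.R'
  /-- `σ` preserves the frame upstairs, for every level which comes from `K` -/
  aut : ∀ 𝔫 : Ideal (𝓞 K), T5.AutPreserves B.s (upI (K' := K') 𝔫) B.R'.μ B.R'.r
  level_le : B.𝔑₀ ≤ Φ.level
  mem_S' : ∀ w : HeightOneSpectrum (𝓞 K'), w ∈ B.S' ↔ w.asIdeal ∣ B.𝔑₀
  const : ∀ w : HeightOneSpectrum (𝓞 K'), w ∉ B.S' →
    ∀ w' : HeightOneSpectrum (𝓞 K'), w' ∉ B.S' → ∀ v : HeightOneSpectrum (𝓞 K),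
      PlaceOver K K' v w → PlaceOver K K' v w' → Φ.a w = Φ.a w' ∧ Φ.b w = Φ.b w'
  orbit_rel : ∀ j : ℕ, T5.PlaceRel B.s (B.o j) (B.o (j + 1))
  orbit_ne : ∀ j : ℕ, 0 < j → j < ℓ → B.o j ≠ B.o 0
  orbit_over : ∀ j : ℕ, PlaceOver K K' B.u (B.o j)
  orbit_level : ∀ j : ℕ, B.o j ∈ B.S'
  orbit_good : ∀ j : ℕ, ¬ (B.o j).asIdeal ∣ Φ.level
  /-- the base level comes from `K`, and `u` divides it exactly once -/
  base_level : ∃ 𝔫₀ : Ideal (𝓞 K), 𝔫₀ ≠ ⊥ ∧ B.𝔑₀ = upI (K' := K') 𝔫₀ ∧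
    B.u.asIdeal ∣ 𝔫₀ ∧ ¬ B.u.asIdeal ^ 2 ∣ 𝔫₀
  /-- the orbit is the set of all places over `u` -/
  orbit_all : ∀ w : HeightOneSpectrum (𝓞 K'), PlaceOver K K' B.u w → ∃ j < ℓ, w = B.o j
  /-- `S'` is a union of fibres -/
  fibre : ∀ (v : HeightOneSpectrum (𝓞 K)) (w w' : HeightOneSpectrum (𝓞 K')),
    PlaceOver K K' v w → PlaceOver K K' v w' → w ∈ B.S' → w' ∈ B.S'

/-! ## 2. The part depending on the bad element -/

/-- **THE PROPERTIES OF THE `g`-PART** (the fields of `IsL2Data` at the bad element `g`, except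
the two orthogonal projections; `level_ne` is the field of `IsCompData`). -/
structure IsL2Fam (ℓ : ℕ) (Φ : HeckeEigensystem K' ℂ) (B : L2Base K K') (g : G K')
    (Fm : L2Fam K K') : Prop where
  level_ne : Fm.𝔫 ≠ ⊥
  level_g : upI (K' := K') Fm.𝔫 ≤ B.𝔑₀
  mem_S'_g : ∀ w : HeightOneSpectrum (𝓞 K'), w ∈ B.S' ↔ w.asIdeal ∣ upI (K' := K') Fm.𝔫
  u_level : B.u.asIdeal ∣ Fm.𝔫
  ekprod_up : ∀ (X : List (Gen K')) (k : ℤ) (m : ℕ), (∀ x ∈ X, x.Out B.S') →
    IsEKProd (upI (K' := K') Fm.𝔫) B.R' (Fm.φ' X k m)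
  ekprod_down : ∀ (X : List (Gen K')) (k : ℤ) (m : ℕ), (∀ x ∈ X, x.Out B.S') →
    IsEKProd Fm.𝔫 B.R (Fm.f X k m)
  reg_up : ∀ (X : List (Gen K')) (k : ℤ) (m : ℕ), (∀ x ∈ X, x.Out B.S') → Fm.m₀ X ≤ m →
    T5.IsTwRegular B.s B.l B.k (Fm.φ' X k m)
  reg_down : ∀ (X : List (Gen K')) (k : ℤ) (m : ℕ), (∀ x ∈ X, x.Out B.S') → Fm.m₀ X ≤ m →
    T5.IsTwRegular (T5.AdelicAut.id K) 1 ⊤ (Fm.f X k m)
  matched : ∀ (X : List (Gen K')) (k : ℤ) (m : ℕ), (∀ x ∈ X, x.Out B.S') → Fm.m₀ X ≤ m →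
    IsGlobMatch (B.comp Fm.𝔫) (Fm.φ' X k m) (Fm.f X k m)
  base_ne : ∀ C : EigData K', C.AgreeOut B.S' (eigOf Φ) → Fm.c C ≠ 0
  op_up : ∀ (X : List (Gen K')) (k : ℤ) (m : ℕ), (∀ x ∈ X, x.Out B.S') →
    ∀ (ψ : G K' → ℂ) (C : EigData K'), IsEigFn B.𝔑₀ B.R'.r ℓ B.o ψ C →
    ∀ (Hg H : Finset (G K')) (z : G K'), IsDblCosetSystem B.𝔑₀ g Hg →
      IsIwCosetSystem (B.o 0) H → IsScalarUniformizerAt (B.o 0) z →
      ∀ x : G K', T5.Rconv B.R'.μ (Fm.φ' X k m) ψ x
        = wordEv X C * Fm.c C * cosetOp Hg (shiftOp z k ((iwOp (B.o 0) H)^[m] ψ)) x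
  kill_up : ∀ (X : List (Gen K')) (k : ℤ) (m : ℕ), (∀ x ∈ X, x.Out B.S') →
    ∀ ψ : G K' → ℂ, T5.IsCuspFn (upI (K' := K') Fm.𝔫) T5.trivType B.R'.r ψ →
      (∀ χ : G K' → ℂ, IsWFn B.𝔑₀ B.R'.r ℓ B.o χ →
        T5.innerD B.R'.μ B.R'.F ψ χ = 0) →
      ∀ x : G K', T5.Rconv B.R'.μ (Fm.φ' X k m) ψ x = 0
  op_down : ∀ (X : List (Gen K')) (k : ℤ) (m : ℕ), (∀ x ∈ X, x.Out B.S') →
    ∀ (ψ : G K → ℂ) (c : EigData K) (C : EigData K'),
      IsEigFn Fm.𝔫 B.R.r 1 (fun _ => B.u) ψ c → IsBCData c C B.S' →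
    ∀ (H : Finset (G K)) (z : G K), IsIwCosetSystem B.u H → IsScalarUniformizerAt B.u z →
      ∀ x : G K, T5.Rconv B.R.μ (Fm.f X k m) ψ x
        = wordEv X C
          * T5.Rconv B.R.μ (Fm.f [] 0 0) (shiftOp z k ((iwOp B.u H)^[m] ψ)) x
  class_down : ∀ (ψ : G K → ℂ) (c : EigData K),
    IsEigFn Fm.𝔫 B.R.r 1 (fun _ => B.u) ψ c →
    IsEigFn Fm.𝔫 B.R.r 1 (fun _ => B.u) (T5.Rconv B.R.μ (Fm.f [] 0 0) ψ) c
  comm_down : ∀ ψ : G K → ℂ, IsWFn Fm.𝔫 B.R.r 1 (fun _ => B.u) ψ →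
    ∀ (H : Finset (G K)) (z : G K), IsIwCosetSystem B.u H → IsScalarUniformizerAt B.u z →
      (∀ x : G K, T5.Rconv B.R.μ (Fm.f [] 0 0) (iwOp B.u H ψ) x
        = iwOp B.u H (T5.Rconv B.R.μ (Fm.f [] 0 0) ψ) x) ∧
      ∀ (k : ℤ) (x : G K), T5.Rconv B.R.μ (Fm.f [] 0 0) (shiftOp z k ψ) x
        = shiftOp z k (T5.Rconv B.R.μ (Fm.f [] 0 0) ψ) x
  kill_down : ∀ (X : List (Gen K')) (k : ℤ) (m : ℕ), (∀ x ∈ X, x.Out B.S') →
    ∀ ψ : G K → ℂ, T5.IsCuspFn Fm.𝔫 T5.trivType B.R.r ψ →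
      (∀ χ : G K → ℂ, IsWFn Fm.𝔫 B.R.r 1 (fun _ => B.u) χ →
        T5.innerD B.R.μ B.R.F ψ χ = 0) →
      ∀ x : G K, T5.Rconv B.R.μ (Fm.f X k m) ψ x = 0

end Base

/-! ## 3. The leaves of the first cut -/

section Leaves

/-- **LEAF T7.L2.1.C3a = PROJ (orthogonal projection on the invariant cusp functions; ONE
field).**  For a frame, a base level `𝔫₀ ≠ 0`, a level `𝔫 ⊆ 𝔫₀`, `𝔫 ≠ 0`, and places
`o 0, …, o (l-1)` dividing `𝔫₀`: every cusp function `ψ` of level `𝔫` (trivial type, invariant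
under the ray generator) has an orthogonal projection `ψ₁` on the invariant cusp functions
`IsWFn 𝔫₀ r l o`.
Proof.  `ψ₁ = ` the average of the right translates of `ψ` over (a) the finite group
`H / U(𝔫)`, `H` = the compact group generated by `U(𝔫₀)` and the Iwahori subgroups at the `o j`
(`U(𝔫)` is normal in `GL₂(𝒪̂)`), (b) the compact torus `A_∞ / ⟨r⟩ Λ`, `A_∞` = the positive
scalars at the infinite places, `Λ` = the image of the units `ε ≡ 1 mod 𝔫` (`ψ` is invariant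
under `ε_∞ = ε · ε_f⁻¹`, `ε` central in `GL₂(K)`, `ε_f ∈ U(𝔫)`, and under the compact groups at
infinity; Dirichlet's unit theorem: `⟨r⟩ Λ` is a lattice in `A_∞`; ruling R1 of
`coord/LT-T7-helper797.md`).  `ψ₁` is a cusp function (averages of cusp functions), invariant;
`ψ - ψ₁ ⊥ χ` for invariant `χ` because the right translation by an element `h` with
`‖det h‖ = 1` is unitary on automorphic functions (`F h` is again a strict fundamental domain in
the slab). -/
def ProjC (K : Type) [Field K] [NumberField K] : Prop :=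
  ∀ R : Frame5 K, IsFrame5 R →
    ∀ 𝔫₀ 𝔫 : Ideal (𝓞 K), 𝔫 ≠ ⊥ → 𝔫 ≤ 𝔫₀ →
    ∀ (l : ℕ) (o : ℕ → HeightOneSpectrum (𝓞 K)), (∀ j : ℕ, (o j).asIdeal ∣ 𝔫₀) →
    ∀ ψ : G K → ℂ, T5.IsCuspFn 𝔫 T5.trivType R.r ψ →
      ∃ ψ₁ : G K → ℂ, IsWFn 𝔫₀ R.r l o ψ₁ ∧
        ∀ χ : G K → ℂ, IsWFn 𝔫₀ R.r l o χ →
          T5.innerD R.μ R.F (fun x => ψ x - ψ₁ x) χ = 0

variable (P : EKCond)
variable (K K' : Type) [Field K] [NumberField K] [Field K'] [NumberField K'] [Algebra K K']

/-- **LEAF T7.L2.1.C0 = SETUP** (algebraic number theory + adapters of T1).  The common part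
exists.
Proof.  `σ` = a generator of `Gal(K'/K)` (cyclic of prime order `ℓ`), extended to the adeles
(T1, adapters helper930); `k` = the image of `K`; frames: `T1.FundDomC`, `T1.UnimodC` for `K` and
`K'` (any frame of `K'`: `σ` preserves every Haar measure because it has finite order, and the
ray generator, the slab, the level groups of levels coming from `K`, the compact groups at
infinity); `u` = a place of `K` which splits completely in `K'`, prime to `Φ.level` and to the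
exceptional set of `ConstOnFibres` (there are infinitely many: Chebotarev for the trivial class,
or the elementary argument with the values of a minimal polynomial); `o j = σ^j (w)` for one
`w ∣ u`; `𝔫₀ = u · (Φ.level ∩ 𝒪_K) · ∏ (the places under the exceptional set)`,
`𝔑₀ = 𝔫₀ 𝒪_{K'}`, `S'` = the prime divisors of `𝔑₀`. -/
def SetupC : Prop :=
  ∀ ℓ : ℕ, IsCycExt K K' ℓ → ℓ ≠ 2 → TotCplx K →
    ∀ Φ : HeckeEigensystem K' ℂ, A0.IsCuspAdelicSph0 K' Φ → ConstOnFibres K Φ →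
      ∃ B : L2Base K K', IsL2Base ℓ Φ B

/-- **NODE T7.L2.1.F = FAMILIES** (C1 + C2 + C3b): for a common part and ONE bad element `g` the
part depending on `g` exists.  See `IsL2Fam`, the header of `T7/Level2.lean` (SUPPLY) and the
second cut. -/
def FamC : Prop :=
  ∀ ℓ : ℕ, IsCycExt K K' ℓ → ℓ ≠ 2 → TotCplx K →
    ∀ Φ : HeckeEigensystem K' ℂ, A0.IsCuspAdelicSph0 K' Φ → ConstOnFibres K Φ → P K' Φ →
      ∀ B : L2Base K K', IsL2Base ℓ Φ B → ∀ g : G K', B.IsBad g →
        ∃ Fm : L2Fam K K', IsL2Fam ℓ Φ B g Fm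

end Leaves

end Fermat.Agent.LT.T7.H893

end
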