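import Mathlib
import Fermat.Agent.LT.T7.H893.SupplySpec

/-!
# Row LT, tower T7, node T7.L2.1.F `FamC` (sub-architect helper893): SECOND CUT -- Spec

OFF-MAIN.  Definitions and frozen Props only (the proved top is `SupplyFamTop.lean`).  No
`sorry`, nothing assumed.  ADDITIVE.  Vocabulary: `SupplySpec.lean` (first cut), `T7/Level2.lean`.

    famC_of893 : PreC P K K' → EkProdUpC K K' → EkProdDownC K K' → OpUpC K K' → KillUpC K K'
                   → OpDownC K K' → ClassDownC K K' → CommDownC K K' → KillDownC K K'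
                   → FamC P K K'

## The shape of the families (ONE bad element `g`)

Operations on functions on `GL₂(𝔸)` (left translates, so that bi-invariance is preserved):
`ltr b φ = φ(b⁻¹ ·)`, `lsum H φ = ∑_{h ∈ H} φ(h⁻¹ ·)`, `iwL w H φ = q_w^{-1/2} lsum H φ`,
`regL w z H k m φ = ltr (z^k) ((iwL w H)^[m] φ)`.  For a left invariant measure
`R(ltr b φ) ψ = (R(φ) ψ)(· b)`, hence

    R(lsum H φ) = cosetOp H ∘ R(φ),   R(iwL w H φ) = iwOp w H ∘ R(φ),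
    R(regL w z H k m φ) = shiftOp z k ∘ (iwOp w H)^[m] ∘ R(φ).

The PRE-DATA `E : L2Pre K K'` for the bad element `g`: the level `𝔫`, BASE functions
`Φ₁ X` (the word `X` applied to an Eisenstein-killing function), `φ₂` (an Eisenstein-killing
function, `♮`-averaged: bi-invariant under `U(𝔑₀)` and the Iwahori subgroups along the orbit)
upstairs, `F₁ X`, `f₂` downstairs, coset systems `Hg` (for `U(𝔑₀) g U(𝔑₀) / U(𝔑₀)`), `H'`, `z'`
(Iwahori at `o 0`), `H`, `z` (Iwahori at `u`), scalars `c₁, c₂`, depths `m₀`.  THE FAMILIES: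

    φ' X k m = Φ₁ X ⋆ lsum Hg (regL (o 0) z' H' k m φ₂)      (over K')
    f  X k m = F₁ X ⋆ regL u z H k m f₂                       (over K)

so that `R(φ' X k m) = R(Φ₁ X) ∘ [U g U] ∘ Z^k ∘ 𝒰^m ∘ R(φ₂)` and
`R(f X k m) = R(F₁ X) ∘ Z^k ∘ 𝒰^m ∘ R(f₂)`, `f [] 0 0 = F₁ [] ⋆ f₂`.

* **`PreC P K K'`** (NODE = the CONSTRUCTION and the GEOMETRY): pre-data with `IsL2Pre` exist:
  test functions, Eisenstein-killing with adjoints, invariance, the SCALARS of the base functions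
  on the invariant eigenfunctions (T3, general archimedean parameter: `M.EKOpExistGenMC`,
  helper14; Hecke algebra outside `S'`), `♮`-KILL of `φ₂`, `f₂`, classes and commutation
  downstairs, REGULARITY (`T5/H32/RegConv.lean`, helper32) and MATCHED (station of helper584,
  row 2112) for the families above.
* **8 LEAVES (bookkeeping; cosets, translates, Fubini)**: each field of `IsL2Fam` which is an
  operator identity follows from `IsL2Pre`.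
-/

set_option autoImplicit false

open AutomorphicForm IsDedekindDomain NumberField MeasureTheory
open scoped ComplexConjugate

noncomputable section

namespace Fermat.Agent.LT.T7.H893

open Fermat.Agent.LT.H556 Fermat.Agent.LT.H556.A0 Fermat.Agent.LT.T7

attribute [local instance] Fermat.Agent.LT.T5.instMeasurableSpaceG

/-! ## 1. Operations on functions (one field) -/

section Ops

variable {K : Type} [Field K] [NumberField K]

/-- The left translate `φ(b⁻¹ ·)`: `R(ltr b φ) ψ = (R(φ) ψ)(· b)`. -/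
def ltr (b : G K) (φ : G K → ℂ) : G K → ℂ := fun y => φ (b⁻¹ * y)

/-- The sum of the left translates over `H`: `R(lsum H φ) = cosetOp H ∘ R(φ)`. -/
def lsum (H : Finset (G K)) (φ : G K → ℂ) : G K → ℂ := fun y => ∑ h ∈ H, φ (h⁻¹ * y)

/-- The normalised sum of the left translates over an Iwahori coset system at `w`:
`R(iwL w H φ) = iwOp w H ∘ R(φ)`. -/
def iwL (w : HeightOneSpectrum (𝓞 K)) (H : Finset (G K)) (φ : G K → ℂ) : G K → ℂ :=
  fun y => ((Real.sqrt (Ideal.absNorm w.asIdeal : ℝ) : ℝ) : ℂ)⁻¹ * ∑ h ∈ H, φ (h⁻¹ * y)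

/-- The regular member: `R(regL w z H k m φ) = shiftOp z k ∘ (iwOp w H)^[m] ∘ R(φ)`. -/
def regL (w : HeightOneSpectrum (𝓞 K)) (z : G K) (H : Finset (G K)) (k : ℤ) (m : ℕ)
    (φ : G K → ℂ) : G K → ℂ :=
  ltr (z ^ k) ((iwL w H)^[m] φ)

/-- `φ` is bi-invariant under `U(𝔫₀)` and under the Iwahori subgroups at the places
`o 0, …, o (l-1)` (the group of `IsWFn`). -/
def IsUInv (𝔫₀ : Ideal (𝓞 K)) (l : ℕ) (o : ℕ → HeightOneSpectrum (𝓞 K)) (φ : G K → ℂ) : Prop :=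
  (∀ u : G K, InLevelGroup 𝔫₀ u → ∀ y : G K, φ (u * y) = φ y ∧ φ (y * u) = φ y) ∧
    ∀ h : G K, (∀ w : InfinitePlace K, TrivAtInf w h) →
      (∀ v : HeightOneSpectrum (𝓞 K), (∀ j < l, v ≠ o j) → TrivAtFin v h) →
      (∀ j < l, T5.InIwahori (o j) h) → ∀ y : G K, φ (h * y) = φ y ∧ φ (y * h) = φ y

end Ops

/-! ## 2. The pre-data and the families -/

section Pre

variable (K K' : Type) [Field K] [NumberField K] [Field K'] [NumberField K'] [Algebra K K']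

/-- The PRE-DATA for one bad element.  See the header. -/
structure L2Pre where
  /-- the level downstairs -/
  𝔫 : Ideal (𝓞 K)
  /-- the scalar of the first base function upstairs -/
  c₁ : EigData K' → ℂ
  /-- the scalar of the second base function upstairs -/
  c₂ : EigData K' → ℂ
  /-- the first base function upstairs, with the word applied -/
  Φ₁ : List (Gen K') → G K' → ℂ
  /-- the second base function upstairs -/
  φ₂ : G K' → ℂ
  /-- the first base function downstairs, with the base change of the word applied -/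
  F₁ : List (Gen K') → G K → ℂ
  /-- the second base function downstairs -/
  f₂ : G K → ℂ
  /-- representatives of `U(𝔑₀) g U(𝔑₀) / U(𝔑₀)` -/
  Hg : Finset (G K')
  /-- an Iwahori coset system at `o 0` -/
  H' : Finset (G K')
  /-- a scalar uniformiser at `o 0` -/
  z' : G K'
  /-- an Iwahori coset system at `u` -/
  H : Finset (G K)
  /-- a scalar uniformiser at `u` -/
  z : G K
  /-- the regular depth -/
  m₀ : List (Gen K') → ℕ

variable {K K'}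

/-- The member of the family upstairs. -/
def L2Pre.up (B : L2Base K K') (E : L2Pre K K') (X : List (Gen K')) (k : ℤ) (m : ℕ) :
    G K' → ℂ :=
  T5.conv B.R'.μ (E.Φ₁ X) (lsum E.Hg (regL (B.o 0) E.z' E.H' k m E.φ₂))

/-- The member of the family downstairs. -/
def L2Pre.down (B : L2Base K K') (E : L2Pre K K') (X : List (Gen K')) (k : ℤ) (m : ℕ) :
    G K → ℂ :=
  T5.conv B.R.μ (E.F₁ X) (regL B.u E.z E.H k m E.f₂)

/-- THE FAMILIES of the pre-data. -/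
def L2Pre.toFam (B : L2Base K K') (E : L2Pre K K') : L2Fam K K' where
  𝔫 := E.𝔫
  c := fun C => E.c₁ C * E.c₂ C
  φ' := E.up B
  f := E.down B
  m₀ := E.m₀

/-- **THE PROPERTIES OF THE PRE-DATA** for the bad element `g`. -/
structure IsL2Pre (ℓ : ℕ) (Φ : HeckeEigensystem K' ℂ) (B : L2Base K K') (g : G K')
    (E : L2Pre K K') : Prop where
  -- levels
  level_ne : E.𝔫 ≠ ⊥
  level_g : upI (K' := K') E.𝔫 ≤ B.𝔑₀
  mem_S'_g : ∀ w : HeightOneSpectrum (𝓞 K'), w ∈ B.S' ↔ w.asIdeal ∣ upI (K' := K') E.𝔫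
  u_level : B.u.asIdeal ∣ E.𝔫
  -- coset systems
  sysg : IsDblCosetSystem B.𝔑₀ g E.Hg
  sys' : IsIwCosetSystem (B.o 0) E.H'
  unif' : IsScalarUniformizerAt (B.o 0) E.z'
  sys : IsIwCosetSystem B.u E.H
  unif : IsScalarUniformizerAt B.u E.z
  -- the first base function upstairs
  up1_test : ∀ X : List (Gen K'), (∀ x ∈ X, x.Out B.S') →
    T5.IsTestFn (upI (K' := K') E.𝔫) T5.trivType (E.Φ₁ X)
  up1_ek : ∀ X : List (Gen K'), (∀ x ∈ X, x.Out B.S') →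
    T5.IsEK B.R'.μ (E.Φ₁ X) ∧ T5.IsEK B.R'.μ (T5.adjointFn (E.Φ₁ X))
  /-- the scalar of `Φ₁ X` on the invariant eigenfunctions of the base level -/
  up1_op : ∀ X : List (Gen K'), (∀ x ∈ X, x.Out B.S') →
    ∀ (χ : G K' → ℂ) (C : EigData K'), IsEigFn B.𝔑₀ B.R'.r ℓ B.o χ C →
      ∀ x : G K', T5.Rconv B.R'.μ (E.Φ₁ X) χ x = wordEv X C * E.c₁ C * χ x
  -- the second base function upstairs
  up2_test : T5.IsTestFn (upI (K' := K') E.𝔫) T5.trivType E.φ₂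
  up2_ek : T5.IsEK B.R'.μ E.φ₂ ∧ T5.IsEK B.R'.μ (T5.adjointFn E.φ₂)
  up2_inv : IsUInv B.𝔑₀ ℓ B.o E.φ₂
  /-- the scalar of `φ₂` on the invariant eigenfunctions of the base level -/
  up2_op : ∀ (ψ : G K' → ℂ) (C : EigData K'), IsEigFn B.𝔑₀ B.R'.r ℓ B.o ψ C →
    ∀ x : G K', T5.Rconv B.R'.μ E.φ₂ ψ x = E.c₂ C * ψ x
  /-- `♮`-KILL upstairs -/
  up2_kill : ∀ ψ : G K' → ℂ, T5.IsCuspFn (upI (K' := K') E.𝔫) T5.trivType B.R'.r ψ →
    (∀ χ : G K' → ℂ, IsWFn B.𝔑₀ B.R'.r ℓ B.o χ → T5.innerD B.R'.μ B.R'.F ψ χ = 0) →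
    ∀ x : G K', T5.Rconv B.R'.μ E.φ₂ ψ x = 0
  /-- the scalars do not vanish on the class of `Φ` -/
  up_ne : ∀ C : EigData K', C.AgreeOut B.S' (eigOf Φ) → E.c₁ C ≠ 0 ∧ E.c₂ C ≠ 0
  -- the first base function downstairs
  dn1_test : ∀ X : List (Gen K'), (∀ x ∈ X, x.Out B.S') →
    T5.IsTestFn E.𝔫 T5.trivType (E.F₁ X)
  dn1_ek : ∀ X : List (Gen K'), (∀ x ∈ X, x.Out B.S') →
    T5.IsEK B.R.μ (E.F₁ X) ∧ T5.IsEK B.R.μ (T5.adjointFn (E.F₁ X))
  /-- the word acts downstairs through the base change of the eigen-data -/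
  dn1_op : ∀ X : List (Gen K'), (∀ x ∈ X, x.Out B.S') →
    ∀ (χ : G K → ℂ) (c : EigData K) (C : EigData K'),
      IsEigFn E.𝔫 B.R.r 1 (fun _ => B.u) χ c → IsBCData c C B.S' →
      ∀ x : G K, T5.Rconv B.R.μ (E.F₁ X) χ x = wordEv X C * T5.Rconv B.R.μ (E.F₁ []) χ x
  /-- `R(F₁ [])` preserves the invariant cusp functions -/
  dn1_wfn : ∀ ψ : G K → ℂ, IsWFn E.𝔫 B.R.r 1 (fun _ => B.u) ψ →
    IsWFn E.𝔫 B.R.r 1 (fun _ => B.u) (T5.Rconv B.R.μ (E.F₁ []) ψ)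
  /-- `R(F₁ [])` preserves the eigen-classes -/
  dn1_class : ∀ (ψ : G K → ℂ) (c : EigData K), IsEigFn E.𝔫 B.R.r 1 (fun _ => B.u) ψ c →
    IsEigFn E.𝔫 B.R.r 1 (fun _ => B.u) (T5.Rconv B.R.μ (E.F₁ []) ψ) c
  /-- `R(F₁ [])` commutes with the operators at `u` -/
  dn1_comm : ∀ ψ : G K → ℂ, IsWFn E.𝔫 B.R.r 1 (fun _ => B.u) ψ →
    ∀ (H : Finset (G K)) (z : G K), IsIwCosetSystem B.u H → IsScalarUniformizerAt B.u z →
      (∀ x : G K, T5.Rconv B.R.μ (E.F₁ []) (iwOp B.u H ψ) x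
        = iwOp B.u H (T5.Rconv B.R.μ (E.F₁ []) ψ) x) ∧
      ∀ (k : ℤ) (x : G K), T5.Rconv B.R.μ (E.F₁ []) (shiftOp z k ψ) x
        = shiftOp z k (T5.Rconv B.R.μ (E.F₁ []) ψ) x
  -- the second base function downstairs
  dn2_test : T5.IsTestFn E.𝔫 T5.trivType E.f₂
  dn2_ek : T5.IsEK B.R.μ E.f₂ ∧ T5.IsEK B.R.μ (T5.adjointFn E.f₂)
  dn2_inv : IsUInv E.𝔫 1 (fun _ => B.u) E.f₂
  dn2_wfn : ∀ ψ : G K → ℂ, IsWFn E.𝔫 B.R.r 1 (fun _ => B.u) ψ →
    IsWFn E.𝔫 B.R.r 1 (fun _ => B.u) (T5.Rconv B.R.μ E.f₂ ψ)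
  dn2_class : ∀ (ψ : G K → ℂ) (c : EigData K), IsEigFn E.𝔫 B.R.r 1 (fun _ => B.u) ψ c →
    IsEigFn E.𝔫 B.R.r 1 (fun _ => B.u) (T5.Rconv B.R.μ E.f₂ ψ) c
  dn2_comm : ∀ ψ : G K → ℂ, IsWFn E.𝔫 B.R.r 1 (fun _ => B.u) ψ →
    ∀ (H : Finset (G K)) (z : G K), IsIwCosetSystem B.u H → IsScalarUniformizerAt B.u z →
      (∀ x : G K, T5.Rconv B.R.μ E.f₂ (iwOp B.u H ψ) x
        = iwOp B.u H (T5.Rconv B.R.μ E.f₂ ψ) x) ∧
      ∀ (k : ℤ) (x : G K), T5.Rconv B.R.μ E.f₂ (shiftOp z k ψ) x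
        = shiftOp z k (T5.Rconv B.R.μ E.f₂ ψ) x
  /-- `♮`-KILL downstairs -/
  dn2_kill : ∀ ψ : G K → ℂ, T5.IsCuspFn E.𝔫 T5.trivType B.R.r ψ →
    (∀ χ : G K → ℂ, IsWFn E.𝔫 B.R.r 1 (fun _ => B.u) χ → T5.innerD B.R.μ B.R.F ψ χ = 0) →
    ∀ x : G K, T5.Rconv B.R.μ E.f₂ ψ x = 0
  -- the geometry of the families
  reg_up : ∀ (X : List (Gen K')) (k : ℤ) (m : ℕ), (∀ x ∈ X, x.Out B.S') → E.m₀ X ≤ m →
    T5.IsTwRegular B.s B.l B.k (E.up B X k m)
  reg_down : ∀ (X : List (Gen K')) (k : ℤ) (m : ℕ), (∀ x ∈ X, x.Out B.S') → E.m₀ X ≤ m →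
    T5.IsTwRegular (T5.AdelicAut.id K) 1 ⊤ (E.down B X k m)
  matched : ∀ (X : List (Gen K')) (k : ℤ) (m : ℕ), (∀ x ∈ X, x.Out B.S') → E.m₀ X ≤ m →
    IsGlobMatch (B.comp E.𝔫) (E.up B X k m) (E.down B X k m)

end Pre

/-! ## 3. The node and the leaves of the second cut -/

section Leaves

variable (P : EKCond)
variable (K K' : Type) [Field K] [NumberField K] [Field K'] [NumberField K'] [Algebra K K']

/-- **NODE T7.L2.1.F0 = PRE (construction + geometry).**  For a common part and one bad element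
the pre-data exist.  See the header and `IsL2Pre`. -/
def PreC : Prop :=
  ∀ ℓ : ℕ, IsCycExt K K' ℓ → ℓ ≠ 2 → TotCplx K →
    ∀ Φ : HeckeEigensystem K' ℂ, A0.IsCuspAdelicSph0 K' Φ → ConstOnFibres K Φ → P K' Φ →
      ∀ B : L2Base K K', IsL2Base ℓ Φ B → ∀ g : G K', B.IsBad g →
        ∃ E : L2Pre K K', IsL2Pre ℓ Φ B g E

/-- **LEAF T7.L2.1.F1 = EKPROD-UP.**  The members upstairs are products of two
Eisenstein-killing test functions: `Φ₁ X` and `lsum Hg (regL (o 0) z' H' k m φ₂)`.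
Proof: the second factor is a finite sum of left translates of `φ₂` by elements which are trivial
at infinity: continuous, compact support, smooth at infinity, of trivial type; bi-invariant under
`U(𝔑₀)` and the Iwahori subgroups along the orbit (`up2_inv`; the coset systems are permuted by
left multiplication; `U(𝔑₀)_{o j}` is contained in the Iwahori subgroup because `o j ∣ 𝔑₀`;
`g` is trivial along the orbit), hence under `U(𝔑)`; Eisenstein-killing with adjoint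
(`R(ltr b φ) Ψ = (R(φ) Ψ)(· b)`; the adjoint of a left translate is a right translate of the
adjoint, and right translates of Borel-invariant functions are Borel-invariant); the product is
a test function (`ConvTestC`, helper872). -/
def EkProdUpC : Prop :=
  ∀ (ℓ : ℕ) (Φ : HeckeEigensystem K' ℂ) (B : L2Base K K'), IsL2Base ℓ Φ B →
    ∀ g : G K', B.IsBad g → ∀ E : L2Pre K K', IsL2Pre ℓ Φ B g E →
    ∀ (X : List (Gen K')) (k : ℤ) (m : ℕ), (∀ x ∈ X, x.Out B.S') →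
      IsEKProd (upI (K' := K') E.𝔫) B.R' (E.up B X k m)

/-- **LEAF T7.L2.1.F2 = EKPROD-DOWN.**  The same downstairs (`F₁ X` and `regL u z H k m f₂`). -/
def EkProdDownC : Prop :=
  ∀ (ℓ : ℕ) (Φ : HeckeEigensystem K' ℂ) (B : L2Base K K'), IsL2Base ℓ Φ B →
    ∀ g : G K', B.IsBad g → ∀ E : L2Pre K K', IsL2Pre ℓ Φ B g E →
    ∀ (X : List (Gen K')) (k : ℤ) (m : ℕ), (∀ x ∈ X, x.Out B.S') →
      IsEKProd E.𝔫 B.R (E.down B X k m)

/-- **LEAF T7.L2.1.F3 = OP-UP.**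
`R(φ' X k m) ψ = R(Φ₁ X) ([U g U] Z^k 𝒰^m (R(φ₂) ψ)) = X(C) c₁(C) c₂(C) [U g U] Z^k 𝒰^m ψ` on the
invariant eigenfunctions of the base level, for EVERY choice of the coset systems.
Proof: `R(φ₁ ⋆ φ₂) = R(φ₁) R(φ₂)` (Fubini; test functions, `ψ` continuous and bounded),
`R(lsum H φ) = cosetOp H ∘ R(φ)` etc. (left invariance of the measure), `up2_op`, linearity,
`[U g U] Z^k 𝒰^m ψ` is again an invariant eigenfunction with the same eigen-data (translations at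
the places of `S'` commute with the Hecke operators outside `S'` and with the sphere means),
`up1_op`; the operators `cosetOp`, `iwOp`, `shiftOp` do not depend on the coset systems on
invariant functions. -/
def OpUpC : Prop :=
  ∀ (ℓ : ℕ) (Φ : HeckeEigensystem K' ℂ) (B : L2Base K K'), IsL2Base ℓ Φ B →
    ∀ g : G K', B.IsBad g → ∀ E : L2Pre K K', IsL2Pre ℓ Φ B g E →
    ∀ (X : List (Gen K')) (k : ℤ) (m : ℕ), (∀ x ∈ X, x.Out B.S') →
    ∀ (ψ : G K' → ℂ) (C : EigData K'), IsEigFn B.𝔑₀ B.R'.r ℓ B.o ψ C →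
    ∀ (Hg H : Finset (G K')) (z : G K'), IsDblCosetSystem B.𝔑₀ g Hg →
      IsIwCosetSystem (B.o 0) H → IsScalarUniformizerAt (B.o 0) z →
      ∀ x : G K', T5.Rconv B.R'.μ (E.up B X k m) ψ x
        = wordEv X C * (E.c₁ C * E.c₂ C)
          * cosetOp Hg (shiftOp z k ((iwOp (B.o 0) H)^[m] ψ)) x

/-- **LEAF T7.L2.1.F4 = KILL-UP.**  `R(φ' X k m) ψ = R(Φ₁ X) ([U g U] Z^k 𝒰^m (R(φ₂) ψ)) = 0` for
the cusp functions orthogonal to the invariant ones (`up2_kill`). -/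
def KillUpC : Prop :=
  ∀ (ℓ : ℕ) (Φ : HeckeEigensystem K' ℂ) (B : L2Base K K'), IsL2Base ℓ Φ B →
    ∀ g : G K', B.IsBad g → ∀ E : L2Pre K K', IsL2Pre ℓ Φ B g E →
    ∀ (X : List (Gen K')) (k : ℤ) (m : ℕ), (∀ x ∈ X, x.Out B.S') →
    ∀ ψ : G K' → ℂ, T5.IsCuspFn (upI (K' := K') E.𝔫) T5.trivType B.R'.r ψ →
      (∀ χ : G K' → ℂ, IsWFn B.𝔑₀ B.R'.r ℓ B.o χ → T5.innerD B.R'.μ B.R'.F ψ χ = 0) →
      ∀ x : G K', T5.Rconv B.R'.μ (E.up B X k m) ψ x = 0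

/-- **LEAF T7.L2.1.F5 = OP-DOWN.**
`R(f X k m) ψ = R(F₁ X) (Z^k 𝒰^m (R(f₂) ψ)) = X(Ĉ) R(F₁ []) (R(f₂) (Z^k 𝒰^m ψ))
  = X(Ĉ) R(f [] 0 0) (Z^k 𝒰^m ψ)` (`dn1_op`, `dn2_class`, `dn2_comm`, `regL u z H 0 0 f₂ = f₂`). -/
def OpDownC : Prop :=
  ∀ (ℓ : ℕ) (Φ : HeckeEigensystem K' ℂ) (B : L2Base K K'), IsL2Base ℓ Φ B →
    ∀ g : G K', B.IsBad g → ∀ E : L2Pre K K', IsL2Pre ℓ Φ B g E →
    ∀ (X : List (Gen K')) (k : ℤ) (m : ℕ), (∀ x ∈ X, x.Out B.S') →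
    ∀ (ψ : G K → ℂ) (c : EigData K) (C : EigData K'),
      IsEigFn E.𝔫 B.R.r 1 (fun _ => B.u) ψ c → IsBCData c C B.S' →
    ∀ (H : Finset (G K)) (z : G K), IsIwCosetSystem B.u H → IsScalarUniformizerAt B.u z →
      ∀ x : G K, T5.Rconv B.R.μ (E.down B X k m) ψ x
        = wordEv X C
          * T5.Rconv B.R.μ (E.down B [] 0 0) (shiftOp z k ((iwOp B.u H)^[m] ψ)) x

/-- **LEAF T7.L2.1.F6 = CLASS-DOWN.**  `R(f [] 0 0) = R(F₁ []) R(f₂)` preserves the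
eigen-classes (`dn1_class`, `dn2_class`). -/
def ClassDownC : Prop :=
  ∀ (ℓ : ℕ) (Φ : HeckeEigensystem K' ℂ) (B : L2Base K K'), IsL2Base ℓ Φ B →
    ∀ g : G K', B.IsBad g → ∀ E : L2Pre K K', IsL2Pre ℓ Φ B g E →
    ∀ (ψ : G K → ℂ) (c : EigData K), IsEigFn E.𝔫 B.R.r 1 (fun _ => B.u) ψ c →
      IsEigFn E.𝔫 B.R.r 1 (fun _ => B.u) (T5.Rconv B.R.μ (E.down B [] 0 0) ψ) c

/-- **LEAF T7.L2.1.F7 = COMM-DOWN.**  `R(f [] 0 0) = R(F₁ []) R(f₂)` commutes with the operators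
at `u` on the invariant cusp functions (`dn1_comm`, `dn2_comm`, `dn2_wfn`). -/
def CommDownC : Prop :=
  ∀ (ℓ : ℕ) (Φ : HeckeEigensystem K' ℂ) (B : L2Base K K'), IsL2Base ℓ Φ B →
    ∀ g : G K', B.IsBad g → ∀ E : L2Pre K K', IsL2Pre ℓ Φ B g E →
    ∀ ψ : G K → ℂ, IsWFn E.𝔫 B.R.r 1 (fun _ => B.u) ψ →
    ∀ (H : Finset (G K)) (z : G K), IsIwCosetSystem B.u H → IsScalarUniformizerAt B.u z →
      (∀ x : G K, T5.Rconv B.R.μ (E.down B [] 0 0) (iwOp B.u H ψ) x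
        = iwOp B.u H (T5.Rconv B.R.μ (E.down B [] 0 0) ψ) x) ∧
      ∀ (k : ℤ) (x : G K), T5.Rconv B.R.μ (E.down B [] 0 0) (shiftOp z k ψ) x
        = shiftOp z k (T5.Rconv B.R.μ (E.down B [] 0 0) ψ) x

/-- **LEAF T7.L2.1.F8 = KILL-DOWN.**  `R(f X k m) ψ = R(F₁ X) (Z^k 𝒰^m (R(f₂) ψ)) = 0` for the
cusp functions orthogonal to the invariant ones (`dn2_kill`). -/
def KillDownC : Prop :=
  ∀ (ℓ : ℕ) (Φ : HeckeEigensystem K' ℂ) (B : L2Base K K'), IsL2Base ℓ Φ B →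
    ∀ g : G K', B.IsBad g → ∀ E : L2Pre K K', IsL2Pre ℓ Φ B g E →
    ∀ (X : List (Gen K')) (k : ℤ) (m : ℕ), (∀ x ∈ X, x.Out B.S') →
    ∀ ψ : G K → ℂ, T5.IsCuspFn E.𝔫 T5.trivType B.R.r ψ →
      (∀ χ : G K → ℂ, IsWFn E.𝔫 B.R.r 1 (fun _ => B.u) χ → T5.innerD B.R.μ B.R.F ψ χ = 0) →
      ∀ x : G K, T5.Rconv B.R.μ (E.down B X k m) ψ x = 0

end Leaves

end Fermat.Agent.LT.T7.H893

end
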