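import Mathlib
import Fermat.Agent.LT.T5.H32.RegConv
import Fermat.Agent.LT.T7.H893.SupplyFamSpec

/-!
# Row LT, tower T7, node T7.L2.1.F0 `PreC` (sub-architect helper893): THIRD CUT -- Spec

OFF-MAIN.  Definitions and frozen Props only (the proved top is `SupplyPreTop.lean`).  No
`sorry`, nothing assumed.  ADDITIVE.  Vocabulary: `SupplyFamSpec.lean` (second cut),
`T5/SpecZ.lean` + `T5/H32/RegConv.lean` (helper32, closed: `HasRegularSupportZ`,
`IsIwSupported32`, `exists_depth_conv32`), byte-identical copies.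

    preC_of893 : PreGeoC P K K' → RegSuppC K' → RegSupp0C K → PreC P K K'

## The cut: REGULARITY is split off

`IsL2Pre` = `IsL2PreOp` (the 31 fields on levels, coset systems, test functions, operators) +
`reg_up`, `reg_down`, `matched`.  The two regularity fields follow from SUPPORT conditions on the
four base functions (`IsL2PreSupp`: Iwahori along the orbit, compact outside the orbit) by the
closed device of T5 (`T5.H32.exists_depth_conv32`, helper32) and two bookkeeping leaves: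

* **`RegSuppC K`** (leaf; ONE field): if `φ` is Iwahori-supported along the orbit in a compact set
  `C`, then the functions `lsum Hg (regL (o 0) z H k m φ)` have regular support up to a scalar at
  `o 0` of depth `m`, in ONE compact set for all `k, m`.
* **`RegSupp0C K`** (leaf; ONE field): the same without the double coset (`regL u z H k m φ`).
* **`PreGeoC P K K'`** (NODE = construction + matching): pre-data with `IsL2PreOp`,
  `IsL2PreSupp` and `matched` from SOME depth on.  The depth of the pre-data is then replaced by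
  the maximum of the three depths (the families do not depend on it).
-/

set_option autoImplicit false

open AutomorphicForm IsDedekindDomain NumberField MeasureTheory
open scoped ComplexConjugate

noncomputable section

namespace Fermat.Agent.LT.T7.H893

open Fermat.Agent.LT.H556 Fermat.Agent.LT.H556.A0 Fermat.Agent.LT.T7

attribute [local instance] Fermat.Agent.LT.T5.instMeasurableSpaceG

section Pre

variable {K K' : Type} [Field K] [NumberField K] [Field K'] [NumberField K'] [Algebra K K']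

/-- **THE OPERATOR PART OF THE PROPERTIES OF THE PRE-DATA**: the fields of `IsL2Pre` except
`reg_up`, `reg_down`, `matched` (same names, same statements). -/
structure IsL2PreOp (ℓ : ℕ) (Φ : HeckeEigensystem K' ℂ) (B : L2Base K K') (g : G K')
    (E : L2Pre K K') : Prop where
  -- levels
  level_ne : E.𝔫 ≠ ⊥
  level_g : upI (K' := K') E.𝔫 ≤ B.𝔑₀
  mem_S'_g : ∀ w : HeightOneSpectrum (𝓞 K'), w ∈ B.S' ↔ w.asIdeal ∣ upI (K' := K') E.𝔫
  u_level : B.u.asIdeal ∣ E.𝔫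
  -- coset systems
  sysg : IsDblCosetSystem B.𝔑₀ g E.Hg
  sys' : IsIwCosetSystem (B.o 0) E.H'
  unif' : IsScalarUniformizerAt (B.o 0) E.z'
  sys : IsIwCosetSystem B.u E.H
  unif : IsScalarUniformizerAt B.u E.z
  -- the first base function upstairs
  up1_test : ∀ X : List (Gen K'), (∀ x ∈ X, x.Out B.S') →
    T5.IsTestFn (upI (K' := K') E.𝔫) T5.trivType (E.Φ₁ X)
  up1_ek : ∀ X : List (Gen K'), (∀ x ∈ X, x.Out B.S') →
    T5.IsEK B.R'.μ (E.Φ₁ X) ∧ T5.IsEK B.R'.μ (T5.adjointFn (E.Φ₁ X))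
  /-- the scalar of `Φ₁ X` on the invariant eigenfunctions of the base level -/
  up1_op : ∀ X : List (Gen K'), (∀ x ∈ X, x.Out B.S') →
    ∀ (χ : G K' → ℂ) (C : EigData K'), IsEigFn B.𝔑₀ B.R'.r ℓ B.o χ C →
      ∀ x : G K', T5.Rconv B.R'.μ (E.Φ₁ X) χ x = wordEv X C * E.c₁ C * χ x
  -- the second base function upstairs
  up2_test : T5.IsTestFn (upI (K' := K') E.𝔫) T5.trivType E.φ₂
  up2_ek : T5.IsEK B.R'.μ E.φ₂ ∧ T5.IsEK B.R'.μ (T5.adjointFn E.φ₂)
  up2_inv : IsUInv B.𝔑₀ ℓ B.o E.φ₂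
  /-- the scalar of `φ₂` on the invariant eigenfunctions of the base level -/
  up2_op : ∀ (ψ : G K' → ℂ) (C : EigData K'), IsEigFn B.𝔑₀ B.R'.r ℓ B.o ψ C →
    ∀ x : G K', T5.Rconv B.R'.μ E.φ₂ ψ x = E.c₂ C * ψ x
  /-- `♮`-KILL upstairs -/
  up2_kill : ∀ ψ : G K' → ℂ, T5.IsCuspFn (upI (K' := K') E.𝔫) T5.trivType B.R'.r ψ →
    (∀ χ : G K' → ℂ, IsWFn B.𝔑₀ B.R'.r ℓ B.o χ → T5.innerD B.R'.μ B.R'.F ψ χ = 0) →
    ∀ x : G K', T5.Rconv B.R'.μ E.φ₂ ψ x = 0
  /-- the scalars do not vanish on the class of `Φ` -/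
  up_ne : ∀ C : EigData K', C.AgreeOut B.S' (eigOf Φ) → E.c₁ C ≠ 0 ∧ E.c₂ C ≠ 0
  -- the first base function downstairs
  dn1_test : ∀ X : List (Gen K'), (∀ x ∈ X, x.Out B.S') →
    T5.IsTestFn E.𝔫 T5.trivType (E.F₁ X)
  dn1_ek : ∀ X : List (Gen K'), (∀ x ∈ X, x.Out B.S') →
    T5.IsEK B.R.μ (E.F₁ X) ∧ T5.IsEK B.R.μ (T5.adjointFn (E.F₁ X))
  /-- the word acts downstairs through the base change of the eigen-data -/
  dn1_op : ∀ X : List (Gen K'), (∀ x ∈ X, x.Out B.S') →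
    ∀ (χ : G K → ℂ) (c : EigData K) (C : EigData K'),
      IsEigFn E.𝔫 B.R.r 1 (fun _ => B.u) χ c → IsBCData c C B.S' →
      ∀ x : G K, T5.Rconv B.R.μ (E.F₁ X) χ x = wordEv X C * T5.Rconv B.R.μ (E.F₁ []) χ x
  /-- `R(F₁ [])` preserves the invariant cusp functions -/
  dn1_wfn : ∀ ψ : G K → ℂ, IsWFn E.𝔫 B.R.r 1 (fun _ => B.u) ψ →
    IsWFn E.𝔫 B.R.r 1 (fun _ => B.u) (T5.Rconv B.R.μ (E.F₁ []) ψ)
  /-- `R(F₁ [])` preserves the eigen-classes -/
  dn1_class : ∀ (ψ : G K → ℂ) (c : EigData K), IsEigFn E.𝔫 B.R.r 1 (fun _ => B.u) ψ c →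
    IsEigFn E.𝔫 B.R.r 1 (fun _ => B.u) (T5.Rconv B.R.μ (E.F₁ []) ψ) c
  /-- `R(F₁ [])` commutes with the operators at `u` -/
  dn1_comm : ∀ ψ : G K → ℂ, IsWFn E.𝔫 B.R.r 1 (fun _ => B.u) ψ →
    ∀ (H : Finset (G K)) (z : G K), IsIwCosetSystem B.u H → IsScalarUniformizerAt B.u z →
      (∀ x : G K, T5.Rconv B.R.μ (E.F₁ []) (iwOp B.u H ψ) x
        = iwOp B.u H (T5.Rconv B.R.μ (E.F₁ []) ψ) x) ∧
      ∀ (k : ℤ) (x : G K), T5.Rconv B.R.μ (E.F₁ []) (shiftOp z k ψ) x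
        = shiftOp z k (T5.Rconv B.R.μ (E.F₁ []) ψ) x
  -- the second base function downstairs
  dn2_test : T5.IsTestFn E.𝔫 T5.trivType E.f₂
  dn2_ek : T5.IsEK B.R.μ E.f₂ ∧ T5.IsEK B.R.μ (T5.adjointFn E.f₂)
  dn2_inv : IsUInv E.𝔫 1 (fun _ => B.u) E.f₂
  dn2_wfn : ∀ ψ : G K → ℂ, IsWFn E.𝔫 B.R.r 1 (fun _ => B.u) ψ →
    IsWFn E.𝔫 B.R.r 1 (fun _ => B.u) (T5.Rconv B.R.μ E.f₂ ψ)
  dn2_class : ∀ (ψ : G K → ℂ) (c : EigData K), IsEigFn E.𝔫 B.R.r 1 (fun _ => B.u) ψ c →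
    IsEigFn E.𝔫 B.R.r 1 (fun _ => B.u) (T5.Rconv B.R.μ E.f₂ ψ) c
  dn2_comm : ∀ ψ : G K → ℂ, IsWFn E.𝔫 B.R.r 1 (fun _ => B.u) ψ →
    ∀ (H : Finset (G K)) (z : G K), IsIwCosetSystem B.u H → IsScalarUniformizerAt B.u z →
      (∀ x : G K, T5.Rconv B.R.μ E.f₂ (iwOp B.u H ψ) x
        = iwOp B.u H (T5.Rconv B.R.μ E.f₂ ψ) x) ∧
      ∀ (k : ℤ) (x : G K), T5.Rconv B.R.μ E.f₂ (shiftOp z k ψ) x
        = shiftOp z k (T5.Rconv B.R.μ E.f₂ ψ) x
  /-- `♮`-KILL downstairs -/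
  dn2_kill : ∀ ψ : G K → ℂ, T5.IsCuspFn E.𝔫 T5.trivType B.R.r ψ →
    (∀ χ : G K → ℂ, IsWFn E.𝔫 B.R.r 1 (fun _ => B.u) χ → T5.innerD B.R.μ B.R.F ψ χ = 0) →
    ∀ x : G K, T5.Rconv B.R.μ E.f₂ ψ x = 0

/-- **THE SUPPORTS OF THE BASE FUNCTIONS**: Iwahori along the orbit, compact outside it. -/
structure IsL2PreSupp (ℓ : ℕ) (B : L2Base K K') (E : L2Pre K K') : Prop where
  up1_supp : ∀ X : List (Gen K'), (∀ x ∈ X, x.Out B.S') →
    ∃ C : Set (G K'), IsCompact C ∧ T5.H32.IsIwSupported32 ℓ B.o C (E.Φ₁ X)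
  up2_supp : ∃ C : Set (G K'), IsCompact C ∧ T5.H32.IsIwSupported32 ℓ B.o C E.φ₂
  dn1_supp : ∀ X : List (Gen K'), (∀ x ∈ X, x.Out B.S') →
    ∃ C : Set (G K), IsCompact C ∧ T5.H32.IsIwSupported32 1 (fun _ => B.u) C (E.F₁ X)
  dn2_supp : ∃ C : Set (G K), IsCompact C ∧ T5.H32.IsIwSupported32 1 (fun _ => B.u) C E.f₂

end Pre

/-! ## The leaves and the node -/

section Leaves

/-- **LEAF T7.L2.1.G1 = REG-SUPP (ONE field).**  Let `o 0, …, o (l-1)` be places dividing the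
level `𝔫₀` (`0 < l`), `g` trivial at infinity and along the orbit, `Hg` a system of
representatives of `U(𝔫₀) g U(𝔫₀) / U(𝔫₀)`, `H` an Iwahori coset system and `z` a scalar
uniformiser at `o 0`, and `φ` Iwahori-supported along the orbit in the compact set `C`.  Then
there is ONE compact set `C'` such that `lsum Hg (regL (o 0) z H k m φ)` has regular support up
to a scalar at `o 0` of depth `m` in `C'`, for all `k` and `m`.
Proof.  A point `y` of the support is `h z^k h₁ ⋯ h_m y₀` with `h ∈ Hg`, `h_i ∈ H`, `y₀` in the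
support of `φ`.  At `o 0`: `h` has its component in `U(𝔫₀)_{o 0}`, contained in the Iwahori
subgroup `I` (`o 0 ∣ 𝔫₀`), `h_i ∈ I t I`, `y₀ ∈ I`, and `(I t I)^m = I t^m I`
(`t = diag(ϖ, 1)`); `z^k` is a scalar.  At `o j`, `0 < j < l`: all factors are in `I`.  Outside
the orbit `y` agrees with `h c`, `c ∈ C`: `C' = Hg · C`.  (Kit: helper340 `T7/H340/IwKit.lean`,
helper32 `T5/H32/RegConv.lean`.) -/
def RegSuppC (K : Type) [Field K] [NumberField K] : Prop :=
  ∀ (𝔫₀ : Ideal (𝓞 K)) (l : ℕ) (o : ℕ → HeightOneSpectrum (𝓞 K)), 0 < l →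
    (∀ j : ℕ, (o j).asIdeal ∣ 𝔫₀) →
    ∀ g : G K, (∀ w : InfinitePlace K, TrivAtInf w g) → (∀ j < l, TrivAtFin (o j) g) →
    ∀ (Hg H : Finset (G K)) (z : G K), IsDblCosetSystem 𝔫₀ g Hg →
      IsIwCosetSystem (o 0) H → IsScalarUniformizerAt (o 0) z →
    ∀ (φ : G K → ℂ) (C : Set (G K)), IsCompact C → T5.H32.IsIwSupported32 l o C φ →
      ∃ C' : Set (G K), IsCompact C' ∧
        ∀ (k : ℤ) (m : ℕ), T5.HasRegularSupportZ l o m C' (lsum Hg (regL (o 0) z H k m φ))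

/-- **LEAF T7.L2.1.G2 = REG-SUPP-0 (ONE field, one place, no double coset).**  `H` an Iwahori
coset system and `z` a scalar uniformiser at `u`, `φ` Iwahori-supported at `u` in the compact set
`C`: `regL u z H k m φ` has regular support up to a scalar at `u` of depth `m` in `C`, for all
`k` and `m`. -/
def RegSupp0C (K : Type) [Field K] [NumberField K] : Prop :=
  ∀ (u : HeightOneSpectrum (𝓞 K)) (H : Finset (G K)) (z : G K),
    IsIwCosetSystem u H → IsScalarUniformizerAt u z →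
    ∀ (φ : G K → ℂ) (C : Set (G K)), IsCompact C →
      T5.H32.IsIwSupported32 1 (fun _ => u) C φ →
      ∀ (k : ℤ) (m : ℕ), T5.HasRegularSupportZ 1 (fun _ => u) m C (regL u z H k m φ)

variable (P : EKCond)
variable (K K' : Type) [Field K] [NumberField K] [Field K'] [NumberField K'] [Algebra K K']

/-- **NODE T7.L2.1.G0 = PRE-GEO (construction + matching).**  For a common part and one bad
element there are pre-data with the operator properties, the supports, and MATCHED families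
from some depth on. -/
def PreGeoC : Prop :=
  ∀ ℓ : ℕ, IsCycExt K K' ℓ → ℓ ≠ 2 → TotCplx K →
    ∀ Φ : HeckeEigensystem K' ℂ, A0.IsCuspAdelicSph0 K' Φ → ConstOnFibres K Φ → P K' Φ →
      ∀ B : L2Base K K', IsL2Base ℓ Φ B → ∀ g : G K', B.IsBad g →
        ∃ E : L2Pre K K', IsL2PreOp ℓ Φ B g E ∧ IsL2PreSupp ℓ B E ∧
          ∃ m₂ : List (Gen K') → ℕ,
            ∀ (X : List (Gen K')) (k : ℤ) (m : ℕ), (∀ x ∈ X, x.Out B.S') → m₂ X ≤ m →
              IsGlobMatch (B.comp E.𝔫) (E.up B X k m) (E.down B X k m)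

end Leaves

end Fermat.Agent.LT.T7.H893

end
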