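import Mathlib
import Fermat.Agent.LT.T7.H893.SupplyPreSpec

/-!
# Row LT, tower T7, node T7.L2.1.G0 `PreGeoC` (sub-architect helper893): FOURTH CUT -- Spec

OFF-MAIN.  Definitions and frozen Props only (the proved top is `SupplyGeoTop.lean`).  No
`sorry`, nothing assumed.  ADDITIVE.

    preGeoC_of893 : GlobC Mt K K' → ConstrC P Mt K K' → EkProdUpC K K' → EkProdDownC K K'
                      → RegSuppC K' → RegSupp0C K → PreGeoC P K K'      (for EVERY `Mt`)

## The cut: GLOBAL matching is split off from the construction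

The cut is PARAMETRIC in a relation

    Mt : L2Base K K' → Ideal (𝓞 K) → (G K' → ℂ) → (G K → ℂ) → Prop

"`φ'` (over `K'`, level `𝔫 𝒪_{K'}`) and `f` (over `K`, level `𝔫`) are LOCALLY MATCHED
DECOMPOSABLE functions" (pure tensors, or finite sums and averages of pure tensors, with
matched local factors).  The relation of record is the one of the station C2 (helper305,
`LT/T7/H305/MatchSpec.lean`); the top is proved for every relation.

* **`GlobC Mt K K'`** (NODE C2 = the matching theorem; helper305 / helper584): locally matched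
  test functions which are regular are MATCHED (`IsGlobMatch`): unfolding of the global terms
  (helper584, `T7/H584/MatchTop.lean`), factorisation into local (twisted) orbital integrals,
  local matching, volumes, vanishing off the norms (`T6.HasseNormTCC`).
* **`ConstrC P Mt K K'`** (NODE = the construction): pre-data with the operator properties
  (`IsL2PreOp`), the supports (`IsL2PreSupp`) and LOCALLY matched families.
* the hypotheses of `GlobC` for the families are supplied by the leaves of the second and third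
  cut: test functions by `EkProdUpC` / `EkProdDownC`, regularity by `RegSuppC` / `RegSupp0C`
  and the closed device of T5.
-/

set_option autoImplicit false

open AutomorphicForm IsDedekindDomain NumberField MeasureTheory
open scoped ComplexConjugate

noncomputable section

namespace Fermat.Agent.LT.T7.H893

open Fermat.Agent.LT.H556 Fermat.Agent.LT.H556.A0 Fermat.Agent.LT.T7

attribute [local instance] Fermat.Agent.LT.T5.instMeasurableSpaceG

section Leaves

variable (P : EKCond)
variable (K K' : Type) [Field K] [NumberField K] [Field K'] [NumberField K'] [Algebra K K']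

/-- The type of the relations "locally matched decomposable functions". -/
abbrev MtRel : Type :=
  L2Base K K' → Ideal (𝓞 K) → (G K' → ℂ) → (G K → ℂ) → Prop

variable (Mt : MtRel K K')

/-- **NODE T7.L2.1.H1 = GLOB (the matching theorem, C2).**  For a good common part and a level
`𝔫 ≠ 0`: locally matched test functions of levels `𝔫 𝒪_{K'}` and `𝔫` which are `σ`-regular,
resp. regular, are matched. -/
def GlobC : Prop :=
  ∀ (ℓ : ℕ) (Φ : HeckeEigensystem K' ℂ), IsCycExt K K' ℓ → ℓ ≠ 2 → TotCplx K →
    ∀ B : L2Base K K', IsL2Base ℓ Φ B → ∀ 𝔫 : Ideal (𝓞 K), 𝔫 ≠ ⊥ →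
    ∀ (φ' : G K' → ℂ) (f : G K → ℂ), Mt B 𝔫 φ' f →
      T5.IsTestFn (upI (K' := K') 𝔫) T5.trivType φ' → T5.IsTwRegular B.s B.l B.k φ' →
      T5.IsTestFn 𝔫 T5.trivType f → T5.IsTwRegular (T5.AdelicAut.id K) 1 ⊤ f →
      IsGlobMatch (B.comp 𝔫) φ' f

/-- **NODE T7.L2.1.H2 = CONSTR (the construction).**  For a common part and one bad element
there are pre-data with the operator properties and the supports whose families are LOCALLY
matched. -/
def ConstrC : Prop :=
  ∀ ℓ : ℕ, IsCycExt K K' ℓ → ℓ ≠ 2 → TotCplx K →
    ∀ Φ : HeckeEigensystem K' ℂ, A0.IsCuspAdelicSph0 K' Φ → ConstOnFibres K Φ → P K' Φ →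
      ∀ B : L2Base K K', IsL2Base ℓ Φ B → ∀ g : G K', B.IsBad g →
        ∃ E : L2Pre K K', IsL2PreOp ℓ Φ B g E ∧ IsL2PreSupp ℓ B E ∧
          ∀ (X : List (Gen K')) (k : ℤ) (m : ℕ), (∀ x ∈ X, x.Out B.S') →
            Mt B E.𝔫 (E.up B X k m) (E.down B X k m)

/-- `EkProdUpC` for pre-data with the operator properties only (the statement of the second cut
uses `IsL2Pre`; the proofs use the operator fields only). -/
def EkProdUpOpC : Prop :=
  ∀ (ℓ : ℕ) (Φ : HeckeEigensystem K' ℂ) (B : L2Base K K'), IsL2Base ℓ Φ B →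
    ∀ g : G K', B.IsBad g → ∀ E : L2Pre K K', IsL2PreOp ℓ Φ B g E →
    ∀ (X : List (Gen K')) (k : ℤ) (m : ℕ), (∀ x ∈ X, x.Out B.S') →
      IsEKProd (upI (K' := K') E.𝔫) B.R' (E.up B X k m)

/-- `EkProdDownC` for pre-data with the operator properties only. -/
def EkProdDownOpC : Prop :=
  ∀ (ℓ : ℕ) (Φ : HeckeEigensystem K' ℂ) (B : L2Base K K'), IsL2Base ℓ Φ B →
    ∀ g : G K', B.IsBad g → ∀ E : L2Pre K K', IsL2PreOp ℓ Φ B g E →
    ∀ (X : List (Gen K')) (k : ℤ) (m : ℕ), (∀ x ∈ X, x.Out B.S') →
      IsEKProd E.𝔫 B.R (E.down B X k m)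

end Leaves

end Fermat.Agent.LT.T7.H893

end
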