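import Mathlib
import Fermat.Agent.LT.T7.H305.MatchSpec
import Fermat.Agent.LT.T7.H893.SupplyGeoSpec

/-!
# Row LT, tower T7, node T7.L2.1.H2 `ConstrC` (sub-architect helper893): FIFTH CUT -- Spec

OFF-MAIN.  Definitions and frozen Props only (the proved tops are `SupplyConstrTop.lean`).  No
`sorry`, nothing assumed.  ADDITIVE.  Vocabulary: the four cuts of `SupplySC` (same directory),
`T7/H305/MatchSpec.lean` (helper305, sha256 541c6ac7fb6d: `pure305`, `LocHyp305`,
`GlobMatchC305`), byte-identical copies.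

    supplySC_ofR893 : SetupRC K K' → ProjC K' → ProjC K → GlobMatchC305 K K' → AvgMatchC893 K K'
        → BaseC P K K' → (∀ κ, (∀ D μc T₀ n m, κ D μc T₀ n m ≠ 0) → ProdMtC K K' κ)
        → (the bookkeeping leaves of the second and third cut) → T7.SupplySC P K K'

## 0. CORRECTION of the first cut (additive): the ramified places

A test function downstairs whose level is trivial at a place `v` which RAMIFIES in `K'` cannot
be matched with a non-zero spherical function upstairs (its traces on `π_v` and `π_v ⊗ χ`,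
`χ` ramified, would agree).  So the base level must contain the ramified places:
`L2Base.RamIn B`.  `IsL2Base` does not say it; the SUPPLY chooses the common part, so the setup
is asked for it (`SetupRC`; the construction of helper644 gives it when the exceptional set is
enlarged by the ramified places) and the construction may use it (`ConstrRC`).  All other
leaves are unchanged (they hold for every common part).

## 1. The relation of record `Mt893 κ`

`GlobMatchC305` (helper305) gives, for `(D, μc, T₀, n, m)`, a constant `κ ≠ 0` such that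
locally matched PURE TENSORS `(pure305 T' φ₀ Φ, κ · pure305 T f₀ F)` are matched.  The families
of the supply are NOT pure tensors: the Eisenstein-killing functions are finite sums of pure
tensors, and the `♮`-average at infinity is an integral over a compact torus (a pure tensor at
infinity cannot kill all non-trivial characters of `A_∞ / ⟨r⟩ Λ` when there are at least two
infinite places).  So the relation is the closure under AVERAGES over a compact parameter space
with a finite measure (`IsAvgPure`; finite sums are the case of a finite discrete space).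

* **`AvgMatchC893 K K'`** (LEAF, analysis): `T7.IsGlobMatch` is closed under such averages.
* `globC_of893` (PROVED): `GoodKap893 κ → AvgMatchC893 → GlobC (Mt893 κ)`; `exists_goodKap893`
  (PROVED): `GlobMatchC305 → ∃ κ` good and nowhere zero.

## 2. The cut of the construction

* **`BaseC P K K'`** (NODE; T3 + T6 + `♮`): the level `𝔫`, a Haar measure `μc` of `GL₂(ℂ)`, and
  for EVERY constant `a ≠ 0` pre-data `E` of level `𝔫` with the operator properties
  (`IsL2PreOp`), the supports (`IsL2PreSupp`) and the LOCAL SHAPE `IsDecomp893 μc a B g E`: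
  the four base functions are averages of pure tensors with explicit local components
  (unit / Iwahori / double coset of `g` at the places of the level, spherical with Satake
  transforms related by base change outside, convolution products at infinity); `a` is the
  constant of `f₂`.
* **`ProdMtC K K' κ`** (NODE; the calculus of pure tensors): for the level `𝔫` and `μc` there is
  a constant `a ≠ 0` such that for all pre-data of this level with the local shape for `a` the
  members `Φ₁ X ⋆ lsum Hg (regL … φ₂)`, `F₁ X ⋆ regL … f₂` are in the relation `Mt893 κ`.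

FALSITY CHECKS (helper893).  (a) The constants: `conv μ'` of two pure tensors is `c'_G` times
the pure tensor of the local convolutions (normalised by `vol U(n_w) = 1`), the same
downstairs with `c_G`; at `u` the convolution product of the `ℓ` components upstairs is
`[I : U(m_u)]^{ℓ-1}` times the component downstairs; all constants are independent of
`X, k, m` and of the parameter, and are absorbed in `a` (`a = κ c'_G / (c_G [I:U]^{ℓ-1})` up to
the conventions).  (b) At the places of the level the first pair has UNIT components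
(`1_{U(n_w)}`, `1_{U(m_v)}`: the shape of `T3.M.pureFnM`), so the product with the second pair
has the components of the second pair.  (c) At the bad places the component downstairs of the
SECOND pair is a partner of the double coset function `1_{U₀ g_w U₀}` (the component upstairs
of `lsum Hg φ₂`), not of `1_{U₀}`.  (d) Outside the level the Satake transforms multiply
(inert: `T6.IsBC` is multiplicative; split: the spherical Hecke algebra is commutative), at
infinity the bi-`U(2)`-invariant functions commute.  (e) `a = 0` is excluded only for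
convenience.
-/

set_option autoImplicit false

open AutomorphicForm IsDedekindDomain NumberField MeasureTheory
open scoped ComplexConjugate

noncomputable section

namespace Fermat.Agent.LT.T7.H893

open Fermat.Agent.LT.H556 Fermat.Agent.LT.H556.A0 Fermat.Agent.LT.T7
open Fermat.Agent.LT.T7.H305

attribute [local instance] Fermat.Agent.LT.T5.instMeasurableSpaceG

/-! ## 0. The ramified places -/

section Ram

variable {K K' : Type} [Field K] [NumberField K] [Field K'] [NumberField K'] [Algebra K K']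

/-- Every place of `K'` outside `S'` is unramified over `K`. -/
def L2Base.RamIn (B : L2Base K K') : Prop :=
  ∀ (v : HeightOneSpectrum (𝓞 K)) (w : HeightOneSpectrum (𝓞 K')), PlaceOver K K' v w →
    w ∉ B.S' → ∃ x : 𝓞 K, x ∈ v.asIdeal ∧ algebraMap (𝓞 K) (𝓞 K') x ∉ w.asIdeal ^ 2

end Ram

section RamNodes

variable (P : EKCond)
variable (K K' : Type) [Field K] [NumberField K] [Field K'] [NumberField K'] [Algebra K K']

/-- **LEAF T7.L2.1.C0R = SETUP with the ramified places.**  As `SetupC`, and the base level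
contains the places which ramify in `K'` (enlarge the exceptional set of `ConstOnFibres` by the
finitely many ramified places; `exists_setupNT644` of helper644 takes any finite set). -/
def SetupRC : Prop :=
  ∀ ℓ : ℕ, IsCycExt K K' ℓ → ℓ ≠ 2 → TotCplx K →
    ∀ Φ : HeckeEigensystem K' ℂ, A0.IsCuspAdelicSph0 K' Φ → ConstOnFibres K Φ →
      ∃ B : L2Base K K', IsL2Base ℓ Φ B ∧ B.RamIn

/-- **NODE T7.L2.1.H2R = CONSTR** for the common parts which contain the ramified places. -/
def ConstrRC (Mt : MtRel K K') : Prop :=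
  ∀ ℓ : ℕ, IsCycExt K K' ℓ → ℓ ≠ 2 → TotCplx K →
    ∀ Φ : HeckeEigensystem K' ℂ, A0.IsCuspAdelicSph0 K' Φ → ConstOnFibres K Φ → P K' Φ →
      ∀ B : L2Base K K', IsL2Base ℓ Φ B → B.RamIn → ∀ g : G K', B.IsBad g →
        ∃ E : L2Pre K K', IsL2PreOp ℓ Φ B g E ∧ IsL2PreSupp ℓ B E ∧
          ∀ (X : List (Gen K')) (k : ℤ) (m : ℕ), (∀ x ∈ X, x.Out B.S') →
            Mt B E.𝔫 (E.up B X k m) (E.down B X k m)

end RamNodes

/-! ## 1. Averages of pure tensors, the relation of record -/

section Avg

variable (K K' : Type) [Field K] [NumberField K] [Field K'] [NumberField K'] [Algebra K K']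

/-- The type of the local conditions on the components of a pair of pure tensors. -/
abbrev LocCond : Type :=
  Finset (HeightOneSpectrum (𝓞 K)) →
    (∀ w : HeightOneSpectrum (𝓞 K'), GL (Fin 2) (w.adicCompletion K') → ℂ) →
    (InfinitePlace K' → GL (Fin 2) ℂ → ℂ) →
    (∀ v : HeightOneSpectrum (𝓞 K), GL (Fin 2) (v.adicCompletion K) → ℂ) →
    (InfinitePlace K → GL (Fin 2) ℂ → ℂ) → Prop

/-- The type of the constants of the matching theorem. -/
abbrev KapFn : Type :=
  CompData K K' → @Measure (GL (Fin 2) ℂ) (borel _) → Finset (HeightOneSpectrum (𝓞 K)) →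
    (HeightOneSpectrum (𝓞 K') → ℕ) → (HeightOneSpectrum (𝓞 K) → ℕ) → ℂ

variable {K K'}

/-- **AVERAGE OF PURE TENSORS.**  `φ'` (over `K'`) and `f` (over `K`) are the integrals over a
compact (Hausdorff, second countable) parameter space `Ω` with a finite measure `ν` of pure
tensors `pure305 (T' a) …`, resp.
`c · pure305 (T a) …`, whose components satisfy the local condition `L` for every parameter;
every member is a test function of the level, the members are jointly continuous and supported
in one compact set. -/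
def IsAvgPure (𝔑 : Ideal (𝓞 K')) (𝔫 : Ideal (𝓞 K)) (T₀ : Finset (HeightOneSpectrum (𝓞 K)))
    (L : LocCond K K') (c : ℂ) (φ' : G K' → ℂ) (f : G K → ℂ) : Prop :=
  ∃ (Ω : Type) (_ : TopologicalSpace Ω) (_ : CompactSpace Ω) (_ : T2Space Ω)
    (_ : SecondCountableTopology Ω) (_ : MeasurableSpace Ω)
    (_ : BorelSpace Ω) (ν : Measure Ω) (_ : IsFiniteMeasure ν)
    (T : Ω → Finset (HeightOneSpectrum (𝓞 K))) (T' : Ω → Finset (HeightOneSpectrum (𝓞 K')))
    (φ₀ : Ω → ∀ w : HeightOneSpectrum (𝓞 K'), GL (Fin 2) (w.adicCompletion K') → ℂ)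
    (Φ : Ω → InfinitePlace K' → GL (Fin 2) ℂ → ℂ)
    (f₀ : Ω → ∀ v : HeightOneSpectrum (𝓞 K), GL (Fin 2) (v.adicCompletion K) → ℂ)
    (F : Ω → InfinitePlace K → GL (Fin 2) ℂ → ℂ),
    (∀ a : Ω, T₀ ⊆ T a ∧ IsOver305 (T a) (T' a) ∧ L (T a) (φ₀ a) (Φ a) (f₀ a) (F a)) ∧
    (∀ a : Ω, T5.IsTestFn 𝔑 T5.trivType (pure305 (T' a) (φ₀ a) (Φ a))) ∧
    (∀ a : Ω, T5.IsTestFn 𝔫 T5.trivType (fun h => c * pure305 (T a) (f₀ a) (F a) h)) ∧
    Continuous (fun p : Ω × G K' => pure305 (T' p.1) (φ₀ p.1) (Φ p.1) p.2) ∧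
    Continuous (fun p : Ω × G K => c * pure305 (T p.1) (f₀ p.1) (F p.1) p.2) ∧
    (∃ C : Set (G K'), IsCompact C ∧
      ∀ (a : Ω) (h : G K'), pure305 (T' a) (φ₀ a) (Φ a) h ≠ 0 → h ∈ C) ∧
    (∃ C : Set (G K), IsCompact C ∧
      ∀ (a : Ω) (h : G K), pure305 (T a) (f₀ a) (F a) h ≠ 0 → h ∈ C) ∧
    (∀ h : G K', φ' h = ∫ a, pure305 (T' a) (φ₀ a) (Φ a) h ∂ν) ∧
    ∀ h : G K, f h = ∫ a, c * pure305 (T a) (f₀ a) (F a) h ∂ν

/-- **THE RELATION OF RECORD**: averages of locally matched pure tensors (local matching in the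
form of T6: `H305.LocHyp305`), with the constant `κ` of the matching theorem downstairs. -/
def Mt893 (κ : KapFn K K') : MtRel K K' := fun B 𝔫 φ' f =>
  ∃ (μc : @Measure (GL (Fin 2) ℂ) (borel _)) (T₀ : Finset (HeightOneSpectrum (𝓞 K)))
    (n : HeightOneSpectrum (𝓞 K') → ℕ) (m : HeightOneSpectrum (𝓞 K) → ℕ),
    @Measure.IsHaarMeasure _ _ _ (borel _) μc ∧ UnramOut305 (K' := K') T₀ ∧
      IsLevelAt305 T₀ n m ∧
      IsAvgPure (upI (K' := K') 𝔫) 𝔫 T₀
        (fun T φ₀ Φ f₀ F => LocHyp305 (B.comp 𝔫) μc T n m φ₀ Φ f₀ F)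
        (κ (B.comp 𝔫) μc T₀ n m) φ' f

/-- `κ` is a family of constants of the matching theorem (`GlobMatchC305` with the constant
chosen). -/
def GoodKap893 (κ : KapFn K K') : Prop :=
  ∀ D : CompData K K', IsCompData D → IsCycExt K K' D.l → D.l ≠ 2 → TotCplx K →
    ∀ μc : @Measure (GL (Fin 2) ℂ) (borel _), @Measure.IsHaarMeasure _ _ _ (borel _) μc →
    ∀ (T₀ : Finset (HeightOneSpectrum (𝓞 K))), UnramOut305 (K' := K') T₀ →
    ∀ (n : HeightOneSpectrum (𝓞 K') → ℕ) (m : HeightOneSpectrum (𝓞 K) → ℕ),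
      IsLevelAt305 T₀ n m →
      ∀ (T : Finset (HeightOneSpectrum (𝓞 K))) (T' : Finset (HeightOneSpectrum (𝓞 K'))),
        T₀ ⊆ T → IsOver305 T T' →
      ∀ (φ₀ : ∀ w : HeightOneSpectrum (𝓞 K'), GL (Fin 2) (w.adicCompletion K') → ℂ)
        (Φ : InfinitePlace K' → GL (Fin 2) ℂ → ℂ)
        (f₀ : ∀ v : HeightOneSpectrum (𝓞 K), GL (Fin 2) (v.adicCompletion K) → ℂ)
        (F : InfinitePlace K → GL (Fin 2) ℂ → ℂ),
        LocHyp305 D μc T n m φ₀ Φ f₀ F →
        ∀ (φ' : G K' → ℂ) (f : G K → ℂ),
          (∀ h : G K', φ' h = pure305 T' φ₀ Φ h) →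
          (∀ h : G K, f h = κ D μc T₀ n m * pure305 T f₀ F h) →
          T5.IsTestFn D.𝔑 T5.trivType φ' → T5.IsTestFn D.𝔫 T5.trivType f →
          IsGlobMatch D φ' f

variable (K K')

/-- **LEAF T7.L2.1.H1b = AVG-MATCH (analysis; closure of the matching under averages).**
Let `(φs a, fs a)`, `a ∈ Ω` (compact, Hausdorff, second countable, finite measure `ν`), be
MATCHED pairs of test functions,
jointly continuous in `(a, h)` and supported in one compact set.  Then the averages
`(∫ φs a dν, ∫ fs a dν)` are matched.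
Proof.  `twTerm` of the average is the average of the `twTerm`s (for fixed `x` the sum over the
ray is finite, uniformly in `a`); Fubini on `F_δ × Ω`: the integrand is dominated by
`M · twTerm(1_C)`, `C` compact, and the orbital integral of `1_C` at an elliptic regular
element converges (`1_C` is dominated by a non-negative pure tensor; the `σ`-conjugacy class of
`δ` is closed, `T(K) ⟨r⟩ \ T_𝔸` is compact: `H305.UnfoldC305`, `T6.OrbSumExC`,
`T6.OrbSumIntC`; kit of helper584 `T7/H584/{Cutoff,UnfoldAbs}.lean`, helper947).  Finite sums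
are the case of a finite discrete `Ω`. -/
def AvgMatchC893 : Prop :=
  ∀ D : CompData K K', IsCompData D → IsCycExt K K' D.l → D.l ≠ 2 → TotCplx K →
    ∀ (Ω : Type) (_ : TopologicalSpace Ω) (_ : CompactSpace Ω) (_ : T2Space Ω)
      (_ : SecondCountableTopology Ω) (_ : MeasurableSpace Ω)
      (_ : BorelSpace Ω) (ν : Measure Ω) (_ : IsFiniteMeasure ν)
      (φs : Ω → G K' → ℂ) (fs : Ω → G K → ℂ),
      (∀ a : Ω, T5.IsTestFn D.𝔑 T5.trivType (φs a)) →
      (∀ a : Ω, T5.IsTestFn D.𝔫 T5.trivType (fs a)) →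
      Continuous (fun p : Ω × G K' => φs p.1 p.2) →
      Continuous (fun p : Ω × G K => fs p.1 p.2) →
      (∃ C : Set (G K'), IsCompact C ∧ ∀ (a : Ω) (h : G K'), φs a h ≠ 0 → h ∈ C) →
      (∃ C : Set (G K), IsCompact C ∧ ∀ (a : Ω) (h : G K), fs a h ≠ 0 → h ∈ C) →
      (∀ a : Ω, IsGlobMatch D (φs a) (fs a)) →
      IsGlobMatch D (fun h => ∫ a, φs a h ∂ν) (fun h => ∫ a, fs a h ∂ν)

end Avg

/-! ## 2. The local shape of the pre-data -/

section Local

variable {k : Type} [Field k] [Valued k T6.Γ₀]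

open Classical in
/-- The indicator function of the principal congruence subgroup `U(n)` of `GL₂(k)` (the unit of
the Hecke algebra of level `n` for `vol U(n) = 1`). -/
def unitFn893 (n : ℕ) : GL (Fin 2) k → ℂ := fun x => if T6.InU n x then 1 else 0

/-- The Iwahori subgroup of `GL₂(k)` (integral, integral inverse, lower left entry in the
maximal ideal): the local form of `T5.InIwahori`. -/
def InIw893 (x : GL (Fin 2) k) : Prop :=
  (∀ i j : Fin 2, Valued.v ((x : Matrix (Fin 2) (Fin 2) k) i j) ≤ 1) ∧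
    (∀ i j : Fin 2, Valued.v (((x⁻¹ : GL (Fin 2) k) : Matrix (Fin 2) (Fin 2) k) i j) ≤ 1) ∧
    Valued.v ((x : Matrix (Fin 2) (Fin 2) k) 1 0) < 1

open Classical in
/-- The indicator function of the Iwahori subgroup. -/
def iwFn893 : GL (Fin 2) k → ℂ := fun x => if InIw893 x then 1 else 0

open Classical in
/-- The indicator function of the double coset `U(n) y U(n)`. -/
def dblFn893 (n : ℕ) (y : GL (Fin 2) k) : GL (Fin 2) k → ℂ := fun x =>
  if ∃ u₁ u₂ : GL (Fin 2) k, T6.InU n u₁ ∧ T6.InU n u₂ ∧ x = u₁ * y * u₂ then 1 else 0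

/-- The Satake transform of a spherical function given by its values on the Cartan
invariants. -/
def satT893 (q : ℕ) (A : (ℤ × ℤ) →₀ ℂ) (x y : ℂ) : ℂ :=
  A.sum fun lam c => c * T6.satake q lam x y

/-- `φ` is the spherical function with the values `A` on the Cartan invariants. -/
def IsSphFn893 (φ : GL (Fin 2) k → ℂ) (A : (ℤ × ℤ) →₀ ℂ) : Prop :=
  T6.IsDominant A ∧ ∀ x : GL (Fin 2) k, φ x = A (T6.cartan x)

end Local

section Shape

variable {K K' : Type} [Field K] [NumberField K] [Field K'] [NumberField K'] [Algebra K K']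

/-- `m v` is the exponent of the level `𝔫` at `v`: the closure of `𝔫` in `K_v` is the ball of
radius `exp (- m v)`. -/
def IsLevelOf893 {F : Type} [Field F] [NumberField F] (𝔫 : Ideal (𝓞 F))
    (m : HeightOneSpectrum (𝓞 F) → ℕ) : Prop :=
  ∀ (v : HeightOneSpectrum (𝓞 F)) (x : v.adicCompletion F),
    x ∈ idealClosure 𝔫 v ↔ Valued.v x ≤ WithZero.exp (-(m v : ℤ))

/-- **The components OUTSIDE THE LEVEL are spherical and matched** (Satake form).  At a place
`v ∈ T`, `v ∉ T₀` (unramified in `K'`): the components are spherical functions; if `v` is inert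
the Satake transforms are related by the base change `T6.IsBC`; if `v` splits the Satake
transform downstairs is the product of the Satake transforms upstairs. -/
def SphOut893 (ℓ : ℕ) (T₀ T : Finset (HeightOneSpectrum (𝓞 K)))
    (φ₀ : ∀ w : HeightOneSpectrum (𝓞 K'), GL (Fin 2) (w.adicCompletion K') → ℂ)
    (f₀ : ∀ v : HeightOneSpectrum (𝓞 K), GL (Fin 2) (v.adicCompletion K) → ℂ) : Prop :=
  ∀ v ∈ T, v ∉ T₀ →
    ∃ (A : HeightOneSpectrum (𝓞 K') → (ℤ × ℤ) →₀ ℂ) (Av : (ℤ × ℤ) →₀ ℂ),
      IsSphFn893 (f₀ v) Av ∧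
      (∀ w : HeightOneSpectrum (𝓞 K'), PlaceOver K K' v w → IsSphFn893 (φ₀ w) (A w)) ∧
      (∀ w : HeightOneSpectrum (𝓞 K'), PlaceOver K K' v w →
        (∀ w' : HeightOneSpectrum (𝓞 K'), PlaceOver K K' v w' → w' = w) →
        T6.IsBC ℓ (Ideal.absNorm v.asIdeal) (A w) Av) ∧
      ∀ w : ℕ → HeightOneSpectrum (𝓞 K'), (∀ j : ℕ, PlaceOver K K' v (w j)) →
        (∀ j j' : ℕ, j < ℓ → j' < ℓ → w j = w j' → j = j') →
        ∀ x y : ℂ, x ≠ 0 → y ≠ 0 →
          satT893 (Ideal.absNorm v.asIdeal) Av x y
            = ∏ j ∈ Finset.range ℓ, satT893 (Ideal.absNorm v.asIdeal) (A (w j)) x y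

/-- **The components AT INFINITY**: continuous, compact support, bi-invariant under `U(2)`,
matched (the clauses `arch_up`, `arch_down`, `arch` of `H305.LocHyp305`, which is asked for the
empty set of finite places). -/
def ArchOk893 (D : CompData K K') (μc : @Measure (GL (Fin 2) ℂ) (borel _))
    (n : HeightOneSpectrum (𝓞 K') → ℕ) (m : HeightOneSpectrum (𝓞 K) → ℕ)
    (φ₀ : ∀ w : HeightOneSpectrum (𝓞 K'), GL (Fin 2) (w.adicCompletion K') → ℂ)
    (Φ : InfinitePlace K' → GL (Fin 2) ℂ → ℂ)
    (f₀ : ∀ v : HeightOneSpectrum (𝓞 K), GL (Fin 2) (v.adicCompletion K) → ℂ)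
    (F : InfinitePlace K → GL (Fin 2) ℂ → ℂ) : Prop :=
  LocHyp305 D μc ∅ n m φ₀ Φ f₀ F ∧
    (∀ (w : InfinitePlace K') (k₁ k₂ g : GL (Fin 2) ℂ),
      (k₁ : Matrix (Fin 2) (Fin 2) ℂ) * (k₁ : Matrix (Fin 2) (Fin 2) ℂ).conjTranspose = 1 →
      (k₂ : Matrix (Fin 2) (Fin 2) ℂ) * (k₂ : Matrix (Fin 2) (Fin 2) ℂ).conjTranspose = 1 →
      Φ w (k₁ * g * k₂) = Φ w g) ∧
    ∀ (v : InfinitePlace K) (k₁ k₂ g : GL (Fin 2) ℂ),
      (k₁ : Matrix (Fin 2) (Fin 2) ℂ) * (k₁ : Matrix (Fin 2) (Fin 2) ℂ).conjTranspose = 1 →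
      (k₂ : Matrix (Fin 2) (Fin 2) ℂ) * (k₂ : Matrix (Fin 2) (Fin 2) ℂ).conjTranspose = 1 →
      F v (k₁ * g * k₂) = F v g

/-- **THE LOCAL SHAPE OF THE FIRST PAIR** `(Φ₁ X, F₁ X)`: UNIT components at the places of the
level, spherical matched components outside, matched components at infinity. -/
def LocA893 (B : L2Base K K') (𝔫 : Ideal (𝓞 K)) (μc : @Measure (GL (Fin 2) ℂ) (borel _))
    (T₀ : Finset (HeightOneSpectrum (𝓞 K)))
    (n : HeightOneSpectrum (𝓞 K') → ℕ) (m : HeightOneSpectrum (𝓞 K) → ℕ) : LocCond K K' :=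
  fun T φ₀ Φ f₀ F =>
    (∀ v ∈ T₀, f₀ v = unitFn893 (m v)) ∧
    (∀ v ∈ T₀, ∀ w : HeightOneSpectrum (𝓞 K'), PlaceOver K K' v w → φ₀ w = unitFn893 (n w)) ∧
    SphOut893 B.l T₀ T φ₀ f₀ ∧ ArchOk893 (B.comp 𝔫) μc n m φ₀ Φ f₀ F

open Classical in
/-- **THE LOCAL SHAPE OF THE SECOND PAIR** `(φ₂, f₂)` for the bad element `g`.
* bad places `v ∈ T₀`, `v ≠ u`: upstairs the unit `1_{U₀}` of the BASE level (`n₀`);
  downstairs a PARTNER of the double coset function `1_{U₀ g_w U₀}` (the clauses of
  `H305.LocHyp305` for the set `T₀ ∖ {u}` and the double coset functions upstairs);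
* the place `u` and its orbit: the indicator functions of the Iwahori subgroups;
* outside the level and at infinity: as for the first pair. -/
def LocB893 (B : L2Base K K') (g : G K') (𝔫 : Ideal (𝓞 K))
    (μc : @Measure (GL (Fin 2) ℂ) (borel _)) (T₀ : Finset (HeightOneSpectrum (𝓞 K)))
    (n n₀ : HeightOneSpectrum (𝓞 K') → ℕ) (m : HeightOneSpectrum (𝓞 K) → ℕ) : LocCond K K' :=
  fun T φ₀ Φ f₀ F =>
    LocHyp305 (B.comp 𝔫) μc (T₀.erase B.u) n m
      (fun w => dblFn893 (n₀ w) (finGL305 w g)) Φ f₀ F ∧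
    (∀ v ∈ T₀, v ≠ B.u → ∀ w : HeightOneSpectrum (𝓞 K'), PlaceOver K K' v w →
      φ₀ w = unitFn893 (n₀ w)) ∧
    f₀ B.u = iwFn893 ∧
    (∀ w : HeightOneSpectrum (𝓞 K'), PlaceOver K K' B.u w → φ₀ w = iwFn893) ∧
    SphOut893 B.l T₀ T φ₀ f₀ ∧ ArchOk893 (B.comp 𝔫) μc n m φ₀ Φ f₀ F

/-- **THE LOCAL SHAPE OF THE PRE-DATA** (for the Haar measure `μc` of `GL₂(ℂ)` and the constant
`a` of `f₂`). -/
def IsDecomp893 (μc : @Measure (GL (Fin 2) ℂ) (borel _)) (a : ℂ) (B : L2Base K K') (g : G K')
    (E : L2Pre K K') : Prop :=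
  ∃ (T₀ : Finset (HeightOneSpectrum (𝓞 K)))
    (n n₀ : HeightOneSpectrum (𝓞 K') → ℕ) (m : HeightOneSpectrum (𝓞 K) → ℕ),
    (∀ v : HeightOneSpectrum (𝓞 K), v ∈ T₀ ↔ v.asIdeal ∣ E.𝔫) ∧
    IsLevelOf893 E.𝔫 m ∧ IsLevelOf893 (upI (K' := K') E.𝔫) n ∧ IsLevelOf893 B.𝔑₀ n₀ ∧
    (∀ X : List (Gen K'), (∀ x ∈ X, x.Out B.S') →
      IsAvgPure (upI (K' := K') E.𝔫) E.𝔫 T₀ (LocA893 B E.𝔫 μc T₀ n m) 1 (E.Φ₁ X) (E.F₁ X)) ∧
    IsAvgPure (upI (K' := K') E.𝔫) E.𝔫 T₀ (LocB893 B g E.𝔫 μc T₀ n n₀ m) a E.φ₂ E.f₂

end Shape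

/-! ## 3. The nodes of the fifth cut -/

section Nodes

variable (P : EKCond)
variable (K K' : Type) [Field K] [NumberField K] [Field K'] [NumberField K'] [Algebra K K']

/-- **NODE T7.L2.1.H2a = BASE (T3 + T6 + `♮`; existence).**  For a common part which contains
the ramified places and one bad element `g`: a level `𝔫` and a Haar measure `μc` of `GL₂(ℂ)`
such that for EVERY constant `a ≠ 0` there are pre-data of level `𝔫` with the operator
properties, the supports and the local shape.
Construction.  `𝔫 = 𝔫₀ ^ d`, `d` so large that the partners `f_v` of `1_{U₀ g_w U₀}` at the bad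
places (`T6.BadMatchC`, closed; split bad places: convolution products) are bi-invariant under
`U(𝔫)_v`.  Eisenstein-killing datum for `𝔑 = 𝔫 𝒪_{K'}` and `S'` from `P = T7.ekMulti`
(`T7.GoodEKM`), downstairs the norm datum.  `Φ₁ X`: the word `X` applied to the
Eisenstein-killing function of T3 (`T3.M`, closed station of helper14: finite sum of
`pureFnM`, unit components at the level); `F₁ X`: the components downstairs are the base change
(`T6.BCExistsC`) resp. the convolution products of the components upstairs; `φ₂`: the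
`♮`-average (finite group `H / U(𝔑)` and the torus `A_∞ / ⟨r⟩ Λ`: kit of helper40,
`T7/H40/ProjClosed.lean`) of an Eisenstein-killing function; `f₂`: `a` times the function with
the partners at the bad places, the Iwahori function at `u`, the base change outside, the
push-forward average at infinity.  Eisenstein-killing downstairs: the Abel transform of the base
change is the push-forward of the Abel transform under the norm, the ray sums vanish again
(or: `f ⋆ T` and `T ⋆ f` are Eisenstein-killing with Eisenstein-killing adjoints when `f` is). -/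
def BaseC : Prop :=
  ∀ ℓ : ℕ, IsCycExt K K' ℓ → ℓ ≠ 2 → TotCplx K →
    ∀ Φ : HeckeEigensystem K' ℂ, A0.IsCuspAdelicSph0 K' Φ → ConstOnFibres K Φ → P K' Φ →
      ∀ B : L2Base K K', IsL2Base ℓ Φ B → B.RamIn → ∀ g : G K', B.IsBad g →
        ∃ (𝔫 : Ideal (𝓞 K)) (μc : @Measure (GL (Fin 2) ℂ) (borel _)),
          @Measure.IsHaarMeasure _ _ _ (borel _) μc ∧
          ∀ a : ℂ, a ≠ 0 → ∃ E : L2Pre K K', E.𝔫 = 𝔫 ∧
            IsL2PreOp ℓ Φ B g E ∧ IsL2PreSupp ℓ B E ∧ IsDecomp893 μc a B g E

/-- **NODE T7.L2.1.H2b = PROD-MT (the calculus of pure tensors).**  For a common part which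
contains the ramified places, a bad element, a level and a Haar measure of `GL₂(ℂ)` there is a
constant `a ≠ 0` such that for all pre-data of this level with the operator properties and the
local shape for `a` the members of the families are in the relation `Mt893 κ`.
Proof.  `conv` of two pure tensors is a constant times the pure tensor of the local
convolutions (splitting of the Haar measure: helper947 `AdelicSplit`, helper719 `ProdHaarM`);
`lsum Hg`, `ltr`, `iwL` of a pure tensor with unit / Iwahori components at the level is the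
pure tensor with the components `1_{U₀ g_w U₀}`, `q^{-m/2} 1_{z^k I t^m I}`; Fubini for the
parameters; the local conditions `LocHyp305` of the products: unit times partner at the bad
places, `T6.SplitMatchC`-form at `u` (Iwahori–Hecke algebra) and at the split places,
`T6.FundLemmaC` + multiplicativity of the Satake transform at the inert places,
commutativity of the bi-`U(2)`-invariant functions at infinity; `UnramOut305 T₀` from
`RamIn`. -/
def ProdMtC (κ : KapFn K K') : Prop :=
  ∀ ℓ : ℕ, IsCycExt K K' ℓ → ℓ ≠ 2 → TotCplx K →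
    ∀ (Φ : HeckeEigensystem K' ℂ) (B : L2Base K K'), IsL2Base ℓ Φ B → B.RamIn →
    ∀ g : G K', B.IsBad g →
    ∀ (𝔫 : Ideal (𝓞 K)) (μc : @Measure (GL (Fin 2) ℂ) (borel _)),
      @Measure.IsHaarMeasure _ _ _ (borel _) μc →
      ∃ a : ℂ, a ≠ 0 ∧
        ∀ E : L2Pre K K', E.𝔫 = 𝔫 → IsL2PreOp ℓ Φ B g E → IsDecomp893 μc a B g E →
          ∀ (X : List (Gen K')) (k : ℤ) (m : ℕ), (∀ x ∈ X, x.Out B.S') →
            Mt893 κ B 𝔫 (E.up B X k m) (E.down B X k m)

end Nodes

end Fermat.Agent.LT.T7.H893

end
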