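import Mathlib
import Fermat.Agent.LT.T7.H893.SupplyConstrSpec

/-!
# Row LT, tower T7, node T7.L2.1.H2 `ConstrC` (sub-architect helper893): FIFTH CUT, v2 -- Spec

OFF-MAIN.  Definitions and frozen Props only (the proved tops are `SupplyConstrTop2.lean`).  No
`sorry`, nothing assumed.  ADDITIVE: `SupplyConstrSpec.lean` (v1, sha256 feb0f69771abae8d) is
unchanged and imported; the names of v2 end in `b` (or are new).

## WHY v2: the SPLIT clause of `H305.LocHyp305` is too strong at the BAD split places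

`H305.LocHyp305.split` asks `f₀ v = φ₀ (w 0) * ⋯ * φ₀ (w (l-1))` for EVERY enumeration
`w 0, …, w (l-1)` of the places over `v` with `w j = σ(w (j+1))`, i.e. for the `l` cyclic
rotations of the product.  For commuting components (unit, spherical, Iwahori) this is
harmless.  At a BAD place `v` which splits in `K'` the components upstairs are the double coset
functions `1_{U₀ g_w U₀}` of the bad element `g` (forced by the shape
`φ' = Φ₁ X ⋆ lsum Hg (…)`), `g` is arbitrary at the places over `v`, and the rotated products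
are different functions (only their orbital integrals agree).  So `LocHyp305` cannot hold for
the families, and `v1` (`LocB893`, `Mt893`, `BaseC`) is unsatisfiable in general.

`T6.SplitMatchC` needs ONE enumeration.  `LocHyp893` = `LocHyp305` with the split clause for
SOME enumeration; `GlobMatchC893` = `H305.GlobMatchC305` for `LocHyp893` (the proof of the
matching theorem takes the enumeration from the hypothesis instead of constructing one).

    supplySC_of_open893e : OpenSupply893e P K K' → T7.SupplySC P K K'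
    OPEN = GlobMatchC893 K K' (helper305), AvgMatchC893 K K' (unchanged), BaseCb P K K',
           ProdMtCb K K' κ (for every nowhere zero κ)
-/

set_option autoImplicit false

open AutomorphicForm IsDedekindDomain NumberField MeasureTheory
open scoped ComplexConjugate

noncomputable section

namespace Fermat.Agent.LT.T7.H893

open Fermat.Agent.LT.H556 Fermat.Agent.LT.H556.A0 Fermat.Agent.LT.T7
open Fermat.Agent.LT.T7.H305

attribute [local instance] Fermat.Agent.LT.T5.instMeasurableSpaceG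

/-! ## 1. The local hypotheses with the split clause for ONE enumeration -/

section Hyp

variable {K K' : Type} [Field K] [NumberField K] [Field K'] [NumberField K'] [Algebra K K']

/-- **THE LOCAL HYPOTHESES, v2.**  The clauses `inv_up`, `inv_down`, `arch_up`, `arch_down`,
`inert`, `arch` are those of `H305.LocHyp305` (verbatim).  `split`: at a place `v ∈ T` with at
least two places over it there is ONE enumeration `w 0, …, w (l-1)` of the places over `v` with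
`w j = σ(w (j+1))` and identifications `i j : K_v ≃ K'_{w j}` such that the levels agree and
`f₀ v = φ₀ (w 0) * ⋯ * φ₀ (w (l-1))` (hypothesis of `T6.SplitMatchC`). -/
structure LocHyp893 (D : CompData K K') (μc : @Measure (GL (Fin 2) ℂ) (borel _))
    (T : Finset (HeightOneSpectrum (𝓞 K)))
    (n : HeightOneSpectrum (𝓞 K') → ℕ) (m : HeightOneSpectrum (𝓞 K) → ℕ)
    (φ₀ : ∀ w : HeightOneSpectrum (𝓞 K'), GL (Fin 2) (w.adicCompletion K') → ℂ)
    (Φ : InfinitePlace K' → GL (Fin 2) ℂ → ℂ)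
    (f₀ : ∀ v : HeightOneSpectrum (𝓞 K), GL (Fin 2) (v.adicCompletion K) → ℂ)
    (F : InfinitePlace K → GL (Fin 2) ℂ → ℂ) : Prop where
  inv_up : ∀ v ∈ T, ∀ w : HeightOneSpectrum (𝓞 K'), PlaceOver K K' v w →
    T6.IsBiInv (T6.InU (n w)) (φ₀ w) ∧ T6.HasFinSupp (T6.InU (n w)) (φ₀ w)
  inv_down : ∀ v ∈ T, T6.IsBiInv (T6.InU (m v)) (f₀ v) ∧ T6.HasFinSupp (T6.InU (m v)) (f₀ v)
  arch_up : ∀ w : InfinitePlace K', Continuous (Φ w) ∧ HasCompactSupport (Φ w) ∧
    ∀ g : GL (Fin 2) ℂ, Φ w (conjGL305 g) = Φ w g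
  arch_down : ∀ v : InfinitePlace K, Continuous (F v) ∧ HasCompactSupport (F v) ∧
    ∀ g : GL (Fin 2) ℂ, F v (conjGL305 g) = F v g
  inert : ∀ v ∈ T, ∀ w : HeightOneSpectrum (𝓞 K'), PlaceOver K K' v w →
    (∀ w' : HeightOneSpectrum (𝓞 K'), PlaceOver K K' v w' → w' = w) →
    ∀ (e : ℕ) (i : v.adicCompletion K →+* w.adicCompletion K')
      (sw : w.adicCompletion K' ≃+* w.adicCompletion K'),
      (∀ x : K, i (algebraMap K (v.adicCompletion K) x)
        = algebraMap K' (w.adicCompletion K') (algebraMap K K' x)) →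
      (∀ y : K', sw (algebraMap K' (w.adicCompletion K') y)
        = algebraMap K' (w.adicCompletion K') (D.s.σ y)) →
      T6.IsLocalExt (v.adicCompletion K) (w.adicCompletion K') D.l e i sw →
      (∀ (δ : GL (Fin 2) (w.adicCompletion K')) (γ : GL (Fin 2) (v.adicCompletion K))
          (c c' : ℂ), T6.IsReg γ →
          IsConj (T6.twNorm sw D.l δ) (Matrix.GeneralLinearGroup.map i γ) →
          T6.IsTwOrbSum sw (n w) (φ₀ w) δ c → T6.IsOrbSum (m v) (f₀ v) γ c' → c = c') ∧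
        ∀ (γ : GL (Fin 2) (v.adicCompletion K)) (c' : ℂ), T6.IsReg γ →
          ¬ T6.IsNormFrom D.l i sw γ → T6.IsOrbSum (m v) (f₀ v) γ c' → c' = 0
  split : ∀ v ∈ T, (∃ w₁ w₂ : HeightOneSpectrum (𝓞 K'),
      PlaceOver K K' v w₁ ∧ PlaceOver K K' v w₂ ∧ w₁ ≠ w₂) →
    ∃ (w : ℕ → HeightOneSpectrum (𝓞 K'))
      (i : ∀ j : ℕ, v.adicCompletion K ≃+* (w j).adicCompletion K'),
      (∀ j : ℕ, PlaceOver K K' v (w j)) ∧ (∀ j : ℕ, T5.PlaceRel D.s (w (j + 1)) (w j)) ∧
      (∀ j : ℕ, 0 < j → j < D.l → w j ≠ w 0) ∧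
      (∀ (j : ℕ) (x : K), i j (algebraMap K (v.adicCompletion K) x)
        = algebraMap K' ((w j).adicCompletion K') (algebraMap K K' x)) ∧
      (∀ (j : ℕ) (x : v.adicCompletion K), Valued.v (i j x) = Valued.v x) ∧
      (∀ j : ℕ, n (w j) = m v) ∧
        T6.IsConvProd (T6.InU (m v)) D.l
          (fun j g => φ₀ (w j)
            (Matrix.GeneralLinearGroup.map ((i j : v.adicCompletion K ≃+* _) :
              v.adicCompletion K →+* (w j).adicCompletion K') g))
          (f₀ v)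
  arch : ∀ (v : InfinitePlace K) (w : ℕ → InfinitePlace K'),
    (∀ j : ℕ, (w j).comap (algebraMap K K') = v) →
    (∀ j j' : ℕ, j < D.l → j' < D.l → w j = w j' → j = j') →
    F v = convL305 μc (fun j => Φ (w j)) (D.l - 1)

variable (K K')

/-- **THE NODE C2, v2 = GLOBAL MATCHING FROM LOCAL MATCHING** (`H305.GlobMatchC305` with
`LocHyp893` in place of `H305.LocHyp305`: ONE enumeration at the split places). -/
def GlobMatchC893 : Prop :=
  ∀ D : CompData K K', IsCompData D → IsCycExt K K' D.l → D.l ≠ 2 → TotCplx K →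
    ∀ μc : @Measure (GL (Fin 2) ℂ) (borel _), @Measure.IsHaarMeasure _ _ _ (borel _) μc →
    ∀ (T₀ : Finset (HeightOneSpectrum (𝓞 K))), UnramOut305 (K' := K') T₀ →
    ∀ (n : HeightOneSpectrum (𝓞 K') → ℕ) (m : HeightOneSpectrum (𝓞 K) → ℕ),
      IsLevelAt305 T₀ n m →
    ∃ κ : ℂ, κ ≠ 0 ∧
      ∀ (T : Finset (HeightOneSpectrum (𝓞 K))) (T' : Finset (HeightOneSpectrum (𝓞 K'))),
        T₀ ⊆ T → IsOver305 T T' →
      ∀ (φ₀ : ∀ w : HeightOneSpectrum (𝓞 K'), GL (Fin 2) (w.adicCompletion K') → ℂ)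
        (Φ : InfinitePlace K' → GL (Fin 2) ℂ → ℂ)
        (f₀ : ∀ v : HeightOneSpectrum (𝓞 K), GL (Fin 2) (v.adicCompletion K) → ℂ)
        (F : InfinitePlace K → GL (Fin 2) ℂ → ℂ),
        LocHyp893 D μc T n m φ₀ Φ f₀ F →
        ∀ (φ' : G K' → ℂ) (f : G K → ℂ),
          (∀ h : G K', φ' h = pure305 T' φ₀ Φ h) →
          (∀ h : G K, f h = κ * pure305 T f₀ F h) →
          T5.IsTestFn D.𝔑 T5.trivType φ' → T5.IsTestFn D.𝔫 T5.trivType f →
          IsGlobMatch D φ' f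

variable {K K'}

/-- **THE RELATION OF RECORD, v2**: averages of locally matched pure tensors (`LocHyp893`),
with the constant `κ` of the matching theorem downstairs. -/
def Mt893b (κ : KapFn K K') : MtRel K K' := fun B 𝔫 φ' f =>
  ∃ (μc : @Measure (GL (Fin 2) ℂ) (borel _)) (T₀ : Finset (HeightOneSpectrum (𝓞 K)))
    (n : HeightOneSpectrum (𝓞 K') → ℕ) (m : HeightOneSpectrum (𝓞 K) → ℕ),
    @Measure.IsHaarMeasure _ _ _ (borel _) μc ∧ UnramOut305 (K' := K') T₀ ∧
      IsLevelAt305 T₀ n m ∧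
      IsAvgPure (upI (K' := K') 𝔫) 𝔫 T₀
        (fun T φ₀ Φ f₀ F => LocHyp893 (B.comp 𝔫) μc T n m φ₀ Φ f₀ F)
        (κ (B.comp 𝔫) μc T₀ n m) φ' f

/-- `κ` is a family of constants of the matching theorem, v2. -/
def GoodKap893b (κ : KapFn K K') : Prop :=
  ∀ D : CompData K K', IsCompData D → IsCycExt K K' D.l → D.l ≠ 2 → TotCplx K →
    ∀ μc : @Measure (GL (Fin 2) ℂ) (borel _), @Measure.IsHaarMeasure _ _ _ (borel _) μc →
    ∀ (T₀ : Finset (HeightOneSpectrum (𝓞 K))), UnramOut305 (K' := K') T₀ →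
    ∀ (n : HeightOneSpectrum (𝓞 K') → ℕ) (m : HeightOneSpectrum (𝓞 K) → ℕ),
      IsLevelAt305 T₀ n m →
      ∀ (T : Finset (HeightOneSpectrum (𝓞 K))) (T' : Finset (HeightOneSpectrum (𝓞 K'))),
        T₀ ⊆ T → IsOver305 T T' →
      ∀ (φ₀ : ∀ w : HeightOneSpectrum (𝓞 K'), GL (Fin 2) (w.adicCompletion K') → ℂ)
        (Φ : InfinitePlace K' → GL (Fin 2) ℂ → ℂ)
        (f₀ : ∀ v : HeightOneSpectrum (𝓞 K), GL (Fin 2) (v.adicCompletion K) → ℂ)
        (F : InfinitePlace K → GL (Fin 2) ℂ → ℂ),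
        LocHyp893 D μc T n m φ₀ Φ f₀ F →
        ∀ (φ' : G K' → ℂ) (f : G K → ℂ),
          (∀ h : G K', φ' h = pure305 T' φ₀ Φ h) →
          (∀ h : G K, f h = κ D μc T₀ n m * pure305 T f₀ F h) →
          T5.IsTestFn D.𝔑 T5.trivType φ' → T5.IsTestFn D.𝔫 T5.trivType f →
          IsGlobMatch D φ' f

end Hyp

/-! ## 2. The local shape, v2 -/

section Shape

variable {K K' : Type} [Field K] [NumberField K] [Field K'] [NumberField K'] [Algebra K K']

open Classical in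
/-- **THE LOCAL SHAPE OF THE SECOND PAIR, v2**: `LocB893` with `LocHyp893` at the bad places
(the partner downstairs of the double coset functions; at a bad split place the convolution
product in ONE order). -/
def LocB893b (B : L2Base K K') (g : G K') (𝔫 : Ideal (𝓞 K))
    (μc : @Measure (GL (Fin 2) ℂ) (borel _)) (T₀ : Finset (HeightOneSpectrum (𝓞 K)))
    (n n₀ : HeightOneSpectrum (𝓞 K') → ℕ) (m : HeightOneSpectrum (𝓞 K) → ℕ) : LocCond K K' :=
  fun T φ₀ Φ f₀ F =>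
    LocHyp893 (B.comp 𝔫) μc (T₀.erase B.u) n m
      (fun w => dblFn893 (n₀ w) (finGL305 w g)) Φ f₀ F ∧
    (∀ v ∈ T₀, v ≠ B.u → ∀ w : HeightOneSpectrum (𝓞 K'), PlaceOver K K' v w →
      φ₀ w = unitFn893 (n₀ w)) ∧
    f₀ B.u = iwFn893 ∧
    (∀ w : HeightOneSpectrum (𝓞 K'), PlaceOver K K' B.u w → φ₀ w = iwFn893) ∧
    SphOut893 B.l T₀ T φ₀ f₀ ∧ ArchOk893 (B.comp 𝔫) μc n m φ₀ Φ f₀ F

/-- **THE LOCAL SHAPE OF THE PRE-DATA, v2.** -/
def IsDecomp893b (μc : @Measure (GL (Fin 2) ℂ) (borel _)) (a : ℂ) (B : L2Base K K') (g : G K')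
    (E : L2Pre K K') : Prop :=
  ∃ (T₀ : Finset (HeightOneSpectrum (𝓞 K)))
    (n n₀ : HeightOneSpectrum (𝓞 K') → ℕ) (m : HeightOneSpectrum (𝓞 K) → ℕ),
    (∀ v : HeightOneSpectrum (𝓞 K), v ∈ T₀ ↔ v.asIdeal ∣ E.𝔫) ∧
    IsLevelOf893 E.𝔫 m ∧ IsLevelOf893 (upI (K' := K') E.𝔫) n ∧ IsLevelOf893 B.𝔑₀ n₀ ∧
    (∀ X : List (Gen K'), (∀ x ∈ X, x.Out B.S') →
      IsAvgPure (upI (K' := K') E.𝔫) E.𝔫 T₀ (LocA893 B E.𝔫 μc T₀ n m) 1 (E.Φ₁ X) (E.F₁ X)) ∧
    IsAvgPure (upI (K' := K') E.𝔫) E.𝔫 T₀ (LocB893b B g E.𝔫 μc T₀ n n₀ m) a E.φ₂ E.f₂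

end Shape

/-! ## 3. The nodes, v2 -/

section Nodes

variable (P : EKCond)
variable (K K' : Type) [Field K] [NumberField K] [Field K'] [NumberField K'] [Algebra K K']

/-- **NODE T7.L2.1.H2a = BASE, v2** (T3 + T6 + `♮`; existence).  As `BaseC` (see its
docstring for the construction), with the local shape `IsDecomp893b`. -/
def BaseCb : Prop :=
  ∀ ℓ : ℕ, IsCycExt K K' ℓ → ℓ ≠ 2 → TotCplx K →
    ∀ Φ : HeckeEigensystem K' ℂ, A0.IsCuspAdelicSph0 K' Φ → ConstOnFibres K Φ → P K' Φ →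
      ∀ B : L2Base K K', IsL2Base ℓ Φ B → B.RamIn → ∀ g : G K', B.IsBad g →
        ∃ (𝔫 : Ideal (𝓞 K)) (μc : @Measure (GL (Fin 2) ℂ) (borel _)),
          @Measure.IsHaarMeasure _ _ _ (borel _) μc ∧
          ∀ a : ℂ, a ≠ 0 → ∃ E : L2Pre K K', E.𝔫 = 𝔫 ∧
            IsL2PreOp ℓ Φ B g E ∧ IsL2PreSupp ℓ B E ∧ IsDecomp893b μc a B g E

/-- **NODE T7.L2.1.H2b = PROD-MT, v2** (the calculus of pure tensors).  As `ProdMtC` (see its
docstring), with the local shape `IsDecomp893b` and the relation `Mt893b κ`. -/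
def ProdMtCb (κ : KapFn K K') : Prop :=
  ∀ ℓ : ℕ, IsCycExt K K' ℓ → ℓ ≠ 2 → TotCplx K →
    ∀ (Φ : HeckeEigensystem K' ℂ) (B : L2Base K K'), IsL2Base ℓ Φ B → B.RamIn →
    ∀ g : G K', B.IsBad g →
    ∀ (𝔫 : Ideal (𝓞 K)) (μc : @Measure (GL (Fin 2) ℂ) (borel _)),
      @Measure.IsHaarMeasure _ _ _ (borel _) μc →
      ∃ a : ℂ, a ≠ 0 ∧
        ∀ E : L2Pre K K', E.𝔫 = 𝔫 → IsL2PreOp ℓ Φ B g E → IsDecomp893b μc a B g E →
          ∀ (X : List (Gen K')) (k : ℤ) (m : ℕ), (∀ x ∈ X, x.Out B.S') →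
            Mt893b κ B 𝔫 (E.up B X k m) (E.down B X k m)

end Nodes

end Fermat.Agent.LT.T7.H893

end
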