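import Mathlib
import Fermat.Agent.LT.T7.H893.SupplyConstrSpec2

/-!
# Row LT, tower T7, node T7.L2.1.H2b `ProdMtCb` (sub-architect helper893): SIXTH CUT -- Spec

OFF-MAIN.  Definitions and frozen Props only (the proved top is `SupplyProdTop.lean`).  No
`sorry`, nothing assumed.  ADDITIVE (new names only, suffix `893`).  Vocabulary: the fifth cut
v2 (`SupplyConstrSpec2.lean`, sha256 f8a1da64929e35c6).

    prodMtCb_of893 : LevelUniqC893 K → LevelUniqC893 K' → LevelAtC893 K K'
        → ProdShapeC893 K K' → SphHypC893 K K'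
        → ∀ κ nowhere zero, ProdMtCb K K' κ                                   (VERBATIM)

## The cut

The node `ProdMtCb κ` (the members of the families are averages of LOCALLY MATCHED pure tensors,
with the constant `κ` of the matching theorem) has two independent parts.

* **`ProdShapeC893`** (NODE, the CALCULUS; no matching theorem, no `κ`): for exponents
  `(T₀, n, n₀, m)` of the level there is a constant `c₀ ≠ 0` such that for every `a ≠ 0` and all
  pre-data with the local shape for `a`, the members are averages of pure tensors with constant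
  `a * c₀` downstairs whose components satisfy `LocP893`: the local hypotheses `LocHyp893` AT
  THE PLACES OF THE LEVEL (`T₀`) and at infinity, and the spherical shape `SphOut893` outside
  the level.  Inputs: the general leaves of helper563 (`T7/H563/PTSpec.lean`: `ConvPureC563`,
  `ConvAvgC563`, `TrPureC563`, `LsumDblC563`), the local algebra (unit `*` partner at the bad
  places, Iwahori–Hecke at `u`, multiplicativity of the Satake transform outside the level,
  commutativity of the bi-`U(2)`-invariant functions at infinity).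
* **`SphHypC893`** (NODE, LOCAL, T6): the local hypotheses on `T₀` and the spherical shape on
  `T ∖ T₀` give the local hypotheses on `T` (inert: `T6.FundLemmaC`, `e = 1` from
  `UnramOut305`; split: existence of the enumeration, multiplicativity and injectivity of the
  Satake transform).  Generalises `H305.UnitMatchC305` (unit components) to spherical ones.
* **`LevelUniqC893 F`** (LEAF [S], Mathlib only): the exponents of a level are unique.
* **`LevelAtC893`** (LEAF [S]): the exponents vanish outside the level.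

The top chooses `a = κ / c₀` (the exponents are determined by the level: `LevelUniqC893`), and
gets `UnramOut305 T₀` from `RamIn` (proved in the top).

FALSITY CHECKS (helper893).  (a) CONSTANT: `up = ∫∫ c' · pure(…)`, `c' > 0` (`ConvPureC563`);
`IsAvgPure` has no constant upstairs but ONE measure for both sides: take `ν = c' (ν₁ × ν₂)`;
then `down = ∫ a (c_G / (c' [I:U]^{ℓ-1})) pure(…) dν`; `[I:U]^{ℓ-1}`: at `u` the component
downstairs of the pure tensor must be the convolution product (`vol U(m_u) = 1`) of the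
components upstairs, `ℓ - 1` of which are `1_I`.  `c₀` depends on `(B, 𝔫, μc, T₀, n, n₀, m)`
only.  (b) The member is ONE pure tensor for every parameter: `lsum Hg` of unit components is
the double coset function (`LsumDblC563`), `iwL`, `ltr (z ^ k)` act on the component at `o 0`
(the elements of an Iwahori coset system and a scalar uniformiser are trivial outside `o 0`).
(c) At the bad places the components of the product are those of the second pair (the unit of
level `n w` is the identity on bi-`U(n₀ w)`-invariant functions, `n₀ w ≤ n w`), so `LocHyp893`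
on `T₀ ∖ {u}` is the first clause of `LocB893b`; the inert clause is void at `u` (`ℓ ≥ 3` places
over `u`).  (d) `SphHypC893`: `IsLevelAt305` gives `n w = m v = 0` outside `T₀`, spherical
functions are bi-`GL₂(𝒪)`-invariant of finite support; `T6.FundLemmaC` needs `e = 1`:
`UnramOut305`.  (e) `LevelUniqC893`: `{x : |x| ≤ q^{-a}} = {x : |x| ≤ q^{-b}}` ⟹ `a = b`
(power of a uniformiser).  `LevelAtC893`: for `v ∤ 𝔫` the closure of `𝔫` is `𝒪_v`; a place `w`
over `v ∤ 𝔫` does not divide `𝔫 𝒪_{K'}`.
-/

set_option autoImplicit false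

open AutomorphicForm IsDedekindDomain NumberField MeasureTheory
open scoped ComplexConjugate

noncomputable section

namespace Fermat.Agent.LT.T7.H893

open Fermat.Agent.LT.H556 Fermat.Agent.LT.H556.A0 Fermat.Agent.LT.T7
open Fermat.Agent.LT.T7.H305

attribute [local instance] Fermat.Agent.LT.T5.instMeasurableSpaceG

section Shape

variable {K K' : Type} [Field K] [NumberField K] [Field K'] [NumberField K'] [Algebra K K']

/-- **THE LOCAL SHAPE OF THE MEMBERS**: the local hypotheses at the places of the level `T₀`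
(and at infinity), the spherical shape outside the level. -/
def LocP893 (D : CompData K K') (μc : @Measure (GL (Fin 2) ℂ) (borel _))
    (T₀ : Finset (HeightOneSpectrum (𝓞 K)))
    (n : HeightOneSpectrum (𝓞 K') → ℕ) (m : HeightOneSpectrum (𝓞 K) → ℕ) : LocCond K K' :=
  fun T φ₀ Φ f₀ F => LocHyp893 D μc T₀ n m φ₀ Φ f₀ F ∧ SphOut893 D.l T₀ T φ₀ f₀

end Shape

section Leaves

/-- **LEAF T7.L2.1.H2b.1 = LEVEL-UNIQ [S] (Mathlib only).**  The exponents of a level are
unique. -/
def LevelUniqC893 (F : Type) [Field F] [NumberField F] : Prop :=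
  ∀ (𝔫 : Ideal (𝓞 F)) (m m' : HeightOneSpectrum (𝓞 F) → ℕ),
    IsLevelOf893 𝔫 m → IsLevelOf893 𝔫 m' → m = m'

variable (K K' : Type) [Field K] [NumberField K] [Field K'] [NumberField K'] [Algebra K K']

/-- **LEAF T7.L2.1.H2b.2 = LEVEL-AT [S].**  The exponents of `𝔫` and of `𝔫 𝒪_{K'}` vanish
outside the places of the level. -/
def LevelAtC893 : Prop :=
  ∀ (𝔫 : Ideal (𝓞 K)) (T₀ : Finset (HeightOneSpectrum (𝓞 K)))
    (n : HeightOneSpectrum (𝓞 K') → ℕ) (m : HeightOneSpectrum (𝓞 K) → ℕ),
    (∀ v : HeightOneSpectrum (𝓞 K), v ∈ T₀ ↔ v.asIdeal ∣ 𝔫) →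
    IsLevelOf893 𝔫 m → IsLevelOf893 (upI (K' := K') 𝔫) n → IsLevelAt305 T₀ n m

/-- **NODE T7.L2.1.H2b.3 = SPH-HYP (LOCAL, T6).**  The local hypotheses at the places of `T₀`
and the spherical shape at the places of `T ∖ T₀` (unramified, levels `0`) give the local
hypotheses at the places of `T`.
Proof.  `v ∈ T ∖ T₀`.  `inv_up`, `inv_down`: a spherical function is bi-`GL₂(𝒪)`-invariant of
finite support, the levels are `0` (`IsLevelAt305`).  `inert`: `e = 1` (`UnramOut305`), the
fundamental lemma `T6.FundLemmaC` for `T6.IsBC`.  `split`: an enumeration in the order of the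
orbit with identifications `K_v ≃ K'_{w j}` exists (`v` splits completely, the group is
cyclic); the convolution product of spherical functions is spherical and its Satake transform
is the product; the Satake transform is injective on the spherical functions. -/
def SphHypC893 : Prop :=
  ∀ D : CompData K K', IsCompData D → IsCycExt K K' D.l → D.l ≠ 2 → TotCplx K →
    ∀ μc : @Measure (GL (Fin 2) ℂ) (borel _), @Measure.IsHaarMeasure _ _ _ (borel _) μc →
    ∀ (T₀ : Finset (HeightOneSpectrum (𝓞 K))), UnramOut305 (K' := K') T₀ →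
    ∀ (n : HeightOneSpectrum (𝓞 K') → ℕ) (m : HeightOneSpectrum (𝓞 K) → ℕ),
      IsLevelAt305 T₀ n m →
    ∀ T : Finset (HeightOneSpectrum (𝓞 K)), T₀ ⊆ T →
    ∀ (φ₀ : ∀ w : HeightOneSpectrum (𝓞 K'), GL (Fin 2) (w.adicCompletion K') → ℂ)
      (Φ : InfinitePlace K' → GL (Fin 2) ℂ → ℂ)
      (f₀ : ∀ v : HeightOneSpectrum (𝓞 K), GL (Fin 2) (v.adicCompletion K) → ℂ)
      (F : InfinitePlace K → GL (Fin 2) ℂ → ℂ),
      LocHyp893 D μc T₀ n m φ₀ Φ f₀ F → SphOut893 D.l T₀ T φ₀ f₀ →
      LocHyp893 D μc T n m φ₀ Φ f₀ F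

/-- **NODE T7.L2.1.H2b.4 = PROD-SHAPE (the CALCULUS of pure tensors).**  For a common part which
contains the ramified places, a bad element, a level `𝔫` with exponents `(T₀, n, n₀, m)` and a
Haar measure `μc` of `GL₂(ℂ)` there is a constant `c₀ ≠ 0` such that for every `a ≠ 0` and all
pre-data of level `𝔫` with the operator properties and the local shape (`LocA893` with
constant `1`, `LocB893b` with constant `a`) the members of the families are averages of pure
tensors with constant `a * c₀` whose components satisfy `LocP893`.  See the header. -/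
def ProdShapeC893 : Prop :=
  ∀ ℓ : ℕ, IsCycExt K K' ℓ → ℓ ≠ 2 → TotCplx K →
    ∀ (Φ : HeckeEigensystem K' ℂ) (B : L2Base K K'), IsL2Base ℓ Φ B → B.RamIn →
    ∀ g : G K', B.IsBad g →
    ∀ (𝔫 : Ideal (𝓞 K)) (μc : @Measure (GL (Fin 2) ℂ) (borel _)),
      @Measure.IsHaarMeasure _ _ _ (borel _) μc →
    ∀ (T₀ : Finset (HeightOneSpectrum (𝓞 K)))
      (n n₀ : HeightOneSpectrum (𝓞 K') → ℕ) (m : HeightOneSpectrum (𝓞 K) → ℕ),
      (∀ v : HeightOneSpectrum (𝓞 K), v ∈ T₀ ↔ v.asIdeal ∣ 𝔫) →
      IsLevelOf893 𝔫 m → IsLevelOf893 (upI (K' := K') 𝔫) n → IsLevelOf893 B.𝔑₀ n₀ →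
      ∃ c₀ : ℂ, c₀ ≠ 0 ∧
        ∀ a : ℂ, a ≠ 0 → ∀ E : L2Pre K K', E.𝔫 = 𝔫 → IsL2PreOp ℓ Φ B g E →
          (∀ X : List (Gen K'), (∀ x ∈ X, x.Out B.S') →
            IsAvgPure (upI (K' := K') 𝔫) 𝔫 T₀ (LocA893 B 𝔫 μc T₀ n m) 1 (E.Φ₁ X) (E.F₁ X)) →
          IsAvgPure (upI (K' := K') 𝔫) 𝔫 T₀ (LocB893b B g 𝔫 μc T₀ n n₀ m) a E.φ₂ E.f₂ →
          ∀ (X : List (Gen K')) (k : ℤ) (mm : ℕ), (∀ x ∈ X, x.Out B.S') →
            IsAvgPure (upI (K' := K') 𝔫) 𝔫 T₀ (LocP893 (B.comp 𝔫) μc T₀ n m) (a * c₀)
              (E.up B X k mm) (E.down B X k mm)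

end Leaves

end Fermat.Agent.LT.T7.H893

end
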