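import Mathlib
import Fermat.Agent.LT.T7.H893.SupplyProdSpec

/-!
# Row LT, tower T7, node T7.L2.1.H2b.3 `SphHypC893` (sub-architect helper893): CUT -- Spec

OFF-MAIN.  Definitions and frozen Props only (the proved top is `SupplySphTop.lean`).  No
`sorry`, nothing assumed.  ADDITIVE (new names only, suffix `893`).

    sphHypC_of893 : T6.T6Out → SphInvC893 K → SphInvC893 K' → SphInertC893 K K'
        → SphSplitC893 K K' → SphHypC893 K K'                                  (VERBATIM)

The node `SphHypC893` (local hypotheses on `T₀` + spherical shape on `T ∖ T₀` ⟹ local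
hypotheses on `T`) is cut along the clauses of `LocHyp893` at ONE place `v ∉ T₀`:

* **`SphInvC893 F`** (LEAF [S–M], local): a spherical function (`IsSphFn893`) is
  bi-`GL₂(𝒪_v)`-invariant and supported on finitely many cosets `x GL₂(𝒪_v)`.
* **`SphInertC893 K K'`** (LEAF [M], T6): the clause `inert` at a place `v ∉ T₀` with ONE place
  `w` over it, for spherical components with `T6.IsBC`: `e = 1` (`UnramOut305`), the
  fundamental lemma `T6.FundLemmaC` (in `T6Out`), the instances `T6.InstLocalC`.
* **`SphSplitC893 K K'`** (LEAF [L], T6 + Satake): the clause `split` at a place `v ∉ T₀` with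
  at least two places over it, for spherical components whose Satake transforms multiply:
  an enumeration in the order of the orbit with identifications `K_v ≃ K'_{w j}`
  (`T6.InstSplitC`; `v` splits completely, the decomposition groups are trivial), and
  `f₀ v = φ₀ (w 0) * ⋯ * φ₀ (w (l-1))` (the convolution product of spherical functions is
  spherical, its Satake transform is the product; the Satake transform is injective).

FALSITY CHECKS (helper893).  (a) `SphInvC893`: `T6.cartan` is bi-`GL₂(𝒪)`-invariant; the set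
`{cartan = λ}` is ONE double coset, a finite union of cosets (`T6.IsCosetSys`; the residue
field is finite); `A` has finite support.  (b) `SphInertC893`: `IsLocalExt.val_i` and an
element `x ∈ v`, `x ∉ w²` give `e = 1`; `N w = (N v)^l` (the place is inert); the functions are
`fun g => A (cartan g)` (`IsSphFn893`), the form of `T6.FLMatch`.  (c) `SphSplitC893`: the
identifications preserve the valuations, so `cartan (map (i j) g) = cartan g` and the
components `φ₀ (w j) ∘ map (i j)` are spherical on `GL₂(K_v)` with the values `A (w j)`; `N (w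
j) = N v`; the product in `SphOut893` is over `Finset.range l` for EVERY enumeration by
distinct places, in particular for the one in the order of the orbit (`w j ≠ w j'` for
`j < j' < l`: the orbit has `l` elements).
-/

set_option autoImplicit false

open AutomorphicForm IsDedekindDomain NumberField MeasureTheory
open scoped ComplexConjugate

noncomputable section

namespace Fermat.Agent.LT.T7.H893

open Fermat.Agent.LT.H556 Fermat.Agent.LT.H556.A0 Fermat.Agent.LT.T7
open Fermat.Agent.LT.T7.H305

attribute [local instance] Fermat.Agent.LT.T5.instMeasurableSpaceG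

section Leaves

/-- **LEAF T7.L2.1.H2b.3a = SPH-INV [S–M] (local).**  A spherical function on `GL₂(F_v)` is
bi-invariant under `GL₂(𝒪_v) = U(0)` and supported on finitely many cosets. -/
def SphInvC893 (F : Type) [Field F] [NumberField F] : Prop :=
  ∀ (v : HeightOneSpectrum (𝓞 F)) (φ : GL (Fin 2) (v.adicCompletion F) → ℂ)
    (A : (ℤ × ℤ) →₀ ℂ), IsSphFn893 φ A →
    T6.IsBiInv (T6.InU 0) φ ∧ T6.HasFinSupp (T6.InU 0) φ

variable (K K' : Type) [Field K] [NumberField K] [Field K'] [NumberField K'] [Algebra K K']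

/-- **LEAF T7.L2.1.H2b.3b = SPH-INERT [M] (T6: the fundamental lemma).**  The clause `inert`
of `LocHyp893` at a place `v ∉ T₀` (unramified) with ONE place `w` over it, levels `0`,
spherical components related by the base change `T6.IsBC`. -/
def SphInertC893 : Prop :=
  T6.T6Out →
  ∀ D : CompData K K', IsCompData D → IsCycExt K K' D.l → D.l ≠ 2 → TotCplx K →
    ∀ (T₀ : Finset (HeightOneSpectrum (𝓞 K))), UnramOut305 (K' := K') T₀ →
    ∀ v : HeightOneSpectrum (𝓞 K), v ∉ T₀ →
    ∀ w : HeightOneSpectrum (𝓞 K'), PlaceOver K K' v w →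
      (∀ w' : HeightOneSpectrum (𝓞 K'), PlaceOver K K' v w' → w' = w) →
    ∀ (nw mv : ℕ), nw = 0 → mv = 0 →
    ∀ (φ : GL (Fin 2) (w.adicCompletion K') → ℂ) (f : GL (Fin 2) (v.adicCompletion K) → ℂ)
      (A Av : (ℤ × ℤ) →₀ ℂ), IsSphFn893 φ A → IsSphFn893 f Av →
      T6.IsBC D.l (Ideal.absNorm v.asIdeal) A Av →
    ∀ (e : ℕ) (i : v.adicCompletion K →+* w.adicCompletion K')
      (sw : w.adicCompletion K' ≃+* w.adicCompletion K'),
      (∀ x : K, i (algebraMap K (v.adicCompletion K) x)
        = algebraMap K' (w.adicCompletion K') (algebraMap K K' x)) →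
      (∀ y : K', sw (algebraMap K' (w.adicCompletion K') y)
        = algebraMap K' (w.adicCompletion K') (D.s.σ y)) →
      T6.IsLocalExt (v.adicCompletion K) (w.adicCompletion K') D.l e i sw →
      (∀ (δ : GL (Fin 2) (w.adicCompletion K')) (γ : GL (Fin 2) (v.adicCompletion K))
          (c c' : ℂ), T6.IsReg γ →
          IsConj (T6.twNorm sw D.l δ) (Matrix.GeneralLinearGroup.map i γ) →
          T6.IsTwOrbSum sw nw φ δ c → T6.IsOrbSum mv f γ c' → c = c') ∧
        ∀ (γ : GL (Fin 2) (v.adicCompletion K)) (c' : ℂ), T6.IsReg γ →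
          ¬ T6.IsNormFrom D.l i sw γ → T6.IsOrbSum mv f γ c' → c' = 0

/-- **LEAF T7.L2.1.H2b.3c = SPH-SPLIT [L] (T6 + Satake).**  The clause `split` of `LocHyp893`
at a place `v ∉ T₀` (unramified) with at least two places over it, levels `0`, spherical
components whose Satake transforms multiply (the split clause of `SphOut893`). -/
def SphSplitC893 : Prop :=
  T6.T6Out →
  ∀ D : CompData K K', IsCompData D → IsCycExt K K' D.l → D.l ≠ 2 → TotCplx K →
    ∀ (T₀ : Finset (HeightOneSpectrum (𝓞 K))), UnramOut305 (K' := K') T₀ →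
    ∀ v : HeightOneSpectrum (𝓞 K), v ∉ T₀ →
      (∃ w₁ w₂ : HeightOneSpectrum (𝓞 K'),
        PlaceOver K K' v w₁ ∧ PlaceOver K K' v w₂ ∧ w₁ ≠ w₂) →
    ∀ (n : HeightOneSpectrum (𝓞 K') → ℕ) (m : HeightOneSpectrum (𝓞 K) → ℕ),
      (∀ w : HeightOneSpectrum (𝓞 K'), PlaceOver K K' v w → n w = 0) → m v = 0 →
    ∀ (φ₀ : ∀ w : HeightOneSpectrum (𝓞 K'), GL (Fin 2) (w.adicCompletion K') → ℂ)
      (f : GL (Fin 2) (v.adicCompletion K) → ℂ)
      (A : HeightOneSpectrum (𝓞 K') → (ℤ × ℤ) →₀ ℂ) (Av : (ℤ × ℤ) →₀ ℂ),
      IsSphFn893 f Av →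
      (∀ w : HeightOneSpectrum (𝓞 K'), PlaceOver K K' v w → IsSphFn893 (φ₀ w) (A w)) →
      (∀ w : ℕ → HeightOneSpectrum (𝓞 K'), (∀ j : ℕ, PlaceOver K K' v (w j)) →
        (∀ j j' : ℕ, j < D.l → j' < D.l → w j = w j' → j = j') →
        ∀ x y : ℂ, x ≠ 0 → y ≠ 0 →
          satT893 (Ideal.absNorm v.asIdeal) Av x y
            = ∏ j ∈ Finset.range D.l, satT893 (Ideal.absNorm v.asIdeal) (A (w j)) x y) →
      ∃ (w : ℕ → HeightOneSpectrum (𝓞 K'))
        (i : ∀ j : ℕ, v.adicCompletion K ≃+* (w j).adicCompletion K'),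
        (∀ j : ℕ, PlaceOver K K' v (w j)) ∧ (∀ j : ℕ, T5.PlaceRel D.s (w (j + 1)) (w j)) ∧
        (∀ j : ℕ, 0 < j → j < D.l → w j ≠ w 0) ∧
        (∀ (j : ℕ) (x : K), i j (algebraMap K (v.adicCompletion K) x)
          = algebraMap K' ((w j).adicCompletion K') (algebraMap K K' x)) ∧
        (∀ (j : ℕ) (x : v.adicCompletion K), Valued.v (i j x) = Valued.v x) ∧
        (∀ j : ℕ, n (w j) = m v) ∧
          T6.IsConvProd (T6.InU (m v)) D.l
            (fun j g => φ₀ (w j)
              (Matrix.GeneralLinearGroup.map ((i j : v.adicCompletion K ≃+* _) :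
                v.adicCompletion K →+* (w j).adicCompletion K') g))
            f

end Leaves

end Fermat.Agent.LT.T7.H893

end
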