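import Mathlib
import Fermat.Agent.LT.T7.H893.SupplySpec

/-!
# Row LT, tower T7, node T7.L2.1 `SupplyC` (sub-architect helper893): FIRST CUT -- proved top

OFF-MAIN.  No `sorry`, nothing assumed.  ADDITIVE.

    supplyC_of893 : SetupC K K' → ProjC K' → ProjC K → FamC P K K' → SupplyC P K K'
-/

set_option autoImplicit false

open AutomorphicForm IsDedekindDomain NumberField MeasureTheory
open scoped ComplexConjugate

noncomputable section

namespace Fermat.Agent.LT.T7.H893

open Fermat.Agent.LT.H556 Fermat.Agent.LT.H556.A0 Fermat.Agent.LT.T7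

attribute [local instance] Fermat.Agent.LT.T5.instMeasurableSpaceG

section Top

variable {P : EKCond}
variable {K K' : Type} [Field K] [NumberField K] [Field K'] [NumberField K'] [Algebra K K']

/-- The extension of a nonzero ideal is nonzero. -/
theorem upI_ne_bot893 {𝔫 : Ideal (𝓞 K)} (h : 𝔫 ≠ ⊥) : upI (K' := K') 𝔫 ≠ ⊥ := by
  unfold upI
  intro h0
  rw [Ideal.map_eq_bot_iff_of_injective (FaithfulSMul.algebraMap_injective (𝓞 K) (𝓞 K'))] at h0
  exact h h0

/-- The data of the comparison are good for every nonzero level. -/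
theorem isCompData_comp893 {ℓ : ℕ} {Φ : HeckeEigensystem K' ℂ} {B : L2Base K K'}
    (hB : IsL2Base ℓ Φ B) {𝔫 : Ideal (𝓞 K)} (h : 𝔫 ≠ ⊥) : IsCompData (B.comp 𝔫) where
  cyc := hB.cyc
  base := hB.base
  level_ne := h
  level := rfl
  frame := hB.frame
  frame' := hB.frame'
  aut := hB.aut 𝔫

/-- **The assembly of an `L2Data`** from a common part and `g`-parts at the bad elements. -/
theorem isL2Data_toData893 {ℓ : ℕ} {Φ : HeckeEigensystem K' ℂ} {B : L2Base K K'}
    (hB : IsL2Base ℓ Φ B) (hP' : ProjC K') (hP : ProjC K) (Fm : G K' → L2Fam K K')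
    (hFm : ∀ g : G K', B.IsBad g → IsL2Fam ℓ Φ B g (Fm g)) :
    IsL2Data ℓ Φ (B.toData Fm) where
  deg := hB.deg
  comp := fun g hg => isCompData_comp893 hB (hFm g hg).level_ne
  level_le := hB.level_le
  level_g := fun g hg => (hFm g hg).level_g
  mem_S' := hB.mem_S'
  mem_S'_g := fun g hg => (hFm g hg).mem_S'_g
  const := hB.const
  orbit_rel := hB.orbit_rel
  orbit_ne := hB.orbit_ne
  orbit_over := hB.orbit_over
  orbit_level := hB.orbit_level
  orbit_good := hB.orbit_good
  u_level := fun g hg => (hFm g hg).u_level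
  ekprod_up := fun g X k m hg hX => (hFm g hg).ekprod_up X k m hX
  ekprod_down := fun g X k m hg hX => (hFm g hg).ekprod_down X k m hX
  reg_up := fun g X k m hg hX hm => (hFm g hg).reg_up X k m hX hm
  reg_down := fun g X k m hg hX hm => (hFm g hg).reg_down X k m hX hm
  matched := fun g X k m hg hX hm => (hFm g hg).matched X k m hX hm
  base_ne := fun g hg => (hFm g hg).base_ne
  op_up := fun g X k m hg hX => (hFm g hg).op_up X k m hX
  kill_up := fun g X k m hg hX => (hFm g hg).kill_up X k m hX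
  proj_up := fun g hg ψ hψ =>
    hP' B.R' hB.frame' B.𝔑₀ (upI (K' := K') (Fm g).𝔫) (upI_ne_bot893 (hFm g hg).level_ne)
      (hFm g hg).level_g ℓ B.o (fun j => (hB.mem_S' (B.o j)).1 (hB.orbit_level j)) ψ hψ
  op_down := fun g X k m hg hX => (hFm g hg).op_down X k m hX
  class_down := fun g hg => (hFm g hg).class_down
  comm_down := fun g hg => (hFm g hg).comm_down
  kill_down := fun g X k m hg hX => (hFm g hg).kill_down X k m hX
  proj_down := fun g hg ψ hψ =>
    hP B.R hB.frame (Fm g).𝔫 (Fm g).𝔫 (hFm g hg).level_ne le_rfl 1 (fun _ => B.u)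
      (fun _ => (hFm g hg).u_level) ψ hψ

/-- **THE TOP OF THE FIRST CUT of T7.L2.1**: the supply from the setup, the orthogonal
projections over the two fields, and the families for one bad element. -/
theorem supplyC_of893 (hS : SetupC K K') (hP' : ProjC K') (hP : ProjC K)
    (hF : FamC P K K') : SupplyC P K K' := by
  intro ℓ hcyc hℓ hcplx Φ hΦ hconst hPΦ
  obtain ⟨B, hB⟩ := hS ℓ hcyc hℓ hcplx Φ hΦ hconst
  have hex : ∀ g : G K', ∃ Fm : L2Fam K K', B.IsBad g → IsL2Fam ℓ Φ B g Fm := by
    intro g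
    by_cases hg : B.IsBad g
    · obtain ⟨Fm, h⟩ := hF ℓ hcyc hℓ hcplx Φ hΦ hconst hPΦ B hB g hg
      exact ⟨Fm, fun _ => h⟩
    · exact ⟨⟨⊥, fun _ => 0, fun _ _ _ _ => 0, fun _ _ _ _ => 0, fun _ => 0⟩,
        fun h => absurd h hg⟩
  choose Fm hFm using hex
  exact ⟨B.toData Fm, isL2Data_toData893 hB hP' hP Fm hFm⟩

end Top

end Fermat.Agent.LT.T7.H893

end
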