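import Mathlib
import Fermat.Agent.LT.T7.Level2S
import Fermat.Agent.LT.T7.H893.SupplyTop
import Fermat.Agent.LT.T7.H893.SupplyFamSpec

/-!
# Row LT, tower T7, node T7.L2.1 `SupplyC` / `SupplySC` (sub-architect helper893):
# SECOND CUT -- proved tops

OFF-MAIN.  No `sorry`, nothing assumed.  ADDITIVE.

    famC_of893     : PreC P K K' → EkProdUpC K K' → EkProdDownC K K' → OpUpC K K' → KillUpC K K'
                       → OpDownC K K' → ClassDownC K K' → CommDownC K K' → KillDownC K K'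
                       → FamC P K K'
    supplySC_of893 : SetupC K K' → ProjC K' → ProjC K → FamC P K K' → SupplySC P K K'
    supplySC_of_leaves893 : SetupC → ProjC K' → ProjC K → PreC P → (8 leaves) → SupplySC P K K'

`SupplySC` = the node of `T7/Level2S.lean` (helper797, stable base level); `supplyC_of_S` of that
file gives `SupplyC`.
-/

set_option autoImplicit false

open AutomorphicForm IsDedekindDomain NumberField MeasureTheory
open scoped ComplexConjugate

noncomputable section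

namespace Fermat.Agent.LT.T7.H893

open Fermat.Agent.LT.H556 Fermat.Agent.LT.H556.A0 Fermat.Agent.LT.T7

attribute [local instance] Fermat.Agent.LT.T5.instMeasurableSpaceG

section Top

variable {P : EKCond}
variable {K K' : Type} [Field K] [NumberField K] [Field K'] [NumberField K'] [Algebra K K']

/-- **The families of pre-data are good**, from the eight bookkeeping leaves. -/
theorem isL2Fam_toFam893 {ℓ : ℕ} {Φ : HeckeEigensystem K' ℂ} {B : L2Base K K'}
    (hB : IsL2Base ℓ Φ B) {g : G K'} (hg : B.IsBad g) {E : L2Pre K K'}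
    (hE : IsL2Pre ℓ Φ B g E)
    (h1 : EkProdUpC K K') (h2 : EkProdDownC K K') (h3 : OpUpC K K') (h4 : KillUpC K K')
    (h5 : OpDownC K K') (h6 : ClassDownC K K') (h7 : CommDownC K K') (h8 : KillDownC K K') :
    IsL2Fam ℓ Φ B g (E.toFam B) where
  level_ne := hE.level_ne
  level_g := hE.level_g
  mem_S'_g := hE.mem_S'_g
  u_level := hE.u_level
  ekprod_up := fun X k m hX => h1 ℓ Φ B hB g hg E hE X k m hX
  ekprod_down := fun X k m hX => h2 ℓ Φ B hB g hg E hE X k m hX
  reg_up := hE.reg_up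
  reg_down := hE.reg_down
  matched := hE.matched
  base_ne := fun C hC => mul_ne_zero (hE.up_ne C hC).1 (hE.up_ne C hC).2
  op_up := fun X k m hX ψ C hψ Hg H z hHg hH hz x =>
    h3 ℓ Φ B hB g hg E hE X k m hX ψ C hψ Hg H z hHg hH hz x
  kill_up := fun X k m hX ψ hψ hperp x => h4 ℓ Φ B hB g hg E hE X k m hX ψ hψ hperp x
  op_down := fun X k m hX ψ c C hψ hbc H z hH hz x =>
    h5 ℓ Φ B hB g hg E hE X k m hX ψ c C hψ hbc H z hH hz x
  class_down := fun ψ c hψ => h6 ℓ Φ B hB g hg E hE ψ c hψ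
  comm_down := fun ψ hψ H z hH hz => h7 ℓ Φ B hB g hg E hE ψ hψ H z hH hz
  kill_down := fun X k m hX ψ hψ hperp x => h8 ℓ Φ B hB g hg E hE X k m hX ψ hψ hperp x

/-- **THE TOP OF THE SECOND CUT**: the families for one bad element from the pre-data and the
eight bookkeeping leaves. -/
theorem famC_of893 (h0 : PreC P K K')
    (h1 : EkProdUpC K K') (h2 : EkProdDownC K K') (h3 : OpUpC K K') (h4 : KillUpC K K')
    (h5 : OpDownC K K') (h6 : ClassDownC K K') (h7 : CommDownC K K') (h8 : KillDownC K K') :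
    FamC P K K' := by
  intro ℓ hcyc hℓ hcplx Φ hΦ hconst hPΦ B hB g hg
  obtain ⟨E, hE⟩ := h0 ℓ hcyc hℓ hcplx Φ hΦ hconst hPΦ B hB g hg
  exact ⟨E.toFam B, isL2Fam_toFam893 hB hg hE h1 h2 h3 h4 h5 h6 h7 h8⟩

/-- The data assembled from a good common part are stable. -/
theorem isStable_toData893 {ℓ : ℕ} {Φ : HeckeEigensystem K' ℂ} {B : L2Base K K'}
    (hB : IsL2Base ℓ Φ B) (Fm : G K' → L2Fam K K') : (B.toData Fm).IsStable := by
  obtain ⟨𝔫₀, h0, h1, _, _⟩ := hB.base_level
  exact ⟨𝔫₀, h0, h1⟩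

/-- **THE STABLE SUPPLY (node `SupplySC` of `T7/Level2S.lean`) from the first cut.** -/
theorem supplySC_of893 (hS : SetupC K K') (hP' : ProjC K') (hP : ProjC K)
    (hF : FamC P K K') : SupplySC P K K' := by
  intro ℓ hcyc hℓ hcplx Φ hΦ hconst hPΦ
  obtain ⟨B, hB⟩ := hS ℓ hcyc hℓ hcplx Φ hΦ hconst
  have hex : ∀ g : G K', ∃ Fm : L2Fam K K', B.IsBad g → IsL2Fam ℓ Φ B g Fm := by
    intro g
    by_cases hg : B.IsBad g
    · obtain ⟨Fm, h⟩ := hF ℓ hcyc hℓ hcplx Φ hΦ hconst hPΦ B hB g hg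
      exact ⟨Fm, fun _ => h⟩
    · exact ⟨⟨⊥, fun _ => 0, fun _ _ _ _ => 0, fun _ _ _ _ => 0, fun _ => 0⟩,
        fun h => absurd h hg⟩
  choose Fm hFm using hex
  exact ⟨B.toData Fm, isL2Data_toData893 hB hP' hP Fm hFm, isStable_toData893 hB Fm⟩

/-- **THE STABLE SUPPLY from the leaves of the two cuts.** -/
theorem supplySC_of_leaves893 (hS : SetupC K K') (hP' : ProjC K') (hP : ProjC K)
    (h0 : PreC P K K')
    (h1 : EkProdUpC K K') (h2 : EkProdDownC K K') (h3 : OpUpC K K') (h4 : KillUpC K K')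
    (h5 : OpDownC K K') (h6 : ClassDownC K K') (h7 : CommDownC K K') (h8 : KillDownC K K') :
    SupplySC P K K' :=
  supplySC_of893 hS hP' hP (famC_of893 h0 h1 h2 h3 h4 h5 h6 h7 h8)

end Top

end Fermat.Agent.LT.T7.H893

end
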