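import Mathlib
import Fermat.Agent.LT.T7.H893.SupplyPreTop
import Fermat.Agent.LT.T7.H893.SupplyGeoSpec

/-!
# Row LT, tower T7, node T7.L2.1 `SupplySC` (sub-architect helper893): FOURTH CUT -- proved tops

OFF-MAIN.  No `sorry`, nothing assumed.  ADDITIVE.

    preGeoC_of893 : GlobC K K' Mt → ConstrC P K K' Mt → EkProdUpOpC K K' → EkProdDownOpC K K'
                      → RegSuppC K' → RegSupp0C K → PreGeoC P K K'        (for EVERY `Mt`)
    supplySC_of_constr893 : (all leaves of the four cuts) → SupplySC P K K'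
-/

set_option autoImplicit false

open AutomorphicForm IsDedekindDomain NumberField MeasureTheory
open scoped ComplexConjugate

noncomputable section

namespace Fermat.Agent.LT.T7.H893

open Fermat.Agent.LT.H556 Fermat.Agent.LT.H556.A0 Fermat.Agent.LT.T7

attribute [local instance] Fermat.Agent.LT.T5.instMeasurableSpaceG

section Top

variable {P : EKCond}
variable {K K' : Type} [Field K] [NumberField K] [Field K'] [NumberField K'] [Algebra K K']

/-- The operator part of the properties of the pre-data. -/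
theorem isL2PreOp_of893 {ℓ : ℕ} {Φ : HeckeEigensystem K' ℂ} {B : L2Base K K'} {g : G K'}
    {E : L2Pre K K'} (h : IsL2Pre ℓ Φ B g E) : IsL2PreOp ℓ Φ B g E where
  level_ne := h.level_ne
  level_g := h.level_g
  mem_S'_g := h.mem_S'_g
  u_level := h.u_level
  sysg := h.sysg
  sys' := h.sys'
  unif' := h.unif'
  sys := h.sys
  unif := h.unif
  up1_test := h.up1_test
  up1_ek := h.up1_ek
  up1_op := h.up1_op
  up2_test := h.up2_test
  up2_ek := h.up2_ek
  up2_inv := h.up2_inv
  up2_op := h.up2_op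
  up2_kill := h.up2_kill
  up_ne := h.up_ne
  dn1_test := h.dn1_test
  dn1_ek := h.dn1_ek
  dn1_op := h.dn1_op
  dn1_wfn := h.dn1_wfn
  dn1_class := h.dn1_class
  dn1_comm := h.dn1_comm
  dn2_test := h.dn2_test
  dn2_ek := h.dn2_ek
  dn2_inv := h.dn2_inv
  dn2_wfn := h.dn2_wfn
  dn2_class := h.dn2_class
  dn2_comm := h.dn2_comm
  dn2_kill := h.dn2_kill

/-- The leaf `EkProdUpC` of the second cut from its operator form. -/
theorem ekProdUpC_of_op893 (h : EkProdUpOpC K K') : EkProdUpC K K' :=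
  fun ℓ Φ B hB g hg E hE => h ℓ Φ B hB g hg E (isL2PreOp_of893 hE)

/-- The leaf `EkProdDownC` of the second cut from its operator form. -/
theorem ekProdDownC_of_op893 (h : EkProdDownOpC K K') : EkProdDownC K K' :=
  fun ℓ Φ B hB g hg E hE => h ℓ Φ B hB g hg E (isL2PreOp_of893 hE)

variable {Mt : MtRel K K'}

/-- **THE TOP OF THE FOURTH CUT**: the construction with LOCALLY matched families and the
matching theorem give the construction with MATCHED families. -/
theorem preGeoC_of893 (hG : GlobC K K' Mt) (hC : ConstrC P K K' Mt)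
    (h1 : EkProdUpOpC K K') (h2 : EkProdDownOpC K K')
    (hR : RegSuppC K') (hR0 : RegSupp0C K) : PreGeoC P K K' := by
  intro ℓ hcyc hℓ hcplx Φ hΦ hconst hPΦ B hB g hg
  obtain ⟨E, hOp, hSupp, hMt⟩ := hC ℓ hcyc hℓ hcplx Φ hΦ hconst hPΦ B hB g hg
  obtain ⟨mu, hmu⟩ := exists_depth_up893 hB hg hOp hSupp hR hcyc.prime.pos
  obtain ⟨md, hmd⟩ := exists_depth_down893 hOp hSupp hR0
  refine ⟨E, hOp, hSupp, fun X => max (mu X) (md X), fun X k m hX hm => ?_⟩
  exact hG ℓ Φ hcyc hℓ hcplx B hB E.𝔫 hOp.level_ne _ _ (hMt X k m hX)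
    (h1 ℓ Φ B hB g hg E hOp X k m hX).1 (hmu X k m hX (le_trans (le_max_left _ _) hm))
    (h2 ℓ Φ B hB g hg E hOp X k m hX).1 (hmd X k m hX (le_trans (le_max_right _ _) hm))

/-- **THE STABLE SUPPLY from the leaves of the four cuts.** -/
theorem supplySC_of_constr893 (hS : SetupC K K') (hP' : ProjC K') (hP : ProjC K)
    (hG : GlobC K K' Mt) (hC : ConstrC P K K' Mt)
    (hR : RegSuppC K') (hR0 : RegSupp0C K)
    (h1 : EkProdUpOpC K K') (h2 : EkProdDownOpC K K') (h3 : OpUpC K K') (h4 : KillUpC K K')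
    (h5 : OpDownC K K') (h6 : ClassDownC K K') (h7 : CommDownC K K') (h8 : KillDownC K K') :
    SupplySC P K K' :=
  supplySC_of_geo893 hS hP' hP (preGeoC_of893 hG hC h1 h2 hR hR0) hR hR0
    (ekProdUpC_of_op893 h1) (ekProdDownC_of_op893 h2) h3 h4 h5 h6 h7 h8

end Top

end Fermat.Agent.LT.T7.H893

end
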