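import Mathlib
import Fermat.Agent.LT.T7.H893.SupplyGeoTop
import Fermat.Agent.LT.T7.H40.ProjClosed
import Fermat.Agent.LT.T7.H277.FamSmall

/-!
# Row LT, tower T7, node T7.L2.1 `SupplySC` (sub-architect helper893): INTEGRATION v1

OFF-MAIN.  No `sorry`, nothing assumed.  ADDITIVE.

CLOSED leaves (vendored byte-identical, in ONE closure with the four cuts):

* `ProjC K`, `ProjC K'` : helper40, `LT/T7/H40/ProjClosed.lean`, `projC893_closed40`;
* `KillUpC`, `KillDownC`, `ClassDownC`, `CommDownC` : helper277, `LT/T7/H277/FamSmall.lean`.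

OPEN (the structure `OpenSupply893`): `SetupC`, `GlobC Mt`, `ConstrC P Mt`, `RegSuppC K'`,
`RegSupp0C K`, `EkProdUpOpC`, `EkProdDownOpC`, `OpUpC`, `OpDownC`.

    supplySC_of_open893 : OpenSupply893 P K K' Mt → T7.SupplySC P K K'
-/

set_option autoImplicit false

open AutomorphicForm IsDedekindDomain NumberField MeasureTheory
open scoped ComplexConjugate

noncomputable section

namespace Fermat.Agent.LT.T7.H893

open Fermat.Agent.LT.H556 Fermat.Agent.LT.H556.A0 Fermat.Agent.LT.T7

attribute [local instance] Fermat.Agent.LT.T5.instMeasurableSpaceG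

section Closed

variable (P : EKCond)
variable (K K' : Type) [Field K] [NumberField K] [Field K'] [NumberField K'] [Algebra K K']
variable (Mt : MtRel K K')

/-- **THE OPEN WALL of `SupplySC`** (integration v1). -/
structure OpenSupply893 : Prop where
  setup : SetupC K K'
  glob : GlobC K K' Mt
  constr : ConstrC P K K' Mt
  regSupp : RegSuppC K'
  regSupp0 : RegSupp0C K
  ekUp : EkProdUpOpC K K'
  ekDown : EkProdDownOpC K K'
  opUp : OpUpC K K'
  opDown : OpDownC K K'

variable {P K K' Mt}

/-- **THE STABLE SUPPLY from the open wall** (the closed leaves are discharged). -/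
theorem supplySC_of_open893 (h : OpenSupply893 P K K' Mt) : SupplySC P K K' :=
  supplySC_of_constr893 h.setup (Fermat.Agent.LT.T7.H40.projC893_closed40 K')
    (Fermat.Agent.LT.T7.H40.projC893_closed40 K) h.glob h.constr h.regSupp h.regSupp0
    h.ekUp h.ekDown h.opUp (Fermat.Agent.LT.T7.H277.killUpC277 K K') h.opDown
    (Fermat.Agent.LT.T7.H277.classDownC277 K K') (Fermat.Agent.LT.T7.H277.commDownC277 K K')
    (Fermat.Agent.LT.T7.H277.killDownC277 K K')

end Closed

end Fermat.Agent.LT.T7.H893

end
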