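import Mathlib
import Fermat.Agent.LT.T7.H893.SupplyClosed
import Fermat.Agent.LT.T7.H644.SetupClosed
import Fermat.Agent.LT.T7.H311.EkProdDown
import Fermat.Agent.LT.T7.H771.RegSupp0

/-!
# Row LT, tower T7, node T7.L2.1 `SupplySC` (sub-architect helper893): INTEGRATION v2

OFF-MAIN.  No `sorry`, nothing assumed.  ADDITIVE.

CLOSED leaves (vendored byte-identical, in ONE closure with the four cuts):

* `SetupC K K'` : helper644 (+ helper729, helper648), `LT/T7/H644/SetupClosed.lean`;
* `ProjC K`, `ProjC K'` : helper40, `LT/T7/H40/ProjClosed.lean`;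
* `EkProdDownOpC K K'` : the proof of helper311 (`LT/T7/H311/EkProdDown.lean`, which uses the
  operator fields only), repeated here for `IsL2PreOp`;
* `RegSupp0C K` : helper771, `LT/T7/H771/RegSupp0.lean`;
* `KillUpC`, `KillDownC`, `ClassDownC`, `CommDownC` : helper277, `LT/T7/H277/FamSmall.lean`.

OPEN (the structure `OpenSupply893b`): `GlobC Mt`, `ConstrC P Mt`, `RegSuppC K'`,
`EkProdUpOpC`, `OpUpC`, `OpDownC`.

    supplySC_of_open893b : OpenSupply893b P K K' Mt → T7.SupplySC P K K'
-/

set_option autoImplicit false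

open AutomorphicForm IsDedekindDomain NumberField MeasureTheory
open scoped ComplexConjugate

noncomputable section

namespace Fermat.Agent.LT.T7.H893

open Fermat.Agent.LT Fermat.Agent.LT.H556 Fermat.Agent.LT.H556.A0 Fermat.Agent.LT.T7

attribute [local instance] Fermat.Agent.LT.T5.instMeasurableSpaceG

section Closed

variable (P : EKCond)
variable (K K' : Type) [Field K] [NumberField K] [Field K'] [NumberField K'] [Algebra K K']
variable (Mt : MtRel K K')

/-- **LEAF F2 in the operator form, CLOSED** (the proof of helper311, `ekProdDownC311`, for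
`IsL2PreOp`). -/
theorem ekProdDownOpC_closed893 : EkProdDownOpC K K' := by
  intro ℓ Φ B hB g hg E hE X k m hX
  have hF : IsFrame5 B.R := hB.frame
  have hT : H32.ConvTestC32 E.𝔫 B.R.μ := fun a b ha hb =>
    H872.isTestFn_conv872 hF.frame.haar hE.level_ne ha hb
  have h1 : H32.IsEKTest32 E.𝔫 B.R.μ (E.F₁ X) :=
    ⟨hE.dn1_test X hX, (hE.dn1_ek X hX).1, (hE.dn1_ek X hX).2⟩
  have hpre : H311.IsPre311 E.𝔫 B.R.μ E.f₂ :=
    H311.isPre_of_test311 hE.dn2_test hE.dn2_ek.1 hE.dn2_ek.2
  have hL : H311.IsLInv311 E.𝔫 B.u E.f₂ :=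
    ⟨fun x hx y => (hE.dn2_inv.1 x hx y).1,
      fun h hl hI y => (hE.dn2_inv.2 h hl.1 (fun v hv => hl.2 v (hv 0 Nat.zero_lt_one))
        (fun _ _ => hI) y).1⟩
  have h2 := H311.isEKTest_regL311 hF.frame hpre hL hE.u_level hE.sys hE.unif k m
  exact H32.isEKProd_mk32 hT h1 h2

/-- **THE OPEN WALL of `SupplySC`** (integration v2). -/
structure OpenSupply893b : Prop where
  glob : GlobC K K' Mt
  constr : ConstrC P K K' Mt
  regSupp : RegSuppC K'
  ekUp : EkProdUpOpC K K'
  opUp : OpUpC K K'
  opDown : OpDownC K K'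

variable {P K K' Mt}

/-- **THE STABLE SUPPLY from the open wall** (the closed leaves are discharged). -/
theorem supplySC_of_open893b (h : OpenSupply893b P K K' Mt) : SupplySC P K K' :=
  supplySC_of_open893
    { setup := Fermat.Agent.LT.T7.H644.setupC644 K K'
      glob := h.glob
      constr := h.constr
      regSupp := h.regSupp
      regSupp0 := Fermat.Agent.LT.T7.H771.regSupp0C771 K
      ekUp := h.ekUp
      ekDown := ekProdDownOpC_closed893 K K'
      opUp := h.opUp
      opDown := h.opDown }

end Closed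

end Fermat.Agent.LT.T7.H893

end
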