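import Mathlib
import Fermat.Agent.LT.T7.H893.SupplyGeoTop
import Fermat.Agent.LT.T7.H893.SupplyConstrSpec

/-!
# Row LT, tower T7, node T7.L2.1 `SupplySC` (sub-architect helper893): FIFTH CUT -- proved tops

OFF-MAIN.  No `sorry`, nothing assumed.  ADDITIVE.

    exists_goodKap893 : GlobMatchC305 K K' → ∃ κ, (κ nowhere zero) ∧ GoodKap893 κ
    globC_of893       : GoodKap893 κ → AvgMatchC893 K K' → GlobC K K' (Mt893 κ)
    constrRC_of893    : BaseC P K K' → ProdMtC K K' κ → ConstrRC P K K' (Mt893 κ)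
    supplySC_ofR893   : SetupRC K K' → ProjC K' → ProjC K → GlobC K K' Mt → ConstrRC P K K' Mt
                          → (bookkeeping leaves) → T7.SupplySC P K K'        (for EVERY `Mt`)
    supplySC_of_fifth893 : SetupRC → ProjC K' → ProjC K → GlobMatchC305 → AvgMatchC893 → BaseC P
                          → (∀ κ nowhere zero, ProdMtC κ) → (bookkeeping leaves) → T7.SupplySC P K K'
-/

set_option autoImplicit false

open AutomorphicForm IsDedekindDomain NumberField MeasureTheory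
open scoped ComplexConjugate

noncomputable section

namespace Fermat.Agent.LT.T7.H893

open Fermat.Agent.LT.H556 Fermat.Agent.LT.H556.A0 Fermat.Agent.LT.T7
open Fermat.Agent.LT.T7.H305

attribute [local instance] Fermat.Agent.LT.T5.instMeasurableSpaceG

section Top

variable {P : EKCond}
variable {K K' : Type} [Field K] [NumberField K] [Field K'] [NumberField K'] [Algebra K K']

/-- The hypotheses on the arguments of the constant of the matching theorem. -/
def KapHyp893 (D : CompData K K') (μc : @Measure (GL (Fin 2) ℂ) (borel _))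
    (T₀ : Finset (HeightOneSpectrum (𝓞 K)))
    (n : HeightOneSpectrum (𝓞 K') → ℕ) (m : HeightOneSpectrum (𝓞 K) → ℕ) : Prop :=
  IsCompData D ∧ IsCycExt K K' D.l ∧ D.l ≠ 2 ∧ TotCplx K ∧
    @Measure.IsHaarMeasure _ _ _ (borel _) μc ∧ UnramOut305 (K' := K') T₀ ∧ IsLevelAt305 T₀ n m

/-- **The constants of the matching theorem, chosen**: nowhere zero and good. -/
theorem exists_goodKap893 (hG : GlobMatchC305 K K') :
    ∃ κ : KapFn K K', (∀ D μc T₀ n m, κ D μc T₀ n m ≠ 0) ∧ GoodKap893 κ := by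
  classical
  have hex : ∀ (D : CompData K K') (μc : @Measure (GL (Fin 2) ℂ) (borel _))
      (T₀ : Finset (HeightOneSpectrum (𝓞 K)))
      (n : HeightOneSpectrum (𝓞 K') → ℕ) (m : HeightOneSpectrum (𝓞 K) → ℕ),
      ∃ κ : ℂ, κ ≠ 0 ∧ (KapHyp893 D μc T₀ n m →
        ∀ (T : Finset (HeightOneSpectrum (𝓞 K))) (T' : Finset (HeightOneSpectrum (𝓞 K'))),
          T₀ ⊆ T → IsOver305 T T' →
        ∀ (φ₀ : ∀ w : HeightOneSpectrum (𝓞 K'), GL (Fin 2) (w.adicCompletion K') → ℂ)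
          (Φ : InfinitePlace K' → GL (Fin 2) ℂ → ℂ)
          (f₀ : ∀ v : HeightOneSpectrum (𝓞 K), GL (Fin 2) (v.adicCompletion K) → ℂ)
          (F : InfinitePlace K → GL (Fin 2) ℂ → ℂ),
          LocHyp305 D μc T n m φ₀ Φ f₀ F →
          ∀ (φ' : G K' → ℂ) (f : G K → ℂ),
            (∀ h : G K', φ' h = pure305 T' φ₀ Φ h) →
            (∀ h : G K, f h = κ * pure305 T f₀ F h) →
            T5.IsTestFn D.𝔑 T5.trivType φ' → T5.IsTestFn D.𝔫 T5.trivType f →
            IsGlobMatch D φ' f) := by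
    intro D μc T₀ n m
    by_cases h : KapHyp893 D μc T₀ n m
    · obtain ⟨κ, hκ, hM⟩ := hG D h.1 h.2.1 h.2.2.1 h.2.2.2.1 μc h.2.2.2.2.1 T₀ h.2.2.2.2.2.1
        n m h.2.2.2.2.2.2
      exact ⟨κ, hκ, fun _ => hM⟩
    · exact ⟨1, one_ne_zero, fun h' => absurd h' h⟩
  choose κ hκ hM using hex
  refine ⟨κ, hκ, ?_⟩
  intro D hD hcyc hl hcplx μc hμc T₀ hT₀ n m hnm
  exact hM D μc T₀ n m ⟨hD, hcyc, hl, hcplx, hμc, hT₀, hnm⟩

/-- **THE MATCHING THEOREM for the relation of record**, from the constants of the matching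
theorem for pure tensors and the closure under averages. -/
theorem globC_of893 {κ : KapFn K K'} (hκ : GoodKap893 κ) (hA : AvgMatchC893 K K') :
    GlobC K K' (Mt893 κ) := by
  intro ℓ Φ hcyc hℓ hcplx B hB 𝔫 h𝔫 φ' f hMt _ _ _ _
  have hD : IsCompData (B.comp 𝔫) := isCompData_comp893 hB h𝔫
  have hdeg : (B.comp 𝔫).l = ℓ := hB.deg
  have hcyc' : IsCycExt K K' (B.comp 𝔫).l := by rw [hdeg]; exact hcyc
  have hℓ' : (B.comp 𝔫).l ≠ 2 := by rw [hdeg]; exact hℓ
  obtain ⟨μc, T₀, n, m, hμc, hT₀, hnm, Ω, iT, iC, i2, iS, iM, iB, ν, iF, T, T', φ₀, Φc, f₀,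
    Fc, hL, ht', ht, hc', hc, hs', hs, hφ', hf⟩ := hMt
  have hmatch : ∀ a : Ω, IsGlobMatch (B.comp 𝔫) (pure305 (T' a) (φ₀ a) (Φc a))
      (fun h => κ (B.comp 𝔫) μc T₀ n m * pure305 (T a) (f₀ a) (Fc a) h) := fun a =>
    hκ (B.comp 𝔫) hD hcyc' hℓ' hcplx μc hμc T₀ hT₀ n m hnm (T a) (T' a) (hL a).1 (hL a).2.1
      (φ₀ a) (Φc a) (f₀ a) (Fc a) (hL a).2.2 _ _ (fun _ => rfl) (fun _ => rfl) (ht' a) (ht a)
  have hs2 : ∃ C : Set (G K), IsCompact C ∧ ∀ (a : Ω) (h : G K),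
      κ (B.comp 𝔫) μc T₀ n m * pure305 (T a) (f₀ a) (Fc a) h ≠ 0 → h ∈ C := by
    obtain ⟨C, hC, hCs⟩ := hs
    exact ⟨C, hC, fun a h hne => hCs a h (right_ne_zero_of_mul hne)⟩
  have key := hA (B.comp 𝔫) hD hcyc' hℓ' hcplx Ω iT iC i2 iS iM iB ν iF
    (fun a => pure305 (T' a) (φ₀ a) (Φc a))
    (fun a h => κ (B.comp 𝔫) μc T₀ n m * pure305 (T a) (f₀ a) (Fc a) h)
    ht' ht hc' hc hs' hs2 hmatch
  have e1 : φ' = fun h => ∫ a, pure305 (T' a) (φ₀ a) (Φc a) h ∂ν := funext hφ'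
  have e2 : f = fun h => ∫ a, κ (B.comp 𝔫) μc T₀ n m * pure305 (T a) (f₀ a) (Fc a) h ∂ν :=
    funext hf
  rw [e1, e2]
  exact key

/-- **THE TOP OF THE FIFTH CUT**: the construction with families in the relation of record from
the base node and the calculus of pure tensors. -/
theorem constrRC_of893 {κ : KapFn K K'} (hBase : BaseC P K K') (hProd : ProdMtC K K' κ) :
    ConstrRC P K K' (Mt893 κ) := by
  intro ℓ hcyc hℓ hcplx Φ hΦ hconst hPΦ B hB hRam g hg
  obtain ⟨𝔫, μc, hμc, hE⟩ := hBase ℓ hcyc hℓ hcplx Φ hΦ hconst hPΦ B hB hRam g hg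
  obtain ⟨a, ha, hM⟩ := hProd ℓ hcyc hℓ hcplx Φ B hB hRam g hg 𝔫 μc hμc
  obtain ⟨E, h𝔫, hOp, hSupp, hDec⟩ := hE a ha
  refine ⟨E, hOp, hSupp, fun X k m hX => ?_⟩
  have := hM E h𝔫 hOp hDec X k m hX
  rw [h𝔫]
  exact this

variable {Mt : MtRel K K'}

/-- **The pre-data with regularity and matching, for ONE common part and ONE bad element**
(the tops of the third and fourth cut, pointwise). -/
theorem exists_isL2Pre_of893 {ℓ : ℕ} {Φ : HeckeEigensystem K' ℂ} {B : L2Base K K'}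
    (hcyc : IsCycExt K K' ℓ) (hℓ : ℓ ≠ 2) (hcplx : TotCplx K) (hB : IsL2Base ℓ Φ B)
    {g : G K'} (hg : B.IsBad g) {E : L2Pre K K'} (hOp : IsL2PreOp ℓ Φ B g E)
    (hSupp : IsL2PreSupp ℓ B E)
    (hMt : ∀ (X : List (Gen K')) (k : ℤ) (m : ℕ), (∀ x ∈ X, x.Out B.S') →
      Mt B E.𝔫 (E.up B X k m) (E.down B X k m))
    (hG : GlobC K K' Mt) (h1 : EkProdUpOpC K K') (h2 : EkProdDownOpC K K')
    (hR : RegSuppC K') (hR0 : RegSupp0C K) :
    ∃ E' : L2Pre K K', IsL2Pre ℓ Φ B g E' := by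
  obtain ⟨mu, hmu⟩ := exists_depth_up893 hB hg hOp hSupp hR hcyc.prime.pos
  obtain ⟨md, hmd⟩ := exists_depth_down893 hOp hSupp hR0
  refine ⟨{ E with m₀ := fun X => max (mu X) (md X) }, ?_⟩
  exact
    { level_ne := hOp.level_ne
      level_g := hOp.level_g
      mem_S'_g := hOp.mem_S'_g
      u_level := hOp.u_level
      sysg := hOp.sysg
      sys' := hOp.sys'
      unif' := hOp.unif'
      sys := hOp.sys
      unif := hOp.unif
      up1_test := hOp.up1_test
      up1_ek := hOp.up1_ek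
      up1_op := hOp.up1_op
      up2_test := hOp.up2_test
      up2_ek := hOp.up2_ek
      up2_inv := hOp.up2_inv
      up2_op := hOp.up2_op
      up2_kill := hOp.up2_kill
      up_ne := hOp.up_ne
      dn1_test := hOp.dn1_test
      dn1_ek := hOp.dn1_ek
      dn1_op := hOp.dn1_op
      dn1_wfn := hOp.dn1_wfn
      dn1_class := hOp.dn1_class
      dn1_comm := hOp.dn1_comm
      dn2_test := hOp.dn2_test
      dn2_ek := hOp.dn2_ek
      dn2_inv := hOp.dn2_inv
      dn2_wfn := hOp.dn2_wfn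
      dn2_class := hOp.dn2_class
      dn2_comm := hOp.dn2_comm
      dn2_kill := hOp.dn2_kill
      reg_up := fun X k m hX hm => hmu X k m hX (le_trans (le_max_left _ _) hm)
      reg_down := fun X k m hX hm => hmd X k m hX (le_trans (le_max_right _ _) hm)
      matched := fun X k m hX hm =>
        hG ℓ Φ hcyc hℓ hcplx B hB E.𝔫 hOp.level_ne _ _ (hMt X k m hX)
          (h1 ℓ Φ B hB g hg E hOp X k m hX).1
          (hmu X k m hX (le_trans (le_max_left _ _) hm))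
          (h2 ℓ Φ B hB g hg E hOp X k m hX).1
          (hmd X k m hX (le_trans (le_max_right _ _) hm)) }

/-- **THE STABLE SUPPLY from the setup with the ramified places and the construction for the
common parts which contain the ramified places** (the chain of the four cuts, pointwise). -/
theorem supplySC_ofR893 (hS : SetupRC K K') (hP' : ProjC K') (hP : ProjC K)
    (hG : GlobC K K' Mt) (hC : ConstrRC P K K' Mt)
    (hR : RegSuppC K') (hR0 : RegSupp0C K)
    (h1 : EkProdUpOpC K K') (h2 : EkProdDownOpC K K') (h3 : OpUpC K K') (h4 : KillUpC K K')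
    (h5 : OpDownC K K') (h6 : ClassDownC K K') (h7 : CommDownC K K') (h8 : KillDownC K K') :
    SupplySC P K K' := by
  intro ℓ hcyc hℓ hcplx Φ hΦ hconst hPΦ
  obtain ⟨B, hB, hRam⟩ := hS ℓ hcyc hℓ hcplx Φ hΦ hconst
  have hex : ∀ g : G K', ∃ Fm : L2Fam K K', B.IsBad g → IsL2Fam ℓ Φ B g Fm := by
    intro g
    by_cases hg : B.IsBad g
    · obtain ⟨E, hOp, hSupp, hMt⟩ := hC ℓ hcyc hℓ hcplx Φ hΦ hconst hPΦ B hB hRam g hg
      obtain ⟨E', hE'⟩ := exists_isL2Pre_of893 hcyc hℓ hcplx hB hg hOp hSupp hMt hG h1 h2 hR hR0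
      exact ⟨E'.toFam B, fun _ => isL2Fam_toFam893 hB hg hE' (ekProdUpC_of_op893 h1)
        (ekProdDownC_of_op893 h2) h3 h4 h5 h6 h7 h8⟩
    · exact ⟨⟨⊥, fun _ => 0, fun _ _ _ _ => 0, fun _ _ _ _ => 0, fun _ => 0⟩,
        fun h => absurd h hg⟩
  choose Fm hFm using hex
  exact ⟨B.toData Fm, isL2Data_toData893 hB hP' hP Fm hFm, isStable_toData893 hB Fm⟩

/-- **THE STABLE SUPPLY from the leaves of the five cuts.** -/
theorem supplySC_of_fifth893 (hS : SetupRC K K') (hP' : ProjC K') (hP : ProjC K)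
    (hG : GlobMatchC305 K K') (hA : AvgMatchC893 K K') (hBase : BaseC P K K')
    (hProd : ∀ κ : KapFn K K', (∀ D μc T₀ n m, κ D μc T₀ n m ≠ 0) → ProdMtC K K' κ)
    (hR : RegSuppC K') (hR0 : RegSupp0C K)
    (h1 : EkProdUpOpC K K') (h2 : EkProdDownOpC K K') (h3 : OpUpC K K') (h4 : KillUpC K K')
    (h5 : OpDownC K K') (h6 : ClassDownC K K') (h7 : CommDownC K K') (h8 : KillDownC K K') :
    SupplySC P K K' := by
  obtain ⟨κ, hκ0, hκ⟩ := exists_goodKap893 hG
  exact supplySC_ofR893 hS hP' hP (globC_of893 hκ hA) (constrRC_of893 hBase (hProd κ hκ0))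
    hR hR0 h1 h2 h3 h4 h5 h6 h7 h8

end Top

end Fermat.Agent.LT.T7.H893

end
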