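import Mathlib
import Fermat.Agent.LT.T7.H893.SupplyClosed2
import Fermat.Agent.LT.T7.H893.SupplyConstrTop

/-!
# Row LT, tower T7, node T7.L2.1 `SupplySC` (sub-architect helper893): INTEGRATION v3

OFF-MAIN.  No `sorry`, nothing assumed.  ADDITIVE.  The five cuts with the closed leaves
discharged (ONE closure):

* closed: `ProjC` (helper40), `EkProdDownOpC` (proof of helper311), `RegSupp0C` (helper771),
  `KillUpC`, `KillDownC`, `ClassDownC`, `CommDownC` (helper277);
* OPEN (the structure `OpenSupply893c`): `SetupRC` (setup WITH the ramified places),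
  `GlobMatchC305` (helper305), `AvgMatchC893`, `BaseC P`, `ProdMtC κ` (for every nowhere zero
  `κ`), `RegSuppC K'`, `EkProdUpOpC`, `OpUpC`, `OpDownC`.

    supplySC_of_open893c : OpenSupply893c P K K' → T7.SupplySC P K K'
-/

set_option autoImplicit false

open AutomorphicForm IsDedekindDomain NumberField MeasureTheory
open scoped ComplexConjugate

noncomputable section

namespace Fermat.Agent.LT.T7.H893

open Fermat.Agent.LT Fermat.Agent.LT.H556 Fermat.Agent.LT.H556.A0 Fermat.Agent.LT.T7

attribute [local instance] Fermat.Agent.LT.T5.instMeasurableSpaceG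

section Closed

variable (P : EKCond)
variable (K K' : Type) [Field K] [NumberField K] [Field K'] [NumberField K'] [Algebra K K']

/-- **THE OPEN WALL of `SupplySC`** (integration v3, after the fifth cut). -/
structure OpenSupply893c : Prop where
  setupR : SetupRC K K'
  globMatch : Fermat.Agent.LT.T7.H305.GlobMatchC305 K K'
  avgMatch : AvgMatchC893 K K'
  base : BaseC P K K'
  prodMt : ∀ κ : KapFn K K', (∀ D μc T₀ n m, κ D μc T₀ n m ≠ 0) → ProdMtC K K' κ
  regSupp : RegSuppC K'
  ekUp : EkProdUpOpC K K'
  opUp : OpUpC K K'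
  opDown : OpDownC K K'

variable {P K K'}

/-- **THE STABLE SUPPLY from the open wall** (the closed leaves are discharged). -/
theorem supplySC_of_open893c (h : OpenSupply893c P K K') : SupplySC P K K' :=
  supplySC_of_fifth893 h.setupR (Fermat.Agent.LT.T7.H40.projC893_closed40 K')
    (Fermat.Agent.LT.T7.H40.projC893_closed40 K) h.globMatch h.avgMatch h.base h.prodMt
    h.regSupp (Fermat.Agent.LT.T7.H771.regSupp0C771 K) h.ekUp (ekProdDownOpC_closed893 K K')
    h.opUp (Fermat.Agent.LT.T7.H277.killUpC277 K K') h.opDown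
    (Fermat.Agent.LT.T7.H277.classDownC277 K K') (Fermat.Agent.LT.T7.H277.commDownC277 K K')
    (Fermat.Agent.LT.T7.H277.killDownC277 K K')

end Closed

end Fermat.Agent.LT.T7.H893

end
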