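import Mathlib
import Fermat.Agent.LT.T7.H893.SupplyClosed3
import Fermat.Agent.LT.T7.H771.SupplyPreTopNe
import Fermat.Agent.LT.T7.H666.UnramBridge
import Fermat.Agent.LT.T7.H281.OpUp
import Fermat.Agent.LT.T7.H267.OpDown
import Fermat.Agent.LT.T7.H83.EkProdUpOp

/-!
# Row LT, tower T7, node T7.L2.1 `SupplySC` (sub-architect helper893): INTEGRATION v4

OFF-MAIN.  No `sorry`, nothing assumed.  ADDITIVE.  The five cuts with ALL bookkeeping leaves
discharged (ONE closure, byte-identical copies):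

* `SetupRC` : helper666 (`T7/H666/SetupR.lean` `setupRC666`, `UnramBridge.lean`);
* `ProjC` : helper40;  `EkProdUpOpC` : helper83;  `EkProdDownOpC` : proof of helper311;
* `OpUpC` : helper281 (+ 439, 646, 510, 271);  `OpDownC` : helper267;
* `KillUpC`, `KillDownC`, `ClassDownC`, `CommDownC` : helper277;
* `RegSupp0C` : helper771;  `RegSuppC` is FALSE AS TYPED (referee helper771,
  `regSuppC_false771`: `orbit_ne` was missing); the corrected leaf `RegSuppNeC771` is PROVED by
  helper771 and the chain is repeated here with it (`exists_depth_up771`).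

OPEN (the structure `OpenSupply893d`) = THE GEOMETRIC CORE ONLY:
`H305.GlobMatchC305` (helper305), `AvgMatchC893`, `BaseC P`, `ProdMtC κ` (every nowhere zero `κ`).

    supplySC_of_open893d : OpenSupply893d P K K' → T7.SupplySC P K K'
-/

set_option autoImplicit false

open AutomorphicForm IsDedekindDomain NumberField MeasureTheory
open scoped ComplexConjugate

noncomputable section

namespace Fermat.Agent.LT.T7.H893

open Fermat.Agent.LT Fermat.Agent.LT.H556 Fermat.Agent.LT.H556.A0 Fermat.Agent.LT.T7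
open Fermat.Agent.LT.T7.H305

attribute [local instance] Fermat.Agent.LT.T5.instMeasurableSpaceG

section Closed

variable {P : EKCond}
variable {K K' : Type} [Field K] [NumberField K] [Field K'] [NumberField K'] [Algebra K K']
variable {Mt : MtRel K K'}

/-- **LEAF C0R, CLOSED** (helper666). -/
theorem setupRC_closed893 : SetupRC K K' := fun ℓ hcyc hℓ hcplx Φ hΦ hconst =>
  let ⟨B, hB, hU⟩ := Fermat.Agent.LT.T7.H666.setupRC666 K K' ℓ hcyc hℓ hcplx Φ hΦ hconst
  ⟨B, hB, fun v w hvw hw => Fermat.Agent.LT.T7.H666.exists_not_mem_sq666 (hU v w hvw hw)⟩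

/-- **The pre-data with regularity and matching, for ONE common part and ONE bad element**,
with the corrected support leaf of helper771 (closed). -/
theorem exists_isL2Pre_of893d {ℓ : ℕ} {Φ : HeckeEigensystem K' ℂ} {B : L2Base K K'}
    (hcyc : IsCycExt K K' ℓ) (hℓ : ℓ ≠ 2) (hcplx : TotCplx K) (hB : IsL2Base ℓ Φ B)
    {g : G K'} (hg : B.IsBad g) {E : L2Pre K K'} (hOp : IsL2PreOp ℓ Φ B g E)
    (hSupp : IsL2PreSupp ℓ B E)
    (hMt : ∀ (X : List (Gen K')) (k : ℤ) (m : ℕ), (∀ x ∈ X, x.Out B.S') →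
      Mt B E.𝔫 (E.up B X k m) (E.down B X k m))
    (hG : GlobC K K' Mt) :
    ∃ E' : L2Pre K K', IsL2Pre ℓ Φ B g E' := by
  obtain ⟨mu, hmu⟩ := Fermat.Agent.LT.T7.H771.exists_depth_up771 hB hg hOp hSupp
    (Fermat.Agent.LT.T7.H771.regSuppNeC771 K') hcyc.prime.pos
  obtain ⟨md, hmd⟩ := exists_depth_down893 hOp hSupp (Fermat.Agent.LT.T7.H771.regSupp0C771 K)
  refine ⟨{ E with m₀ := fun X => max (mu X) (md X) }, ?_⟩
  exact
    { level_ne := hOp.level_ne
      level_g := hOp.level_g
      mem_S'_g := hOp.mem_S'_g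
      u_level := hOp.u_level
      sysg := hOp.sysg
      sys' := hOp.sys'
      unif' := hOp.unif'
      sys := hOp.sys
      unif := hOp.unif
      up1_test := hOp.up1_test
      up1_ek := hOp.up1_ek
      up1_op := hOp.up1_op
      up2_test := hOp.up2_test
      up2_ek := hOp.up2_ek
      up2_inv := hOp.up2_inv
      up2_op := hOp.up2_op
      up2_kill := hOp.up2_kill
      up_ne := hOp.up_ne
      dn1_test := hOp.dn1_test
      dn1_ek := hOp.dn1_ek
      dn1_op := hOp.dn1_op
      dn1_wfn := hOp.dn1_wfn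
      dn1_class := hOp.dn1_class
      dn1_comm := hOp.dn1_comm
      dn2_test := hOp.dn2_test
      dn2_ek := hOp.dn2_ek
      dn2_inv := hOp.dn2_inv
      dn2_wfn := hOp.dn2_wfn
      dn2_class := hOp.dn2_class
      dn2_comm := hOp.dn2_comm
      dn2_kill := hOp.dn2_kill
      reg_up := fun X k m hX hm => hmu X k m hX (le_trans (le_max_left _ _) hm)
      reg_down := fun X k m hX hm => hmd X k m hX (le_trans (le_max_right _ _) hm)
      matched := fun X k m hX hm =>
        hG ℓ Φ hcyc hℓ hcplx B hB E.𝔫 hOp.level_ne _ _ (hMt X k m hX)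
          (Fermat.Agent.LT.T7.H83.ekProdUpOpC83 K K' ℓ Φ B hB g hg E hOp X k m hX).1
          (hmu X k m hX (le_trans (le_max_left _ _) hm))
          (ekProdDownOpC_closed893 K K' ℓ Φ B hB g hg E hOp X k m hX).1
          (hmd X k m hX (le_trans (le_max_right _ _) hm)) }

/-- **THE STABLE SUPPLY from the matching theorem and the construction** (every relation `Mt`;
all bookkeeping leaves discharged). -/
theorem supplySC_of_core893 (hG : GlobC K K' Mt) (hC : ConstrRC P K K' Mt) :
    SupplySC P K K' := by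
  intro ℓ hcyc hℓ hcplx Φ hΦ hconst hPΦ
  obtain ⟨B, hB, hRam⟩ := setupRC_closed893 (K := K) (K' := K') ℓ hcyc hℓ hcplx Φ hΦ hconst
  have hex : ∀ g : G K', ∃ Fm : L2Fam K K', B.IsBad g → IsL2Fam ℓ Φ B g Fm := by
    intro g
    by_cases hg : B.IsBad g
    · obtain ⟨E, hOp, hSupp, hMt⟩ := hC ℓ hcyc hℓ hcplx Φ hΦ hconst hPΦ B hB hRam g hg
      obtain ⟨E', hE'⟩ := exists_isL2Pre_of893d hcyc hℓ hcplx hB hg hOp hSupp hMt hG
      exact ⟨E'.toFam B, fun _ => isL2Fam_toFam893 hB hg hE'
        (ekProdUpC_of_op893 (Fermat.Agent.LT.T7.H83.ekProdUpOpC83 K K'))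
        (ekProdDownC_of_op893 (ekProdDownOpC_closed893 K K'))
        (Fermat.Agent.LT.T7.H281.opUpC281 K K') (Fermat.Agent.LT.T7.H277.killUpC277 K K')
        (Fermat.Agent.LT.T7.H893.H267.opDownC267 K K')
        (Fermat.Agent.LT.T7.H277.classDownC277 K K')
        (Fermat.Agent.LT.T7.H277.commDownC277 K K')
        (Fermat.Agent.LT.T7.H277.killDownC277 K K')⟩
    · exact ⟨⟨⊥, fun _ => 0, fun _ _ _ _ => 0, fun _ _ _ _ => 0, fun _ => 0⟩,
        fun h => absurd h hg⟩
  choose Fm hFm using hex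
  exact ⟨B.toData Fm,
    isL2Data_toData893 hB (Fermat.Agent.LT.T7.H40.projC893_closed40 K')
      (Fermat.Agent.LT.T7.H40.projC893_closed40 K) Fm hFm,
    isStable_toData893 hB Fm⟩

variable (P K K')

/-- **THE OPEN WALL of `SupplySC`** (integration v4): the geometric core. -/
structure OpenSupply893d : Prop where
  globMatch : GlobMatchC305 K K'
  avgMatch : AvgMatchC893 K K'
  base : BaseC P K K'
  prodMt : ∀ κ : KapFn K K', (∀ D μc T₀ n m, κ D μc T₀ n m ≠ 0) → ProdMtC K K' κ

variable {P K K'}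

/-- **THE STABLE SUPPLY from the open wall.** -/
theorem supplySC_of_open893d (h : OpenSupply893d P K K') : SupplySC P K K' := by
  obtain ⟨κ, hκ0, hκ⟩ := exists_goodKap893 h.globMatch
  exact supplySC_of_core893 (globC_of893 hκ h.avgMatch)
    (constrRC_of893 h.base (h.prodMt κ hκ0))

end Closed

end Fermat.Agent.LT.T7.H893

end
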