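import Mathlib
import Fermat.Agent.LT.T7.H893.SupplyConstrTop
import Fermat.Agent.LT.T7.H893.SupplyConstrSpec2

/-!
# Row LT, tower T7, node T7.L2.1 `SupplySC` (sub-architect helper893): FIFTH CUT, v2 -- tops

OFF-MAIN.  No `sorry`, nothing assumed.  ADDITIVE.

    exists_goodKap893b : GlobMatchC893 K K' → ∃ κ, (κ nowhere zero) ∧ GoodKap893b κ
    globC_of893b       : GoodKap893b κ → AvgMatchC893 K K' → GlobC K K' (Mt893b κ)
    constrRC_of893b    : BaseCb P K K' → ProdMtCb K K' κ → ConstrRC P K K' (Mt893b κ)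
-/

set_option autoImplicit false

open AutomorphicForm IsDedekindDomain NumberField MeasureTheory
open scoped ComplexConjugate

noncomputable section

namespace Fermat.Agent.LT.T7.H893

open Fermat.Agent.LT.H556 Fermat.Agent.LT.H556.A0 Fermat.Agent.LT.T7
open Fermat.Agent.LT.T7.H305

attribute [local instance] Fermat.Agent.LT.T5.instMeasurableSpaceG

section Top

variable {P : EKCond}
variable {K K' : Type} [Field K] [NumberField K] [Field K'] [NumberField K'] [Algebra K K']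

/-- **The constants of the matching theorem (v2), chosen**: nowhere zero and good. -/
theorem exists_goodKap893b (hG : GlobMatchC893 K K') :
    ∃ κ : KapFn K K', (∀ D μc T₀ n m, κ D μc T₀ n m ≠ 0) ∧ GoodKap893b κ := by
  classical
  have hex : ∀ (D : CompData K K') (μc : @Measure (GL (Fin 2) ℂ) (borel _))
      (T₀ : Finset (HeightOneSpectrum (𝓞 K)))
      (n : HeightOneSpectrum (𝓞 K') → ℕ) (m : HeightOneSpectrum (𝓞 K) → ℕ),
      ∃ κ : ℂ, κ ≠ 0 ∧ (KapHyp893 D μc T₀ n m →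
        ∀ (T : Finset (HeightOneSpectrum (𝓞 K))) (T' : Finset (HeightOneSpectrum (𝓞 K'))),
          T₀ ⊆ T → IsOver305 T T' →
        ∀ (φ₀ : ∀ w : HeightOneSpectrum (𝓞 K'), GL (Fin 2) (w.adicCompletion K') → ℂ)
          (Φ : InfinitePlace K' → GL (Fin 2) ℂ → ℂ)
          (f₀ : ∀ v : HeightOneSpectrum (𝓞 K), GL (Fin 2) (v.adicCompletion K) → ℂ)
          (F : InfinitePlace K → GL (Fin 2) ℂ → ℂ),
          LocHyp893 D μc T n m φ₀ Φ f₀ F →
          ∀ (φ' : G K' → ℂ) (f : G K → ℂ),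
            (∀ h : G K', φ' h = pure305 T' φ₀ Φ h) →
            (∀ h : G K, f h = κ * pure305 T f₀ F h) →
            T5.IsTestFn D.𝔑 T5.trivType φ' → T5.IsTestFn D.𝔫 T5.trivType f →
            IsGlobMatch D φ' f) := by
    intro D μc T₀ n m
    by_cases h : KapHyp893 D μc T₀ n m
    · obtain ⟨κ, hκ, hM⟩ := hG D h.1 h.2.1 h.2.2.1 h.2.2.2.1 μc h.2.2.2.2.1 T₀ h.2.2.2.2.2.1
        n m h.2.2.2.2.2.2
      exact ⟨κ, hκ, fun _ => hM⟩
    · exact ⟨1, one_ne_zero, fun h' => absurd h' h⟩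
  choose κ hκ hM using hex
  refine ⟨κ, hκ, ?_⟩
  intro D hD hcyc hl hcplx μc hμc T₀ hT₀ n m hnm
  exact hM D μc T₀ n m ⟨hD, hcyc, hl, hcplx, hμc, hT₀, hnm⟩

/-- **THE MATCHING THEOREM for the relation of record (v2)**, from the constants of the matching
theorem for pure tensors and the closure under averages. -/
theorem globC_of893b {κ : KapFn K K'} (hκ : GoodKap893b κ) (hA : AvgMatchC893 K K') :
    GlobC K K' (Mt893b κ) := by
  intro ℓ Φ hcyc hℓ hcplx B hB 𝔫 h𝔫 φ' f hMt _ _ _ _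
  have hD : IsCompData (B.comp 𝔫) := isCompData_comp893 hB h𝔫
  have hdeg : (B.comp 𝔫).l = ℓ := hB.deg
  have hcyc' : IsCycExt K K' (B.comp 𝔫).l := by rw [hdeg]; exact hcyc
  have hℓ' : (B.comp 𝔫).l ≠ 2 := by rw [hdeg]; exact hℓ
  obtain ⟨μc, T₀, n, m, hμc, hT₀, hnm, Ω, iT, iC, i2, iS, iM, iB, ν, iF, T, T', φ₀, Φc, f₀,
    Fc, hL, ht', ht, hc', hc, hs', hs, hφ', hf⟩ := hMt
  have hmatch : ∀ a : Ω, IsGlobMatch (B.comp 𝔫) (pure305 (T' a) (φ₀ a) (Φc a))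
      (fun h => κ (B.comp 𝔫) μc T₀ n m * pure305 (T a) (f₀ a) (Fc a) h) := fun a =>
    hκ (B.comp 𝔫) hD hcyc' hℓ' hcplx μc hμc T₀ hT₀ n m hnm (T a) (T' a) (hL a).1 (hL a).2.1
      (φ₀ a) (Φc a) (f₀ a) (Fc a) (hL a).2.2 _ _ (fun _ => rfl) (fun _ => rfl) (ht' a) (ht a)
  have hs2 : ∃ C : Set (G K), IsCompact C ∧ ∀ (a : Ω) (h : G K),
      κ (B.comp 𝔫) μc T₀ n m * pure305 (T a) (f₀ a) (Fc a) h ≠ 0 → h ∈ C := by
    obtain ⟨C, hC, hCs⟩ := hs
    exact ⟨C, hC, fun a h hne => hCs a h (right_ne_zero_of_mul hne)⟩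
  have key := hA (B.comp 𝔫) hD hcyc' hℓ' hcplx Ω iT iC i2 iS iM iB ν iF
    (fun a => pure305 (T' a) (φ₀ a) (Φc a))
    (fun a h => κ (B.comp 𝔫) μc T₀ n m * pure305 (T a) (f₀ a) (Fc a) h)
    ht' ht hc' hc hs' hs2 hmatch
  have e1 : φ' = fun h => ∫ a, pure305 (T' a) (φ₀ a) (Φc a) h ∂ν := funext hφ'
  have e2 : f = fun h => ∫ a, κ (B.comp 𝔫) μc T₀ n m * pure305 (T a) (f₀ a) (Fc a) h ∂ν :=
    funext hf
  rw [e1, e2]
  exact key

/-- **THE TOP OF THE FIFTH CUT (v2)**: the construction with families in the relation of record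
from the base node and the calculus of pure tensors. -/
theorem constrRC_of893b {κ : KapFn K K'} (hBase : BaseCb P K K') (hProd : ProdMtCb K K' κ) :
    ConstrRC P K K' (Mt893b κ) := by
  intro ℓ hcyc hℓ hcplx Φ hΦ hconst hPΦ B hB hRam g hg
  obtain ⟨𝔫, μc, hμc, hE⟩ := hBase ℓ hcyc hℓ hcplx Φ hΦ hconst hPΦ B hB hRam g hg
  obtain ⟨a, ha, hM⟩ := hProd ℓ hcyc hℓ hcplx Φ B hB hRam g hg 𝔫 μc hμc
  obtain ⟨E, h𝔫, hOp, hSupp, hDec⟩ := hE a ha
  refine ⟨E, hOp, hSupp, fun X k m hX => ?_⟩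
  have := hM E h𝔫 hOp hDec X k m hX
  rw [h𝔫]
  exact this

end Top

end Fermat.Agent.LT.T7.H893

end
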