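import Mathlib
import Fermat.Agent.LT.T7.H893.SupplyClosed4
import Fermat.Agent.LT.T7.H893.SupplyConstrTop2

/-!
# Row LT, tower T7, node T7.L2.1 `SupplySC` (sub-architect helper893): INTEGRATION v5

OFF-MAIN.  No `sorry`, nothing assumed.  ADDITIVE.  Integration v4 (all bookkeeping leaves
discharged, ONE closure) with the geometric core in the form v2 of the fifth cut
(`SupplyConstrSpec2.lean`: ONE enumeration at the split places).

OPEN (the structure `OpenSupply893e`) = THE GEOMETRIC CORE:
`GlobMatchC893` (helper305: `H305.GlobMatchC305` for `LocHyp893`), `AvgMatchC893`,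
`BaseCb P`, `ProdMtCb κ` (every nowhere zero `κ`).

    supplySC_of_open893e : OpenSupply893e P K K' → T7.SupplySC P K K'
-/

set_option autoImplicit false

open AutomorphicForm IsDedekindDomain NumberField MeasureTheory
open scoped ComplexConjugate

noncomputable section

namespace Fermat.Agent.LT.T7.H893

open Fermat.Agent.LT Fermat.Agent.LT.H556 Fermat.Agent.LT.H556.A0 Fermat.Agent.LT.T7

attribute [local instance] Fermat.Agent.LT.T5.instMeasurableSpaceG

section Closed

variable (P : EKCond)
variable (K K' : Type) [Field K] [NumberField K] [Field K'] [NumberField K'] [Algebra K K']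

/-- **THE OPEN WALL of `SupplySC`** (integration v5): the geometric core, v2. -/
structure OpenSupply893e : Prop where
  globMatch : GlobMatchC893 K K'
  avgMatch : AvgMatchC893 K K'
  base : BaseCb P K K'
  prodMt : ∀ κ : KapFn K K', (∀ D μc T₀ n m, κ D μc T₀ n m ≠ 0) → ProdMtCb K K' κ

variable {P K K'}

/-- **THE STABLE SUPPLY from the open wall (v5).** -/
theorem supplySC_of_open893e (h : OpenSupply893e P K K') : SupplySC P K K' := by
  obtain ⟨κ, hκ0, hκ⟩ := exists_goodKap893b h.globMatch
  exact supplySC_of_core893 (globC_of893b hκ h.avgMatch)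
    (constrRC_of893b h.base (h.prodMt κ hκ0))

end Closed

end Fermat.Agent.LT.T7.H893

end
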