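import Mathlib
import Fermat.Agent.LT.T7.H893.SupplyClosed5
import Fermat.Agent.LT.T7.H228.AvgMatch

/-!
# Row LT, tower T7, node T7.L2.1 `SupplySC` (sub-architect helper893): INTEGRATION v6

OFF-MAIN.  No `sorry`, nothing assumed.  ADDITIVE.  Integration v5 with the leaf
`AvgMatchC893` DISCHARGED by the closed leaf of helper228 (`T7/H228/AvgMatch.lean`,
`avgMatchC228`, byte-identical copy with its closure), on the MASTER bytes of `T5/Spec.lean`,
`T6/Spec.lean`, `T2/H437/USSpec.lean`, `T2/H511/FDSpec.lean` (row-lead helper17) and
`T7/H305/MatchSpec.lean` v2 (helper305).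

OPEN (the structure `OpenSupply893f`) = THE GEOMETRIC CORE:
`GlobMatchC893` (helper305: `H305.GlobMatchC305` for `LocHyp893`), `BaseCb P`,
`ProdMtCb κ` (every nowhere zero `κ`).

    supplySC_of_open893f : OpenSupply893f P K K' → T7.SupplySC P K K'
-/

set_option autoImplicit false

open AutomorphicForm IsDedekindDomain NumberField MeasureTheory
open scoped ComplexConjugate

noncomputable section

namespace Fermat.Agent.LT.T7.H893

open Fermat.Agent.LT Fermat.Agent.LT.H556 Fermat.Agent.LT.H556.A0 Fermat.Agent.LT.T7

attribute [local instance] Fermat.Agent.LT.T5.instMeasurableSpaceG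

section Closed

variable (P : EKCond)
variable (K K' : Type) [Field K] [NumberField K] [Field K'] [NumberField K'] [Algebra K K']

/-- The leaf `AvgMatchC893`, closed (helper228). -/
theorem avgMatchC_closed893 : AvgMatchC893 K K' := H228.avgMatchC228 K K'

/-- **THE OPEN WALL of `SupplySC`** (integration v6): the geometric core, v2, without the
analysis leaf. -/
structure OpenSupply893f : Prop where
  globMatch : GlobMatchC893 K K'
  base : BaseCb P K K'
  prodMt : ∀ κ : KapFn K K', (∀ D μc T₀ n m, κ D μc T₀ n m ≠ 0) → ProdMtCb K K' κ

variable {P K K'}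

/-- **THE STABLE SUPPLY from the open wall (v6).** -/
theorem supplySC_of_open893f (h : OpenSupply893f P K K') : SupplySC P K K' :=
  supplySC_of_open893e
    { globMatch := h.globMatch
      avgMatch := avgMatchC_closed893 K K'
      base := h.base
      prodMt := h.prodMt }

end Closed

end Fermat.Agent.LT.T7.H893

end
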