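import Mathlib
import Fermat.Agent.LT.T7.H893.SupplyProdSpec
import Fermat.Agent.LT.T7.H893.SupplyTop

/-!
# Row LT, tower T7, node T7.L2.1.H2b `ProdMtCb` (sub-architect helper893): SIXTH CUT -- Top

OFF-MAIN.  No `sorry`, nothing assumed.  ADDITIVE.

    prodMtCb_of893 : LevelUniqC893 K → LevelUniqC893 K' → LevelAtC893 K K'
        → ProdShapeC893 K K' → SphHypC893 K K'
        → ∀ κ nowhere zero, ProdMtCb K K' κ                                   (VERBATIM)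
-/

set_option autoImplicit false

open AutomorphicForm IsDedekindDomain NumberField MeasureTheory
open scoped ComplexConjugate

noncomputable section

namespace Fermat.Agent.LT.T7.H893

open Fermat.Agent.LT.H556 Fermat.Agent.LT.H556.A0 Fermat.Agent.LT.T7
open Fermat.Agent.LT.T7.H305

attribute [local instance] Fermat.Agent.LT.T5.instMeasurableSpaceG

section Top

variable {K K' : Type} [Field K] [NumberField K] [Field K'] [NumberField K'] [Algebra K K']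

/-- `IsAvgPure` is monotone in the local condition (on the sets `T ⊇ T₀`). -/
theorem isAvgPure_mono893 {𝔑 : Ideal (𝓞 K')} {𝔫 : Ideal (𝓞 K)}
    {T₀ : Finset (HeightOneSpectrum (𝓞 K))} {L L' : LocCond K K'} {c : ℂ}
    {φ' : G K' → ℂ} {f : G K → ℂ}
    (hLL : ∀ (T : Finset (HeightOneSpectrum (𝓞 K)))
      (φ₀ : ∀ w : HeightOneSpectrum (𝓞 K'), GL (Fin 2) (w.adicCompletion K') → ℂ)
      (Φ : InfinitePlace K' → GL (Fin 2) ℂ → ℂ)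
      (f₀ : ∀ v : HeightOneSpectrum (𝓞 K), GL (Fin 2) (v.adicCompletion K) → ℂ)
      (F : InfinitePlace K → GL (Fin 2) ℂ → ℂ), T₀ ⊆ T → L T φ₀ Φ f₀ F → L' T φ₀ Φ f₀ F)
    (h : IsAvgPure 𝔑 𝔫 T₀ L c φ' f) : IsAvgPure 𝔑 𝔫 T₀ L' c φ' f := by
  obtain ⟨Ω, iT, iC, i2, iS, iM, iB, ν, iF, T, T', φ₀, Φc, f₀, Fc, hL, ht', ht, hc', hc, hs',
    hs, hφ', hf⟩ := h
  exact ⟨Ω, iT, iC, i2, iS, iM, iB, ν, iF, T, T', φ₀, Φc, f₀, Fc,
    fun a => ⟨(hL a).1, (hL a).2.1, hLL _ _ _ _ _ (hL a).1 (hL a).2.2⟩,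
    ht', ht, hc', hc, hs', hs, hφ', hf⟩

/-- A place over a place which does not divide `𝔫` does not divide `𝔫 𝒪_{K'}`. -/
theorem dvd_of_placeOver893 {v : HeightOneSpectrum (𝓞 K)} {w : HeightOneSpectrum (𝓞 K')}
    (hvw : PlaceOver K K' v w) {𝔫 : Ideal (𝓞 K)} (h : w.asIdeal ∣ upI (K' := K') 𝔫) :
    v.asIdeal ∣ 𝔫 := by
  rw [Ideal.dvd_iff_le] at h ⊢
  intro x hx
  have hy : algebraMap (𝓞 K) (𝓞 K') x ∈ w.asIdeal := h (Ideal.mem_map_of_mem _ hx)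
  exact (hvw x (algebraMap (𝓞 K) (𝓞 K') x) rfl).2 hy

/-- `UnramOut305 T₀` from `RamIn`, for the places `T₀` of a level whose places upstairs are
those of `S'`. -/
theorem unramOut305_of_ramIn893 {B : L2Base K K'} (hRam : B.RamIn) {𝔫 : Ideal (𝓞 K)}
    {T₀ : Finset (HeightOneSpectrum (𝓞 K))}
    (hT₀ : ∀ v : HeightOneSpectrum (𝓞 K), v ∈ T₀ ↔ v.asIdeal ∣ 𝔫)
    (hS' : ∀ w : HeightOneSpectrum (𝓞 K'), w ∈ B.S' ↔ w.asIdeal ∣ upI (K' := K') 𝔫) :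
    UnramOut305 (K' := K') T₀ := by
  intro v hv w hvw
  refine hRam v w hvw (fun hw => hv ?_)
  rw [hT₀]
  exact dvd_of_placeOver893 hvw ((hS' w).1 hw)

/-- **THE TOP OF THE SIXTH CUT.** -/
theorem prodMtCb_of893 (hU : LevelUniqC893 K) (hU' : LevelUniqC893 K')
    (hAt : LevelAtC893 K K') (hShape : ProdShapeC893 K K') (hSph : SphHypC893 K K')
    (κ : KapFn K K') (hκ : ∀ D μc T₀ n m, κ D μc T₀ n m ≠ 0) : ProdMtCb K K' κ := by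
  classical
  intro ℓ hcyc hℓ hcplx Φ B hB hRam g hg 𝔫 μc hμc
  by_cases hex : ∃ (T₀ : Finset (HeightOneSpectrum (𝓞 K)))
      (n n₀ : HeightOneSpectrum (𝓞 K') → ℕ) (m : HeightOneSpectrum (𝓞 K) → ℕ),
      (∀ v : HeightOneSpectrum (𝓞 K), v ∈ T₀ ↔ v.asIdeal ∣ 𝔫) ∧
      IsLevelOf893 𝔫 m ∧ IsLevelOf893 (upI (K' := K') 𝔫) n ∧ IsLevelOf893 B.𝔑₀ n₀
  · obtain ⟨T₀, n, n₀, m, hT₀, hm, hn, hn₀⟩ := hex
    obtain ⟨c₀, hc₀, hS⟩ := hShape ℓ hcyc hℓ hcplx Φ B hB hRam g hg 𝔫 μc hμc T₀ n n₀ m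
      hT₀ hm hn hn₀
    have ha : κ (B.comp 𝔫) μc T₀ n m / c₀ ≠ 0 := div_ne_zero (hκ _ _ _ _ _) hc₀
    refine ⟨κ (B.comp 𝔫) μc T₀ n m / c₀, ha, ?_⟩
    intro E hE hOp hDec X k mm hX
    obtain ⟨T₀', n', n₀', m', hT₀', hm', hn', hn₀', hA, hB2⟩ := hDec
    rw [hE] at hT₀' hm' hn' hA hB2
    obtain rfl : T₀ = T₀' := Finset.ext (fun v => by rw [hT₀', hT₀])
    obtain rfl : m = m' := hU 𝔫 m m' hm hm'
    obtain rfl : n = n' := hU' (upI (K' := K') 𝔫) n n' hn hn'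
    obtain rfl : n₀ = n₀' := hU' B.𝔑₀ n₀ n₀' hn₀ hn₀'
    have h1 := hS _ ha E hE hOp hA hB2 X k mm hX
    rw [div_mul_cancel₀ _ hc₀] at h1
    have h𝔫 : 𝔫 ≠ ⊥ := by rw [← hE]; exact hOp.level_ne
    have hD : IsCompData (B.comp 𝔫) := isCompData_comp893 hB h𝔫
    have hdeg : (B.comp 𝔫).l = ℓ := hB.deg
    have hcyc' : IsCycExt K K' (B.comp 𝔫).l := by rw [hdeg]; exact hcyc
    have hℓ' : (B.comp 𝔫).l ≠ 2 := by rw [hdeg]; exact hℓ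
    have hS' : ∀ w : HeightOneSpectrum (𝓞 K'), w ∈ B.S' ↔ w.asIdeal ∣ upI (K' := K') 𝔫 := by
      intro w
      have h := hOp.mem_S'_g w
      rwa [hE] at h
    have hUn : UnramOut305 (K' := K') T₀ := unramOut305_of_ramIn893 hRam hT₀ hS'
    have hLv : IsLevelAt305 T₀ n m := hAt 𝔫 T₀ n m hT₀ hm hn
    refine ⟨μc, T₀, n, m, hμc, hUn, hLv, isAvgPure_mono893 ?_ h1⟩
    intro T φ₀ Φc f₀ Fc hT hL
    exact hSph (B.comp 𝔫) hD hcyc' hℓ' hcplx μc hμc T₀ hUn n m hLv T hT φ₀ Φc f₀ Fc hL.1 hL.2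
  · refine ⟨1, one_ne_zero, ?_⟩
    intro E hE hOp hDec
    exfalso
    obtain ⟨T₀', n', n₀', m', hT₀', hm', hn', hn₀', -, -⟩ := hDec
    rw [hE] at hT₀' hm' hn'
    exact hex ⟨T₀', n', n₀', m', hT₀', hm', hn', hn₀'⟩

end Top

end Fermat.Agent.LT.T7.H893

end
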