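import Mathlib
import Fermat.Agent.LT.T7.H893.SupplyClosed6
import Fermat.Agent.LT.T7.H893.SupplyProdTop

/-!
# Row LT, tower T7, node T7.L2.1 `SupplySC` (sub-architect helper893): INTEGRATION v7

OFF-MAIN.  No `sorry`, nothing assumed.  ADDITIVE.  Integration v6 with the node `ProdMtCb`
replaced by its cut (sixth cut, `SupplyProdSpec.lean` / `SupplyProdTop.lean`).

OPEN (the structure `OpenSupply893g`):
`GlobMatchC893` (helper305 / helper340), `BaseCb P` (helper797 / helper981 / helper616),
`ProdShapeC893` (the calculus of pure tensors), `SphHypC893` (local, T6),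
`LevelUniqC893 K`, `LevelUniqC893 K'`, `LevelAtC893` (small).

    supplySC_of_open893g : OpenSupply893g P K K' → T7.SupplySC P K K'
-/

set_option autoImplicit false

open AutomorphicForm IsDedekindDomain NumberField MeasureTheory
open scoped ComplexConjugate

noncomputable section

namespace Fermat.Agent.LT.T7.H893

open Fermat.Agent.LT Fermat.Agent.LT.H556 Fermat.Agent.LT.H556.A0 Fermat.Agent.LT.T7

attribute [local instance] Fermat.Agent.LT.T5.instMeasurableSpaceG

section Closed

variable (P : EKCond)
variable (K K' : Type) [Field K] [NumberField K] [Field K'] [NumberField K'] [Algebra K K']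

/-- **THE OPEN WALL of `SupplySC`** (integration v7). -/
structure OpenSupply893g : Prop where
  globMatch : GlobMatchC893 K K'
  base : BaseCb P K K'
  prodShape : ProdShapeC893 K K'
  sphHyp : SphHypC893 K K'
  levelUniq : LevelUniqC893 K
  levelUniq' : LevelUniqC893 K'
  levelAt : LevelAtC893 K K'

variable {P K K'}

/-- **THE STABLE SUPPLY from the open wall (v7).** -/
theorem supplySC_of_open893g (h : OpenSupply893g P K K') : SupplySC P K K' :=
  supplySC_of_open893f
    { globMatch := h.globMatch
      base := h.base
      prodMt := fun κ hκ =>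
        prodMtCb_of893 h.levelUniq h.levelUniq' h.levelAt h.prodShape h.sphHyp κ hκ }

end Closed

end Fermat.Agent.LT.T7.H893

end
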