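import Mathlib
import Fermat.Agent.LT.T7.H893.SupplySphSpec

/-!
# Row LT, tower T7, node T7.L2.1.H2b.3 `SphHypC893` (sub-architect helper893): CUT -- Top

OFF-MAIN.  No `sorry`, nothing assumed.  ADDITIVE.

    sphHypC_of893 : T6.T6Out → SphInvC893 K → SphInvC893 K' → SphInertC893 K K'
        → SphSplitC893 K K' → SphHypC893 K K'                                  (VERBATIM)
-/

set_option autoImplicit false

open AutomorphicForm IsDedekindDomain NumberField MeasureTheory
open scoped ComplexConjugate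

noncomputable section

namespace Fermat.Agent.LT.T7.H893

open Fermat.Agent.LT.H556 Fermat.Agent.LT.H556.A0 Fermat.Agent.LT.T7
open Fermat.Agent.LT.T7.H305

attribute [local instance] Fermat.Agent.LT.T5.instMeasurableSpaceG

section Top

variable {K K' : Type} [Field K] [NumberField K] [Field K'] [NumberField K'] [Algebra K K']

/-- **THE TOP OF THE CUT OF `SphHypC893`.** -/
theorem sphHypC_of893 (ht6 : T6.T6Out) (hInv : SphInvC893 K) (hInv' : SphInvC893 K')
    (hInert : SphInertC893 K K') (hSplit : SphSplitC893 K K') : SphHypC893 K K' := by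
  intro D hD hcyc hl hcplx μc _ T₀ hT₀ n m hnm T _ φ₀ Φ f₀ F h hS
  refine
    { inv_up := ?_
      inv_down := ?_
      arch_up := h.arch_up
      arch_down := h.arch_down
      inert := ?_
      split := ?_
      arch := h.arch }
  · intro v hv w hvw
    by_cases hv0 : v ∈ T₀
    · exact h.inv_up v hv0 w hvw
    · obtain ⟨A, Av, -, hφ, -, -⟩ := hS v hv hv0
      rw [hnm.2 v w hv0 hvw]
      exact hInv' w (φ₀ w) (A w) (hφ w hvw)
  · intro v hv
    by_cases hv0 : v ∈ T₀
    · exact h.inv_down v hv0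
    · obtain ⟨A, Av, hf, -, -, -⟩ := hS v hv hv0
      rw [hnm.1 v hv0]
      exact hInv v (f₀ v) Av hf
  · intro v hv w hvw huniq e i sw hi hsw hext
    by_cases hv0 : v ∈ T₀
    · exact h.inert v hv0 w hvw huniq e i sw hi hsw hext
    · obtain ⟨A, Av, hf, hφ, hBC, -⟩ := hS v hv hv0
      exact hInert ht6 D hD hcyc hl hcplx T₀ hT₀ v hv0 w hvw huniq (n w) (m v)
        (hnm.2 v w hv0 hvw) (hnm.1 v hv0) (φ₀ w) (f₀ v) (A w) Av (hφ w hvw) hf
        (hBC w hvw huniq) e i sw hi hsw hext
  · intro v hv hsp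
    by_cases hv0 : v ∈ T₀
    · exact h.split v hv0 hsp
    · obtain ⟨A, Av, hf, hφ, -, hprod⟩ := hS v hv hv0
      exact hSplit ht6 D hD hcyc hl hcplx T₀ hT₀ v hv0 hsp n m
        (fun w hvw => hnm.2 v w hv0 hvw) (hnm.1 v hv0) φ₀ (f₀ v) A Av hf hφ hprod

end Top

end Fermat.Agent.LT.T7.H893

end
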