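import Mathlib
import Fermat.Agent.LT.T7.H893.SupplyClosed7
import Fermat.Agent.LT.T7.H893.SupplySphTop

/-!
# Row LT, tower T7, node T7.L2.1 `SupplySC` (sub-architect helper893): INTEGRATION v8

OFF-MAIN.  No `sorry`, nothing assumed.  ADDITIVE.  Integration v7 with the node `SphHypC893`
replaced by its cut (`SupplySphSpec.lean` / `SupplySphTop.lean`).

OPEN (the structure `OpenSupply893h`):
* `T6.T6Out` (CLOSED on the master: helper22, `LT/T6/Closed.lean` `top_closed`);
* `GlobMatchC893` (helper305 / helper340), `BaseCb P` (helper797 / helper981 / helper616),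
  `ProdShapeC893` (the calculus of pure tensors, helper724);
* the local leaves `SphInvC893 K`, `SphInvC893 K'`, `SphInertC893`, `SphSplitC893`;
* the small leaves `LevelUniqC893 K`, `LevelUniqC893 K'`, `LevelAtC893`.

    supplySC_of_open893h : OpenSupply893h P K K' → T7.SupplySC P K K'
-/

set_option autoImplicit false

open AutomorphicForm IsDedekindDomain NumberField MeasureTheory
open scoped ComplexConjugate

noncomputable section

namespace Fermat.Agent.LT.T7.H893

open Fermat.Agent.LT Fermat.Agent.LT.H556 Fermat.Agent.LT.H556.A0 Fermat.Agent.LT.T7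

attribute [local instance] Fermat.Agent.LT.T5.instMeasurableSpaceG

section Closed

variable (P : EKCond)
variable (K K' : Type) [Field K] [NumberField K] [Field K'] [NumberField K'] [Algebra K K']

/-- **THE OPEN WALL of `SupplySC`** (integration v8). -/
structure OpenSupply893h : Prop where
  t6 : T6.T6Out
  globMatch : GlobMatchC893 K K'
  base : BaseCb P K K'
  prodShape : ProdShapeC893 K K'
  sphInv : SphInvC893 K
  sphInv' : SphInvC893 K'
  sphInert : SphInertC893 K K'
  sphSplit : SphSplitC893 K K'
  levelUniq : LevelUniqC893 K
  levelUniq' : LevelUniqC893 K'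
  levelAt : LevelAtC893 K K'

variable {P K K'}

/-- **THE STABLE SUPPLY from the open wall (v8).** -/
theorem supplySC_of_open893h (h : OpenSupply893h P K K') : SupplySC P K K' :=
  supplySC_of_open893g
    { globMatch := h.globMatch
      base := h.base
      prodShape := h.prodShape
      sphHyp := sphHypC_of893 h.t6 h.sphInv h.sphInv' h.sphInert h.sphSplit
      levelUniq := h.levelUniq
      levelUniq' := h.levelUniq'
      levelAt := h.levelAt }

end Closed

end Fermat.Agent.LT.T7.H893

end
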