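import Mathlib
import Fermat.Agent.LT.T7.H893.SupplyClosed8
import Fermat.Agent.LT.T7.H305.Match893Closed4
import Fermat.Agent.LT.T7.H555.LocEqSplit
import Fermat.Agent.LT.T7.Q797.BaseCutTop2
import Fermat.Agent.LT.T7.H253.ExpC
import Fermat.Agent.LT.T7.H253.CosetC
import Fermat.Agent.LT.T7.P51.ProdMtTop
import Fermat.Agent.LT.T7.P51.GlobProdSpec
import Fermat.Agent.LT.T7.H644.ProdBook
import Fermat.Agent.LT.T7.H301.LevelUniq

/-!
# Row LT, tower T7, node T7.L2.1 `SupplySC` (sub-architect helper893): INTEGRATION v9

OFF-MAIN.  No `sorry`, nothing assumed.  ADDITIVE.  ONE closure with the cuts of the three open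
nodes and their closed leaves (byte-identical copies):

* `GlobMatchC893`: integration v4 of helper305 (`H305.globMatchC893_of_open305c`), with
  `LocEqSplitC305b` closed by helper555 (`locEqSplitC305b555`);
  OPEN: `T6.T6Out` (closed on the master, helper22), `H305.UpFactC305b`.
* `BaseCb P`: the cut of helper797 (`Q797.baseCb_of797`), with `ExpC797`, `CosetC797` closed by
  helper253 (`expC253`, `cosetC253`);
  OPEN: `Q797.PairAC797 P K K' LocA893`, `Q797.PairBC797 P K K' LocB893b`.
* `ProdMtCb κ`: TWO routes.
  (i) CUT OF RECORD = helper51 (`P51.prodMtCb_of51`, `locProdC_of51`, `globProdC_of51`), with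
  the bookkeeping leaves closed by helper644 (`unramC644`, `levelAtC644`, `levelUniqC644`);
  OPEN: `OpAvgC51`, `ConvAvgC51`, `RegOrbC51`, `RegSphC51`, `RegArchC51`, `InertSphC51`,
  `SplitOrbC51`, `SplitSphC51`, `ArchProdC51`.
  (ii) SPARE = the sixth cut of helper893 (`prodMtCb_of893`, `sphHypC_of893`), with
  `LevelUniqC893` closed by helper301 (`levelUniqC301`) and `LevelAtC893` by helper644;
  OPEN: `ProdShapeC893`, `SphInvC893 K`, `SphInvC893 K'`, `SphInertC893`, `SphSplitC893`.

    supplySC_of_open893i : OpenSupply893i P K K' → T7.SupplySC P K K'     (route (i))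
    supplySC_of_open893j : OpenSupply893j P K K' → T7.SupplySC P K K'     (route (ii))
-/

set_option autoImplicit false

open AutomorphicForm IsDedekindDomain NumberField MeasureTheory
open scoped ComplexConjugate

noncomputable section

namespace Fermat.Agent.LT.T7.H893

open Fermat.Agent.LT Fermat.Agent.LT.H556 Fermat.Agent.LT.H556.A0 Fermat.Agent.LT.T7

attribute [local instance] Fermat.Agent.LT.T5.instMeasurableSpaceG

section Closed

variable (P : EKCond)
variable (K K' : Type) [Field K] [NumberField K] [Field K'] [NumberField K'] [Algebra K K']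

/-- The open wall of the matching theorem and of the base node (common to both routes). -/
structure OpenCore893i : Prop where
  t6 : T6.T6Out
  upFact : H305.UpFactC305b K K'
  pairA : Q797.PairAC797 P K K' LocA893
  pairB : Q797.PairBC797 P K K' LocB893b

/-- **THE OPEN WALL of `SupplySC`** (integration v9, route (i): the cut of helper51 for
`ProdMtCb`). -/
structure OpenSupply893i : Prop extends OpenCore893i P K K' where
  opAvg : P51.OpAvgC51 K K'
  convAvg : P51.ConvAvgC51 K K'
  regOrb : P51.RegOrbC51 K K'
  regSph : P51.RegSphC51 K K'
  regArch : P51.RegArchC51 K K'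
  inertSph : P51.InertSphC51 K K'
  splitOrb : P51.SplitOrbC51 K K'
  splitSph : P51.SplitSphC51 K K'
  archProd : P51.ArchProdC51 K K'

/-- **THE OPEN WALL of `SupplySC`** (integration v9, route (ii): the sixth cut of helper893 for
`ProdMtCb`). -/
structure OpenSupply893j : Prop extends OpenCore893i P K K' where
  prodShape : ProdShapeC893 K K'
  sphInv : SphInvC893 K
  sphInv' : SphInvC893 K'
  sphInert : SphInertC893 K K'
  sphSplit : SphSplitC893 K K'

variable {P K K'}

/-- The matching theorem from the open core. -/
theorem globMatchC893_of_core893i (h : OpenCore893i P K K') : GlobMatchC893 K K' :=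
  H305.globMatchC893_of_open305c
    { t6 := h.t6
      upFact := h.upFact
      locEqSplit := H555.locEqSplitC305b555 (K := K) (K' := K') }

/-- The base node from the open core. -/
theorem baseCb_of_core893i (h : OpenCore893i P K K') : BaseCb P K K' :=
  Q797.baseCb_of797 (H253.expC253 K K') (H253.cosetC253 K K') h.pairA h.pairB

/-- **THE STABLE SUPPLY from the open wall (v9, route (i)).** -/
theorem supplySC_of_open893i (h : OpenSupply893i P K K') : SupplySC P K K' :=
  supplySC_of_open893f
    { globMatch := globMatchC893_of_core893i h.toOpenCore893i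
      base := baseCb_of_core893i h.toOpenCore893i
      prodMt := fun κ hκ =>
        P51.prodMtCb_of51 (P51.globProdC_of51 h.opAvg h.convAvg)
          (P51.locProdC_of51 h.regOrb h.regSph h.regArch h.inertSph h.splitOrb h.splitSph
            h.archProd)
          (H644.unramC644 K K') (H644.levelAtC644 K K') H644.levelUniqC644 κ hκ }

/-- **THE STABLE SUPPLY from the open wall (v9, route (ii)).** -/
theorem supplySC_of_open893j (h : OpenSupply893j P K K') : SupplySC P K K' :=
  supplySC_of_open893h
    { t6 := h.t6
      globMatch := globMatchC893_of_core893i h.toOpenCore893i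
      base := baseCb_of_core893i h.toOpenCore893i
      prodShape := h.prodShape
      sphInv := h.sphInv
      sphInv' := h.sphInv'
      sphInert := h.sphInert
      sphSplit := h.sphSplit
      levelUniq := H301.levelUniqC301 K
      levelUniq' := H301.levelUniqC301 K'
      levelAt := H644.levelAtC644 K K' }

end Closed

end Fermat.Agent.LT.T7.H893

end
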