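import Mathlib
import Fermat.Agent.LT.T7.H893.SupplyClosed9
import Fermat.Agent.LT.T7.H305.Match893Closed6
import Fermat.Agent.LT.T7.H193.PairBClosed
import Fermat.Agent.LT.T7.H314.SphHyp
import Fermat.Agent.LT.T7.H561.RegArch
import Fermat.Agent.LT.T7.H409.RegOrb
import Fermat.Agent.LT.T7.H44.ArchProd
import Fermat.Agent.LT.T7.P51.ConvAvgTop
import Fermat.Agent.LT.T7.H53.ConvFam
import Fermat.Agent.LT.T7.H644.ConvSmall

/-!
# Row LT, tower T7, node T7.L2.1 `SupplySC` (sub-architect helper893): INTEGRATION v10

OFF-MAIN.  No `sorry`, nothing assumed.  ADDITIVE.  ONE closure with the cuts of the three nodes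
and their closed leaves (byte-identical copies):

* `GlobMatchC893`: CLOSED by helper305 (`H305.globMatchC893_closed305`, from `T6.T6Out` only;
  `UpFactC305b` closed by helper930, `LocEqSplitC305b` by helper555).
* `BaseCb P`: the cut of helper797 (`Q797.baseCb_of797`), with `ExpC797`, `CosetC797` closed by
  helper253, and the node PAIR-B reduced by helper193 (`H193.pairBCb_of_preBC193`) to the
  un-averaged, kill-free second pair `PB57.PreBC57` of helper57;
  OPEN: `Q797.PairAC797 P K K' LocA893`, `PB57.PreBC57 P K K' LocB893b`.
* `ProdMtCb κ`: TWO routes.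
  (i) CUT OF RECORD = helper51 (`P51.prodMtCb_of51`, `locProdC_of51`, `globProdC_of51`,
  `convAvgC_of51`); closed leaves: `RegOrbC51` (helper409), `RegArchC51` (helper561),
  `ArchProdC51` (helper44), `ConvFamC51` (helper53), the eight small leaves of `ConvAvgC51` and
  the three bookkeeping leaves (helper644);
  OPEN: `OpAvgC51`, `RegAC51`, `RegOpC51`, `RegSphC51`, `InertSphC51`, `SplitOrbC51`,
  `SplitSphC51`.
  (ii) SPARE = the sixth cut of helper893 (`prodMtCb_of893`), with the WHOLE node `SphHypC893`
  closed by helper314 (`H314.sphHypC_of314`, from `T6.T6Out`), `LevelUniqC893` by helper301,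
  `LevelAtC893` by helper644;
  OPEN: `ProdShapeC893` ONLY.

    supplySC_of_open893k : OpenSupply893k P K K' → T7.SupplySC P K K'     (route (i))
    supplySC_of_open893l : OpenSupply893l P K K' → T7.SupplySC P K K'     (route (ii))
-/

set_option autoImplicit false

open AutomorphicForm IsDedekindDomain NumberField MeasureTheory
open scoped ComplexConjugate

noncomputable section

namespace Fermat.Agent.LT.T7.H893

open Fermat.Agent.LT Fermat.Agent.LT.H556 Fermat.Agent.LT.H556.A0 Fermat.Agent.LT.T7

attribute [local instance] Fermat.Agent.LT.T5.instMeasurableSpaceG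

section Closed

variable (P : EKCond)
variable (K K' : Type) [Field K] [NumberField K] [Field K'] [NumberField K'] [Algebra K K']

/-- The open wall of the base node (common to both routes), integration v10: the output of the
tower T6 (closed on the master) and the two pairs. -/
structure OpenCore893k : Prop where
  t6 : T6.T6Out
  pairA : Q797.PairAC797 P K K' LocA893
  preB : PB57.PreBC57 P K K' LocB893b

/-- **THE OPEN WALL of `SupplySC`** (integration v10, route (i): the cut of helper51 for
`ProdMtCb`). -/
structure OpenSupply893k : Prop extends OpenCore893k P K K' where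
  opAvg : P51.OpAvgC51 K K'
  regA : P51.RegAC51 K K'
  regOp : P51.RegOpC51 K K'
  regSph : P51.RegSphC51 K K'
  inertSph : P51.InertSphC51 K K'
  splitOrb : P51.SplitOrbC51 K K'
  splitSph : P51.SplitSphC51 K K'

/-- **THE OPEN WALL of `SupplySC`** (integration v10, route (ii): the sixth cut of helper893 for
`ProdMtCb`). -/
structure OpenSupply893l : Prop extends OpenCore893k P K K' where
  prodShape : ProdShapeC893 K K'

variable {P K K'}

/-- The matching theorem from the open core (closed by helper305). -/
theorem globMatchC893_of_core893k (h : OpenCore893k P K K') : GlobMatchC893 K K' :=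
  H305.globMatchC893_closed305 K K' h.t6

/-- The base node from the open core. -/
theorem baseCb_of_core893k (h : OpenCore893k P K K') : BaseCb P K K' :=
  Q797.baseCb_of797 (H253.expC253 K K') (H253.cosetC253 K K') h.pairA
    (H193.pairBCb_of_preBC193 h.preB)

/-- The node `ConvAvgC51` of helper51 from its two open leaves. -/
theorem convAvgC_of_open893k (hRA : P51.RegAC51 K K') (hRO : P51.RegOpC51 K K') :
    P51.ConvAvgC51 K K' :=
  P51.convAvgC_of51 (H53.convFamC53 K') (H53.convFamC53 K) (H644.testSmulC644 K)
    H644.locConvExC644 H644.unitConvC644 H644.unitRegC644 hRA hRO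
    (H644.overFinC644 K K') (H644.belowUniqC644 K K') (H644.belowExC644 K K')
    (H644.totCplxUpC644 K K') (H644.levelAtC644 K K')

/-- **THE STABLE SUPPLY from the open wall (v10, route (i)).** -/
theorem supplySC_of_open893k (h : OpenSupply893k P K K') : SupplySC P K K' :=
  supplySC_of_open893f
    { globMatch := globMatchC893_of_core893k h.toOpenCore893k
      base := baseCb_of_core893k h.toOpenCore893k
      prodMt := fun κ hκ =>
        P51.prodMtCb_of51 (P51.globProdC_of51 h.opAvg (convAvgC_of_open893k h.regA h.regOp))
          (P51.locProdC_of51 (H409.regOrbC409 K K') h.regSph (H561.regArchC561 K K')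
            h.inertSph h.splitOrb h.splitSph (H44.archProdC44 K K'))
          (H644.unramC644 K K') (H644.levelAtC644 K K') H644.levelUniqC644 κ hκ }

/-- **THE STABLE SUPPLY from the open wall (v10, route (ii)).** -/
theorem supplySC_of_open893l (h : OpenSupply893l P K K') : SupplySC P K K' :=
  supplySC_of_open893g
    { globMatch := globMatchC893_of_core893k h.toOpenCore893k
      base := baseCb_of_core893k h.toOpenCore893k
      prodShape := h.prodShape
      sphHyp := H314.sphHypC_of314 K K' h.t6
      levelUniq := H301.levelUniqC301 K
      levelUniq' := H301.levelUniqC301 K'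
      levelAt := H644.levelAtC644 K K' }

end Closed

end Fermat.Agent.LT.T7.H893

end
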