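import Mathlib
import Fermat.Agent.LT.T7.H893.SupplyClosed10
import Fermat.Agent.LT.T7.H57.PreBTop

/-!
# Row LT, tower T7, node T7.L2.1 `SupplySC` (sub-architect helper893): INTEGRATION v11

OFF-MAIN.  No `sorry`, nothing assumed.  ADDITIVE.  Integration v10 with the SECOND CUT of the
un-averaged second pair `PB57.PreBC57` by helper57 (`PB57.preBC_of57`: THE SWAP; byte-identical
copies of `T7/H57/PreBSpec.lean`, `T7/H57/PreBTop.lean`): the second pair is the first pair with
the components at the places of the level swapped, so the node `PreBC57` follows from the node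
PAIR-A, the partner family `BadPartC57` (T6) and the thirteen swap leaves `OpenSwap57`.

    supplySC_of_open893m : OpenSupply893m P K K' → T7.SupplySC P K K'     (route (i))
    supplySC_of_open893n : OpenSupply893n P K K' → T7.SupplySC P K K'     (route (ii))

OPEN WALL (route (ii)): `T6.T6Out` (closed on the master), `Q797.PairAC797 P K K' LocA893`,
`PB57.BadPartC57 K K'`, `PB57.OpenSwap57 K K'`, `ProdShapeC893 K K'`.
-/

set_option autoImplicit false

open AutomorphicForm IsDedekindDomain NumberField MeasureTheory
open scoped ComplexConjugate

noncomputable section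

namespace Fermat.Agent.LT.T7.H893

open Fermat.Agent.LT Fermat.Agent.LT.H556 Fermat.Agent.LT.H556.A0 Fermat.Agent.LT.T7

attribute [local instance] Fermat.Agent.LT.T5.instMeasurableSpaceG

/-- A Haar measure on `GL₂(ℂ)` (Borel) exists. -/
theorem exists_haarC893 :
    ∃ μc : @Measure (GL (Fin 2) ℂ) (borel _), @Measure.IsHaarMeasure _ _ _ (borel _) μc := by
  letI : MeasurableSpace (GL (Fin 2) ℂ) := borel _
  haveI : BorelSpace (GL (Fin 2) ℂ) := ⟨rfl⟩
  haveI : LocallyCompactSpace (GL (Fin 2) ℂ) := H561.locallyCompact_GL2C561
  exact ⟨MeasureTheory.Measure.haar, inferInstance⟩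

section Closed

variable (P : EKCond)
variable (K K' : Type) [Field K] [NumberField K] [Field K'] [NumberField K'] [Algebra K K']

/-- The open wall of the base node (common to both routes), integration v11: the output of the
tower T6 (closed on the master), the first pair, the partner family and the swap leaves. -/
structure OpenCore893m : Prop where
  t6 : T6.T6Out
  pairA : Q797.PairAC797 P K K' LocA893
  badPart : PB57.BadPartC57 K K'
  swap : PB57.OpenSwap57 K K'

/-- **THE OPEN WALL of `SupplySC`** (integration v11, route (i): the cut of helper51 for
`ProdMtCb`). -/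
structure OpenSupply893m : Prop extends OpenCore893m P K K' where
  opAvg : P51.OpAvgC51 K K'
  regA : P51.RegAC51 K K'
  regOp : P51.RegOpC51 K K'
  regSph : P51.RegSphC51 K K'
  inertSph : P51.InertSphC51 K K'
  splitOrb : P51.SplitOrbC51 K K'
  splitSph : P51.SplitSphC51 K K'

/-- **THE OPEN WALL of `SupplySC`** (integration v11, route (ii): the sixth cut of helper893 for
`ProdMtCb`). -/
structure OpenSupply893n : Prop extends OpenCore893m P K K' where
  prodShape : ProdShapeC893 K K'

variable {P K K'}

/-- The open core of v10 from the open core of v11 (the swap of helper57). -/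
theorem openCore893k_of_core893m (h : OpenCore893m P K K') : OpenCore893k P K K' :=
  { t6 := h.t6
    pairA := h.pairA
    preB := PB57.preBC_of57 P K K' exists_haarC893 h.pairA h.badPart h.swap }

/-- **THE STABLE SUPPLY from the open wall (v11, route (i)).** -/
theorem supplySC_of_open893m (h : OpenSupply893m P K K') : SupplySC P K K' :=
  supplySC_of_open893k
    { toOpenCore893k := openCore893k_of_core893m h.toOpenCore893m
      opAvg := h.opAvg
      regA := h.regA
      regOp := h.regOp
      regSph := h.regSph
      inertSph := h.inertSph
      splitOrb := h.splitOrb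
      splitSph := h.splitSph }

/-- **THE STABLE SUPPLY from the open wall (v11, route (ii)).** -/
theorem supplySC_of_open893n (h : OpenSupply893n P K K') : SupplySC P K K' :=
  supplySC_of_open893l
    { toOpenCore893k := openCore893k_of_core893m h.toOpenCore893m
      prodShape := h.prodShape }

end Closed

end Fermat.Agent.LT.T7.H893

end
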