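import Mathlib
import Fermat.Agent.LT.T7.H893.SupplyClosed11
import Fermat.Agent.LT.T7.P51.H321.SplitOrb
import Fermat.Agent.LT.T7.H724.ProdShapeTop

/-!
# Row LT, tower T7, node T7.L2.1 `SupplySC` (sub-architect helper893): INTEGRATION v12

OFF-MAIN.  No `sorry`, nothing assumed.  ADDITIVE.  Integration v11 with

* `P51.SplitOrbC51` closed by helper321 (`P51.H321.splitOrbC321`);
* the cut of `ProdShapeC893` by helper724 (`PS724.prodShapeC_of_leaves724`: on the vocabulary
  of the cut of helper51; ONE new leaf `PS724.SphProdC724`).

So the two routes to `ProdMtCb` share the global calculus (`OpAvgC51`, `ConvAvgC51`) and differ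
only outside the level.

    supplySC_of_open893o : OpenSupply893o P K K' → T7.SupplySC P K K'     (route (i))
    supplySC_of_open893p : OpenSupply893p P K K' → T7.SupplySC P K K'     (route (ii))

OPEN WALL, common part (`OpenGlob893o`): `T6.T6Out` (closed on the master),
`Q797.PairAC797 P K K' LocA893`, `PB57.BadPartC57 K K'`, `PB57.OpenSwap57 K K'`,
`P51.OpAvgC51 K K'`, `P51.RegAC51 K K'`, `P51.RegOpC51 K K'`;
route (i): + `P51.RegSphC51`, `P51.InertSphC51`, `P51.SplitSphC51`;
route (ii): + `PS724.SphProdC724`.
-/

set_option autoImplicit false

open AutomorphicForm IsDedekindDomain NumberField MeasureTheory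
open scoped ComplexConjugate

noncomputable section

namespace Fermat.Agent.LT.T7.H893

open Fermat.Agent.LT Fermat.Agent.LT.H556 Fermat.Agent.LT.H556.A0 Fermat.Agent.LT.T7

attribute [local instance] Fermat.Agent.LT.T5.instMeasurableSpaceG

section Closed

variable (P : EKCond)
variable (K K' : Type) [Field K] [NumberField K] [Field K'] [NumberField K'] [Algebra K K']

/-- The common part of the open wall (integration v12): the open core of v11 and the global
calculus of the cut of helper51. -/
structure OpenGlob893o : Prop extends OpenCore893m P K K' where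
  opAvg : P51.OpAvgC51 K K'
  regA : P51.RegAC51 K K'
  regOp : P51.RegOpC51 K K'

/-- **THE OPEN WALL of `SupplySC`** (integration v12, route (i): the cut of helper51 for
`ProdMtCb`). -/
structure OpenSupply893o : Prop extends OpenGlob893o P K K' where
  regSph : P51.RegSphC51 K K'
  inertSph : P51.InertSphC51 K K'
  splitSph : P51.SplitSphC51 K K'

/-- **THE OPEN WALL of `SupplySC`** (integration v12, route (ii): the sixth cut of helper893
for `ProdMtCb`, with the cut of helper724 for `ProdShapeC893`). -/
structure OpenSupply893p : Prop extends OpenGlob893o P K K' where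
  sphProd : PS724.SphProdC724 K K'

variable {P K K'}

/-- **THE STABLE SUPPLY from the open wall (v12, route (i)).** -/
theorem supplySC_of_open893o (h : OpenSupply893o P K K') : SupplySC P K K' :=
  supplySC_of_open893m
    { toOpenCore893m := h.toOpenCore893m
      opAvg := h.opAvg
      regA := h.regA
      regOp := h.regOp
      regSph := h.regSph
      inertSph := h.inertSph
      splitOrb := P51.H321.splitOrbC321 K K'
      splitSph := h.splitSph }

/-- The node `ProdShapeC893` from the common part and the leaf of helper724. -/
theorem prodShapeC_of_open893p (h : OpenGlob893o P K K') (hS : PS724.SphProdC724 K K') :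
    ProdShapeC893 K K' :=
  PS724.prodShapeC_of_leaves724 h.opAvg (convAvgC_of_open893k h.regA h.regOp)
    (H409.regOrbC409 K K') (H561.regArchC561 K K') (P51.H321.splitOrbC321 K K')
    (H44.archProdC44 K K') hS

/-- **THE STABLE SUPPLY from the open wall (v12, route (ii)).** -/
theorem supplySC_of_open893p (h : OpenSupply893p P K K') : SupplySC P K K' :=
  supplySC_of_open893n
    { toOpenCore893m := h.toOpenCore893m
      prodShape := prodShapeC_of_open893p h.toOpenGlob893o h.sphProd }

end Closed

end Fermat.Agent.LT.T7.H893

end
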