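import Mathlib
import Fermat.Agent.LT.T7.H893.SupplyClosed12
import Fermat.Agent.LT.T7.B981.PairAClosed
import Fermat.Agent.LT.T7.H952.UpGood
import Fermat.Agent.LT.T7.H919.DnStab
import Fermat.Agent.LT.T7.H999.NormFrame

/-!
# Row LT, tower T7, node T7.L2.1 `SupplySC` (sub-architect helper893): INTEGRATION v13

OFF-MAIN.  No `sorry`, nothing assumed.  ADDITIVE.  Integration v12 for the condition `ekMulti`
(the condition of the master) with the integration v1 of the FIRST PAIR by helper981
(`B981.pairAC_open981`: cuts 2, 3, 4 of `Q797.PairAC797 ekMulti K K' LocA893`; discharged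
there: `StepSC981` helper503, `DnGoodC981` helper34, `IwSuppC981` helper726, `ShapeC981`
helper607) and the leaves `UpGoodC981` (helper952), `DnStabC981` (helper919), `NormFrameC981`
(helper999), byte-identical copies.

    pairAC_of_open893q   : OpenPairA893q K K' → Q797.PairAC797 ekMulti K K' LocA893
    supplySC_of_open893q : OpenSupply893q K K' → T7.SupplySC ekMulti K K'     (route (i))
    supplySC_of_open893r : OpenSupply893r K K' → T7.SupplySC ekMulti K K'     (route (ii))

OPEN WALL, common part (`OpenGlob893q`): `T6.T6Out` (closed on the master);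
FIRST PAIR: `B981.UpDatC981 K'`, `B981.DownFinC981`, `B981.DownArchC981`, `B981.PushTelC981`,
`B981.StepTC981 K K' LocA893`, `B981.StepMC981 K K' LocA893`;
SECOND PAIR: `PB57.BadPartC57`, `PB57.OpenSwap57` (13 leaves);
PRODUCTS: `P51.OpAvgC51`, `P51.RegAC51`, `P51.RegOpC51`;
route (i): + `P51.RegSphC51`, `P51.InertSphC51`, `P51.SplitSphC51`;
route (ii): + `PS724.SphProdC724`.
-/

set_option autoImplicit false

open AutomorphicForm IsDedekindDomain NumberField MeasureTheory
open scoped ComplexConjugate

noncomputable section

namespace Fermat.Agent.LT.T7.H893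

open Fermat.Agent.LT Fermat.Agent.LT.H556 Fermat.Agent.LT.H556.A0 Fermat.Agent.LT.T7

attribute [local instance] Fermat.Agent.LT.T5.instMeasurableSpaceG

section Closed

variable (K K' : Type) [Field K] [NumberField K] [Field K'] [NumberField K'] [Algebra K K']

/-- The open wall of the FIRST PAIR (integration v1 of helper981 with three more leaves). -/
structure OpenPairA893q : Prop where
  upDat : B981.UpDatC981 K'
  downFin : B981.DownFinC981 K K'
  downArch : B981.DownArchC981 K K'
  pushTel : B981.PushTelC981 K K'
  stepT : B981.StepTC981 K K' LocA893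
  stepM : B981.StepMC981 K K' LocA893

/-- The common part of the open wall (integration v13, condition `ekMulti`). -/
structure OpenGlob893q : Prop extends OpenPairA893q K K' where
  t6 : T6.T6Out
  badPart : PB57.BadPartC57 K K'
  swap : PB57.OpenSwap57 K K'
  opAvg : P51.OpAvgC51 K K'
  regA : P51.RegAC51 K K'
  regOp : P51.RegOpC51 K K'

/-- **THE OPEN WALL of `SupplySC ekMulti`** (integration v13, route (i)). -/
structure OpenSupply893q : Prop extends OpenGlob893q K K' where
  regSph : P51.RegSphC51 K K'
  inertSph : P51.InertSphC51 K K'
  splitSph : P51.SplitSphC51 K K'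

/-- **THE OPEN WALL of `SupplySC ekMulti`** (integration v13, route (ii)). -/
structure OpenSupply893r : Prop extends OpenGlob893q K K' where
  sphProd : PS724.SphProdC724 K K'

variable {K K'}

/-- **THE FIRST PAIR from its open wall.** -/
theorem pairAC_of_open893q (h : OpenPairA893q K K') :
    Q797.PairAC797 ekMulti K K' LocA893 :=
  B981.pairAC_open981 h.upDat (H999.normFrameC999 K K') h.downFin h.downArch h.pushTel
    (H952.upGoodC952 K K') (DS919.dnStabC919 K K') h.stepT h.stepM

/-- The common part of v12 from the common part of v13. -/
theorem openGlob893o_of_glob893q (h : OpenGlob893q K K') : OpenGlob893o ekMulti K K' :=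
  { t6 := h.t6
    pairA := pairAC_of_open893q h.toOpenPairA893q
    badPart := h.badPart
    swap := h.swap
    opAvg := h.opAvg
    regA := h.regA
    regOp := h.regOp }

/-- **THE STABLE SUPPLY from the open wall (v13, route (i)).** -/
theorem supplySC_of_open893q (h : OpenSupply893q K K') : SupplySC ekMulti K K' :=
  supplySC_of_open893o
    { toOpenGlob893o := openGlob893o_of_glob893q h.toOpenGlob893q
      regSph := h.regSph
      inertSph := h.inertSph
      splitSph := h.splitSph }

/-- **THE STABLE SUPPLY from the open wall (v13, route (ii)).** -/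
theorem supplySC_of_open893r (h : OpenSupply893r K K') : SupplySC ekMulti K K' :=
  supplySC_of_open893p
    { toOpenGlob893o := openGlob893o_of_glob893q h.toOpenGlob893q
      sphProd := h.sphProd }

end Closed

end Fermat.Agent.LT.T7.H893

end
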