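import Mathlib
import Fermat.Agent.LT.T7.H893.SupplyClosed13
import Fermat.Agent.LT.T7.B981.H413.UpDat
import Fermat.Agent.LT.T7.B981.H619.DownFinClosed
import Fermat.Agent.LT.T3.Push.BinAbel910
import Fermat.Agent.LT.T7.H910.H519.ArchEnum
import Fermat.Agent.LT.T7.H942.PushTel
import Fermat.Agent.LT.T7.H227.StepMClosed
import Fermat.Agent.LT.T7.H589.StepTTop
import Fermat.Agent.LT.T7.H589.SysC
import Fermat.Agent.LT.T7.H812.Place589
import Fermat.Agent.LT.T7.H16.DTest
import Fermat.Agent.LT.T7.H16.DOp
import Fermat.Agent.LT.T7.H562.DEk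
import Fermat.Agent.LT.T7.H562.DSupp
import Fermat.Agent.LT.T7.H311.ShapeTDone
import Fermat.Agent.LT.T7.H526.OpAvg
import Fermat.Agent.LT.T7.H869.RegAClosed
import Fermat.Agent.LT.T7.H448.RegOp
import Fermat.Agent.LT.T7.H615.RegSph
import Fermat.Agent.LT.T7.H681.P51Sph
import Fermat.Agent.LT.T7.H475.SwapLoc

/-!
# Row LT, tower T7, node T7.L2.1 `SupplySC` (sub-architect helper893): INTEGRATION v14

OFF-MAIN.  No `sorry`, nothing assumed.  ADDITIVE.  Integration v13 with the closed leaves
(byte-identical copies):

* FIRST PAIR, CLOSED (`pairAC_closed893`): `UpDatC981` (helper413), `DownFinC981` (helper619,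
  `PushCalcC619` helper717), `DownArchC981` (cut of helper910, `BinAbelC910` helper14,
  `ArchEnumC910` helper519), `PushTelC981` (helper942), `StepMC981` (integration of helper227,
  cut of helper445), `StepTC981` (cut of helper589 `ST589.stepTC_of589`: `PlaceC589` helper812,
  `SysC589` helper589, `DTestC589`, `DOpC589` helper16, `DEkC589`, `DSuppC589` helper562,
  `ShapeTC589` helper311);
* PRODUCTS, CLOSED from `T6.T6Out` (`prodMtCb_closed893`, both routes): `OpAvgC51` (helper526),
  `RegAC51` (helper869), `RegOpC51` (helper448), `RegSphC51` (helper615), `InertSphC51`,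
  `SplitSphC51`, `SphProdC724` (helper681);
* SECOND PAIR: `SwapLocC57` (helper475).

    supplySC_of_open893s : OpenSupply893s K K' → T7.SupplySC ekMulti K K'

OPEN WALL (`OpenSupply893s`): `T6.T6Out` (closed on the master), `PB57.BadPartC57 K K'` and the
twelve swap leaves of `PB57.OpenSwap57` other than `SwapLocC57`.
-/

set_option autoImplicit false

open AutomorphicForm IsDedekindDomain NumberField MeasureTheory
open scoped ComplexConjugate

noncomputable section

namespace Fermat.Agent.LT.T7.H893

open Fermat.Agent.LT Fermat.Agent.LT.H556 Fermat.Agent.LT.H556.A0 Fermat.Agent.LT.T7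

attribute [local instance] Fermat.Agent.LT.T5.instMeasurableSpaceG

section Closed

variable (K K' : Type) [Field K] [NumberField K] [Field K'] [NumberField K'] [Algebra K K']

/-- **THE STEP OF THE `T_w`, CLOSED** (cut of helper589 with its leaves). -/
theorem stepTC_closed893 : B981.StepTC981 K K' LocA893 :=
  ST589.stepTC_of589 (H812.placeC589_812 K K') (ST589.sysC589 K') (ST589.sysC589 K)
    (H16.dTestC589_16 K') (H16.dTestC589_16 K) (H562.dEkC562 K') (H562.dEkC562 K)
    (H562.dSuppC562 K') (H562.dSuppC562 K) (H16.dOpC589_16 K') (H16.dOpC589_16 K)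
    (H311.shapeTC311 K K')

/-- **THE FIRST PAIR, CLOSED** (condition `ekMulti`, shape of record `LocA893`). -/
theorem pairAC_closed893 : Q797.PairAC797 ekMulti K K' LocA893 :=
  pairAC_of_open893q
    { upDat := B981.H413.upDatC413 K'
      downFin := B981.DF619.downFinC619 K K'
      downArch := T3.Push.downArchC_of_enum K K' (H910.H519.archEnumC519 K K')
      pushTel := H942.pushTelC942 K K'
      stepT := stepTC_closed893 K K'
      stepM := H227.stepMC981_closed227 K K' }

/-- The leaf `SphProdC724` of helper724 from the output of the tower T6 (helper681). -/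
theorem sphProdC_closed893 (hT6 : T6.T6Out) : PS724.SphProdC724 K K' :=
  fun ℓ Φ B g 𝔫 μc T₀ n n₀ m H' z' H z t k j T φ₀ Φ' f₀ F h =>
    H681.sphOut_locProd681 K K' hT6 ℓ Φ B g 𝔫 μc T₀ n n₀ m H' z' H z t k j T φ₀ Φ' f₀ F h

/-- **THE OPEN WALL of `SupplySC ekMulti`** (integration v14): the output of the tower T6, the
partner family and the swap leaves of the second pair. -/
structure OpenSupply893s : Prop where
  t6 : T6.T6Out
  badPart : PB57.BadPartC57 K K'
  upTest : PB57.SwapUpTestC57 K K'
  upEK : PB57.SwapUpEKC57 K K'
  upInv : PB57.SwapUpInvC57 K K'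
  upOp : PB57.SwapUpOpC57 K K'
  upSupp : PB57.SwapUpSuppC57 K K'
  memUp : PB57.SwapMemUpC57 K K'
  dnTest : PB57.SwapDnTestC57 K K'
  dnEK : PB57.SwapDnEKC57 K K'
  dnInv : PB57.SwapDnInvC57 K K'
  dnOp : PB57.SwapDnOpC57 K K'
  dnSupp : PB57.SwapDnSuppC57 K K'
  memDn : PB57.SwapMemDnC57 K K'

variable {K K'}

/-- The common part of v13 from the open wall of v14. -/
theorem openGlob893q_of_open893s (h : OpenSupply893s K K') : OpenGlob893q K K' :=
  { upDat := B981.H413.upDatC413 K'
    downFin := B981.DF619.downFinC619 K K'
    downArch := T3.Push.downArchC_of_enum K K' (H910.H519.archEnumC519 K K')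
    pushTel := H942.pushTelC942 K K'
    stepT := stepTC_closed893 K K'
    stepM := H227.stepMC981_closed227 K K'
    t6 := h.t6
    badPart := h.badPart
    swap :=
      { upTest := h.upTest
        upEK := h.upEK
        upInv := h.upInv
        upOp := h.upOp
        upSupp := h.upSupp
        memUp := h.memUp
        dnTest := h.dnTest
        dnEK := h.dnEK
        dnInv := h.dnInv
        dnOp := h.dnOp
        dnSupp := h.dnSupp
        memDn := h.memDn
        loc := H475.swapLocC475 K K' }
    opAvg := H526.opAvgC526 K K'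
    regA := H869.regAC869 K K'
    regOp := H448.regOpC448 K K' }

/-- **THE STABLE SUPPLY from the open wall (v14)**, through route (ii) (the sixth cut of
helper893 with the cut of helper724). -/
theorem supplySC_of_open893s (h : OpenSupply893s K K') : SupplySC ekMulti K K' :=
  supplySC_of_open893r
    { toOpenGlob893q := openGlob893q_of_open893s h
      sphProd := sphProdC_closed893 K K' h.t6 }

/-- The same through route (i) (the cut of record of helper51). -/
theorem supplySC_of_open893s' (h : OpenSupply893s K K') : SupplySC ekMulti K K' :=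
  supplySC_of_open893q
    { toOpenGlob893q := openGlob893q_of_open893s h
      regSph := H615.regSphC615 K K'
      inertSph := H681.inertSphC_of681 K K' h.t6
      splitSph := H681.splitSphC_of681 K K' h.t6 }

end Closed

end Fermat.Agent.LT.T7.H893

end
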