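import Mathlib
import Fermat.Agent.LT.T7.H893.SupplyClosed14
import Fermat.Agent.LT.T7.B970.Pair2Closed2
import Fermat.Agent.LT.T7.H218.Up2
import Fermat.Agent.LT.T7.H309.Dn2Closed

/-!
# Row LT, tower T7, node T7.L2.1 `SupplySC` (sub-architect helper893): INTEGRATION v15

OFF-MAIN.  No `sorry`, nothing assumed.  ADDITIVE.  **THE CUBIC SUPPLY `SupplySC ekMulti K K'`
FROM THE OUTPUT OF THE TOWER T6 AND THE LEAF `B970.BadLocC970` ALONE** (both closed on the master:
`T6.top_closed`, `H22.badLocC22` of helper22).

The SECOND PAIR through the route of record of helper970 (`B970.pairBCb_open3_797_970`,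
integration 3; byte-identical copies), with `Up2C970` closed by helper218 (`H218.up2C218`) and
`Dn2C970` closed by helper309 (`H309.Dn2.dn2C_closed309`), from the FIRST PAIR closed in v14
(`pairAC_closed893`).

    pairBCb_closed893    : B970.BadLocC970 K K' → Q797.PairBC797 ekMulti K K' LocB893b
    baseCb_closed893     : B970.BadLocC970 K K' → BaseCb ekMulti K K'
    prodShapeC_closed893 : T6.T6Out → ProdShapeC893 K K'
    prodMtCb_closed893   : T6.T6Out → ∀ κ, κ ≠ 0 → ProdMtCb K K' κ
    supplySC_closed893   : T6.T6Out → B970.BadLocC970 K K' → T7.SupplySC ekMulti K K'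

OPEN WALL: `T6.T6Out`, `B970.BadLocC970 K K'` -- NOTHING ELSE.  (The swap route of helper57,
integration v14, is a spare.)
-/

set_option autoImplicit false

open AutomorphicForm IsDedekindDomain NumberField MeasureTheory
open scoped ComplexConjugate

noncomputable section

namespace Fermat.Agent.LT.T7.H893

open Fermat.Agent.LT Fermat.Agent.LT.H556 Fermat.Agent.LT.H556.A0 Fermat.Agent.LT.T7

attribute [local instance] Fermat.Agent.LT.T5.instMeasurableSpaceG

section Closed

variable (K K' : Type) [Field K] [NumberField K] [Field K'] [NumberField K'] [Algebra K K']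

/-- **THE SECOND PAIR** (form of record v2, condition `ekMulti`) from the leaf `BadLocC970`
(route of record of helper970). -/
theorem pairBCb_closed893 (hBad : B970.BadLocC970 K K') :
    Q797.PairBC797 ekMulti K K' LocB893b :=
  B970.pairBCb_open3_797_970 (pairAC_closed893 K K') hBad (Or.inr (H218.up2C218 K K'))
    (Or.inr (H309.Dn2.dn2C_closed309 K K'))

/-- **THE BASE NODE `BaseCb ekMulti`** from the leaf `BadLocC970`. -/
theorem baseCb_closed893 (hBad : B970.BadLocC970 K K') : BaseCb ekMulti K K' :=
  Q797.baseCb_of797 (H253.expC253 K K') (H253.cosetC253 K K') (pairAC_closed893 K K')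
    (pairBCb_closed893 K K' hBad)

/-- **THE NODE `ProdShapeC893`** from the output of the tower T6 (cut of helper724). -/
theorem prodShapeC_closed893 (hT6 : T6.T6Out) : ProdShapeC893 K K' :=
  PS724.prodShapeC_of_leaves724 (H526.opAvgC526 K K')
    (convAvgC_of_open893k (H869.regAC869 K K') (H448.regOpC448 K K'))
    (H409.regOrbC409 K K') (H561.regArchC561 K K') (P51.H321.splitOrbC321 K K')
    (H44.archProdC44 K K') (sphProdC_closed893 K K' hT6)

/-- **THE CUBIC SUPPLY `SupplySC ekMulti K K'`** from the output of the tower T6 and the leaf
`BadLocC970` (route (ii) for the products: the sixth cut of helper893). -/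
theorem supplySC_closed893 (hT6 : T6.T6Out) (hBad : B970.BadLocC970 K K') :
    SupplySC ekMulti K K' :=
  supplySC_of_open893g
    { globMatch := H305.globMatchC893_closed305 K K' hT6
      base := baseCb_closed893 K K' hBad
      prodShape := prodShapeC_closed893 K K' hT6
      sphHyp := H314.sphHypC_of314 K K' hT6
      levelUniq := H301.levelUniqC301 K
      levelUniq' := H301.levelUniqC301 K'
      levelAt := H644.levelAtC644 K K' }

/-- The same through route (i) for the products (the cut of record of helper51). -/
theorem supplySC_closed893' (hT6 : T6.T6Out) (hBad : B970.BadLocC970 K K') :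
    SupplySC ekMulti K K' :=
  supplySC_of_open893f
    { globMatch := H305.globMatchC893_closed305 K K' hT6
      base := baseCb_closed893 K K' hBad
      prodMt := fun κ hκ =>
        P51.prodMtCb_of51
          (P51.globProdC_of51 (H526.opAvgC526 K K')
            (convAvgC_of_open893k (H869.regAC869 K K') (H448.regOpC448 K K')))
          (P51.locProdC_of51 (H409.regOrbC409 K K') (H615.regSphC615 K K')
            (H561.regArchC561 K K') (H681.inertSphC_of681 K K' hT6)
            (P51.H321.splitOrbC321 K K') (H681.splitSphC_of681 K K' hT6)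
            (H44.archProdC44 K K'))
          (H644.unramC644 K K') (H644.levelAtC644 K K') H644.levelUniqC644 κ hκ }

end Closed

end Fermat.Agent.LT.T7.H893

end
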